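import Fermat.Agent.ExplicitFormula.Zeros

/-!
# `-ζ'/ζ` on the vertical sides and on good heights

`-ζ'/ζ (σ + iv) = log (|v| + 2) + O (1)` for `σ = -1, -1/2`, from the functional equation and
`Γ'/Γ z = log (|im z| + 2) + O (1)`.
-/

set_option autoImplicit false

noncomputable section

namespace FA.PairCorrelation

open Complex Finset FA.RiemannMangoldt FA.ExplicitFormula FA.ZeroFree
open scoped Real

/-- `Γ'/Γ z = log (|im z| + 2) + O (1)`. -/
theorem norm_digamma_sub_log_le {z : ℂ} (h1 : 1 / 4 ≤ z.re) (h2 : z.re ≤ 4) :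
    ‖deriv Complex.Gamma z / Complex.Gamma z - ((Real.log (|z.im| + 2) : ℝ) : ℂ)‖ ≤ 20 := by
  obtain ⟨v, hv⟩ : ∃ v, v = |z.im| := ⟨_, rfl⟩
  rw [← hv]
  have hv0 : 0 ≤ v := hv ▸ abs_nonneg _
  obtain ⟨N, hN⟩ : ∃ N : ℕ, N = ⌈v⌉₊ + 1 := ⟨_, rfl⟩
  have hN1 : v + 1 ≤ N := by
    rw [hN]; push_cast; linarith [Nat.le_ceil v]
  have hN2 : (N : ℝ) ≤ v + 2 := by
    rw [hN]; push_cast; linarith [Nat.ceil_lt_add_one hv0]
  obtain ⟨a, ha⟩ : ∃ a : ℕ → ℂ,
      a = fun k : ℕ => ((Real.log (1 + 1 / (k + 1)) : ℝ) : ℂ) - (z + (k + 1))⁻¹ := ⟨_, rfl⟩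
  have hlog : ∀ M : ℕ, ∑ k ∈ range M, Real.log (1 + 1 / ((k : ℝ) + 1)) =
      Real.log ((M : ℝ) + 1) := fun M => by
    induction M with
    | zero => simp
    | succ m ih =>
      rw [sum_range_succ, ih, ← Real.log_mul (by positivity) (by positivity)]
      congr 1
      push_cast
      field_simp
  have hinv : ‖∑ k ∈ range N, (z + ((k : ℂ) + 1))⁻¹‖ ≤ 3 := by
    refine (norm_sum_le _ _).trans ?_
    rcases le_or_gt v 1 with h | h
    · refine (sum_le_sum (g := fun _ => (1 : ℝ)) fun k _ => ?_).trans ?_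
      · rw [norm_inv]
        refine inv_le_one_of_one_le₀ (le_trans ?_ (re_le_norm _))
        simp
        linarith [(Nat.cast_nonneg k : (0 : ℝ) ≤ k)]
      · rw [sum_const, card_range, nsmul_one]
        linarith
    · refine (sum_le_sum (g := fun _ => 1 / v) fun k _ => ?_).trans ?_
      · rw [norm_inv, one_div]
        refine inv_anti₀ (by linarith) (le_trans ?_ (abs_im_le_norm _))
        simp [hv]
      · rw [sum_const, card_range, nsmul_eq_mul, mul_one_div, div_le_iff₀ (by linarith)]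
        linarith
  have hhead : ∀ M : ℕ, N ≤ M →
      ‖∑ k ∈ range M, a k - ((Real.log ((N : ℝ) + 1) : ℝ) : ℂ)‖ ≤ 9 := fun M hM => by
    rw [← sum_range_add_sum_Ico _ hM]
    have e : ∑ k ∈ range N, a k = ((Real.log ((N : ℝ) + 1) : ℝ) : ℂ) -
        ∑ k ∈ range N, (z + ((k : ℂ) + 1))⁻¹ := by
      rw [ha, ← hlog N, Complex.ofReal_sum, ← sum_sub_distrib]
    have htail : ‖∑ k ∈ Ico N M, a k‖ ≤ 6 := by
      refine (norm_sum_le _ _).trans ((sum_le_sum (g := fun k : ℕ => (1 + ‖z‖) *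
        (-(1 / ((k + 1 : ℕ) : ℝ)) - -(1 / (k : ℝ)))) fun k hk => ?_).trans ?_)
      · rw [mem_Ico] at hk
        have hk0 : (0 : ℝ) < k := by
          have : (N : ℝ) ≤ k := Nat.cast_le.2 hk.1
          linarith
        rw [ha]
        refine (norm_digammaTerm_le k (by linarith)).2.trans ?_
        rw [div_eq_mul_one_div]
        refine mul_le_mul_of_nonneg_left ?_ (by positivity)
        push_cast
        rw [show -(1 / ((k : ℝ) + 1)) - -(1 / k) = 1 / (k * (k + 1)) by field_simp; ring]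
        exact one_div_le_one_div_of_le (by positivity) (by nlinarith)
      · rw [← mul_sum, sum_Ico_sub (fun k : ℕ => -(1 / (k : ℝ))) hM]
        have hz : ‖z‖ ≤ 4 + v := (norm_le_abs_re_add_abs_im z).trans (by
          rw [abs_of_pos (by linarith : 0 < z.re), hv]; linarith)
        have h3 : 0 ≤ 1 / (M : ℝ) := by positivity
        calc (1 + ‖z‖) * (-(1 / (M : ℝ)) - -(1 / (N : ℝ))) ≤ (1 + ‖z‖) * (1 / (N : ℝ)) :=
              mul_le_mul_of_nonneg_left (by linarith) (by positivity)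
          _ ≤ 6 := by
              rw [mul_one_div, div_le_iff₀ (by linarith)]
              linarith
    rw [e, show ∀ X Y W : ℂ, X - Y + W - X = W - Y from fun X Y W => by ring]
    exact (norm_sub_le _ _).trans (le_trans (add_le_add htail hinv) (by norm_num))
  have hD := hasSum_digamma (show 0 < z.re by linarith)
  rw [← ha] at hD
  have hlim : ‖deriv Complex.Gamma z / Complex.Gamma z + z⁻¹ -
      ((Real.log ((N : ℝ) + 1) : ℝ) : ℂ)‖ ≤ 9 :=
    le_of_tendsto ((hD.tendsto_sum_nat.sub_const _).norm)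
      (Filter.eventually_atTop.2 ⟨N, fun M hM => hhead M hM⟩)
  have hd : ‖((Real.log ((N : ℝ) + 1) : ℝ) : ℂ) - ((Real.log (v + 2) : ℝ) : ℂ)‖ ≤ 1 := by
    rw [← Complex.ofReal_sub, Complex.norm_real, Real.norm_eq_abs,
      ← Real.log_div (by linarith) (by linarith)]
    rw [abs_of_nonneg (Real.log_nonneg ((one_le_div (by linarith)).2 (by linarith)))]
    refine (Real.log_le_sub_one_of_pos (div_pos (by linarith) (by linarith))).trans ?_
    rw [sub_le_iff_le_add, div_le_iff₀ (by linarith)]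
    linarith
  have hzinv : ‖z⁻¹‖ ≤ 4 := by
    rw [norm_inv]
    exact (inv_anti₀ (by norm_num) (h1.trans (re_le_norm z))).trans (by norm_num)
  have e : deriv Complex.Gamma z / Complex.Gamma z - ((Real.log (v + 2) : ℝ) : ℂ) =
      (deriv Complex.Gamma z / Complex.Gamma z + z⁻¹ - ((Real.log ((N : ℝ) + 1) : ℝ) : ℂ)) +
        (((Real.log ((N : ℝ) + 1) : ℝ) : ℂ) - ((Real.log (v + 2) : ℝ) : ℂ)) + -z⁻¹ := by ring
  rw [e]
  refine norm_add₃_le.trans ?_
  rw [norm_neg]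
  linarith

/-- `gammaReg s = log (|im s| + 2) / 2 + O (1)`. -/
theorem norm_gammaReg_sub_log_le {s : ℂ} (h1 : -3 / 2 ≤ s.re) (h2 : s.re ≤ 6) :
    ‖gammaReg s - ((Real.log (|s.im| + 2) / 2 : ℝ) : ℂ)‖ ≤ 13 := by
  have h := norm_digamma_sub_log_le (z := s / 2 + 1) (by simp; linarith) (by simp; linarith)
  rw [show |(s / 2 + 1).im| = |s.im| / 2 by simp [abs_div]] at h
  obtain ⟨v, hv⟩ : ∃ v, v = |s.im| := ⟨_, rfl⟩
  rw [← hv] at h ⊢
  have hv0 : 0 ≤ v := hv ▸ abs_nonneg _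
  have hl : |Real.log (v / 2 + 2) - Real.log (v + 2)| ≤ 1 := by
    rw [abs_sub_comm, ← Real.log_div (by linarith) (by linarith), abs_le]
    have hp : 0 < (v + 2) / (v / 2 + 2) := div_pos (by linarith) (by linarith)
    refine ⟨?_, (Real.log_le_sub_one_of_pos hp).trans ?_⟩
    · refine le_trans ?_ (Real.one_sub_inv_le_log_of_pos hp)
      rw [inv_div, le_sub_iff_add_le, ← le_sub_iff_add_le', div_le_iff₀ (by linarith)]
      linarith
    · rw [sub_le_iff_le_add, div_le_iff₀ (by linarith)]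
      linarith
  have hπ : |Real.log π| ≤ 4 := by
    rw [abs_of_nonneg (Real.log_nonneg (by linarith [Real.pi_gt_three]))]
    exact (Real.log_le_self Real.pi_pos.le).trans Real.pi_le_four
  rw [gammaReg]
  obtain ⟨D, hD⟩ : ∃ D, D = deriv Complex.Gamma (s / 2 + 1) / Complex.Gamma (s / 2 + 1) := ⟨_, rfl⟩
  rw [← hD] at h ⊢
  have e : -((Real.log π : ℝ) : ℂ) / 2 + D / 2 - ((Real.log (v + 2) / 2 : ℝ) : ℂ) =
      ((D - ((Real.log (v / 2 + 2) : ℝ) : ℂ)) +
        ((Real.log (v / 2 + 2) - Real.log (v + 2) : ℝ) : ℂ) + -((Real.log π : ℝ) : ℂ)) / 2 := by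
    push_cast
    ring
  rw [e, norm_div, Complex.norm_two, div_le_iff₀ two_pos]
  refine norm_add₃_le.trans ?_
  rw [norm_neg, Complex.norm_real, Complex.norm_real, Real.norm_eq_abs, Real.norm_eq_abs]
  linarith

/-- `ζ'/ζ` is bounded for `re s ≥ 3/2`. -/
theorem exists_logDeriv_right : ∃ C, 0 ≤ C ∧ ∀ s : ℂ, 3 / 2 ≤ s.re → s.re ≤ 2 →
    ‖deriv riemannZeta s / riemannZeta s‖ ≤ C := by
  obtain ⟨C, hC, hreal⟩ := FA.DLVP.exists_real_bound
  refine ⟨2 + C, by positivity, fun s h1 h2 => ?_⟩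
  refine (FA.DLVP.norm_logDeriv_zeta_le_real (σ := 1 + (s.re - 1)) (by linarith) (by ring)).trans ?_
  refine (hreal (s.re - 1) (by linarith) (by linarith)).trans ?_
  have h3 : 1 / (s.re - 1) ≤ 2 := by
    rw [div_le_iff₀ (by linarith)]
    linarith
  linarith

theorem negLogDeriv_reflect {s : ℂ} (h : s.re ≤ -1 / 2) :
    negLogDeriv s = ((1 - s) - 1)⁻¹ + gammaReg (1 - s) +
      deriv riemannZeta (1 - s) / riemannZeta (1 - s) + (s - 1)⁻¹ + gammaReg s := by
  have hre : 1 < (1 - s).re := by simp; linarith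
  rw [negLogDeriv, ← xiLogDeriv_one_sub, xiLogDeriv_eq_reg (by linarith)
    (fun h0 => by rw [h0] at hre; simp at hre)
    (riemannZeta_ne_zero_of_one_le_re hre.le)]

/-- **The left sides.** -/
theorem exists_negLogDeriv_left : ∃ C, 0 ≤ C ∧ ∀ σ v : ℝ, -1 ≤ σ → σ ≤ -1 / 2 →
    ‖negLogDeriv ((σ : ℂ) + v * I) - ((Real.log (|v| + 2) : ℝ) : ℂ)‖ ≤ C := by
  obtain ⟨C, hC, hr⟩ := exists_logDeriv_right
  refine ⟨C + 30, by positivity, fun σ v h1 h2 => ?_⟩
  obtain ⟨s, hs⟩ : ∃ s : ℂ, s = (σ : ℂ) + v * I := ⟨_, rfl⟩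
  have hre : s.re = σ := by simp [hs]
  have him : s.im = v := by simp [hs]
  have hre' : (1 - s).re = 1 - σ := by simp [hre]
  have g1 := norm_gammaReg_sub_log_le (s := s) (by linarith) (by linarith)
  have g2 := norm_gammaReg_sub_log_le (s := 1 - s) (by rw [hre']; linarith) (by rw [hre']; linarith)
  rw [him] at g1
  rw [show (1 - s).im = -v by simp [him], abs_neg] at g2
  have i1 := norm_inv_sub_one_le (s := s) one_pos (Or.inr (by
    rw [abs_of_neg (by linarith)]; linarith))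
  have i2 := norm_inv_sub_one_le (s := 1 - s) (a := 1 / 2) (by norm_num) (Or.inr (by
    rw [hre', abs_of_nonneg (by linarith)]; linarith))
  rw [← hs, negLogDeriv_reflect (by linarith)]
  have e : ∀ A B D E F : ℂ, A + B + D + E + F - ((Real.log (|v| + 2) : ℝ) : ℂ) =
      (A + D + E) + (B - ((Real.log (|v| + 2) / 2 : ℝ) : ℂ)) +
        (F - ((Real.log (|v| + 2) / 2 : ℝ) : ℂ)) := fun A B D E F => by push_cast; ring
  rw [e]
  refine norm_add₃_le.trans (le_trans (add_le_add (add_le_add norm_add₃_le g2) g1) ?_)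
  have := hr (1 - s) (by rw [hre']; linarith) (by rw [hre']; linarith)
  have j1 : ‖(s - 1)⁻¹‖ ≤ 1 := i1.trans (by norm_num)
  have j2 : ‖((1 - s) - 1)⁻¹‖ ≤ 2 := i2.trans (by norm_num)
  linarith

/-- **The horizontal sides.** -/
theorem exists_negLogDeriv_horizontal : ∃ C, 0 ≤ C ∧ ∀ u t δ : ℝ, -1 ≤ u → u ≤ 2 → 3 ≤ |t| →
    0 < δ → δ ≤ 1 → (∀ ρ, xiFn ρ = 0 → δ ≤ |(|ρ.im| - |t|)|) →
      ‖negLogDeriv ((u : ℂ) + t * I)‖ ≤ C * ell t / δ := by
  obtain ⟨C₁, hC₁, hmid⟩ := exists_horizontal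
  obtain ⟨C₂, hC₂, hleft⟩ := exists_negLogDeriv_left
  obtain ⟨C₃, hC₃, hright⟩ := exists_logDeriv_right
  refine ⟨C₁ + C₂ + C₃ + 1, by positivity, fun u t δ hu hu2 ht hδ hδ1 hgap => ?_⟩
  have hl := four_le_ell t
  rw [mul_div_assoc]
  have hd : ell t ≤ ell t / δ := le_div_self (by linarith) hδ hδ1
  have h0 : 0 ≤ ell t / δ := by positivity
  rcases le_or_gt u (-1 / 2) with h | h
  · have h2 := norm_le_norm_add_norm_sub' (negLogDeriv ((u : ℂ) + t * I))
      ((Real.log (|t| + 2) : ℝ) : ℂ)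
    have h3 : ‖((Real.log (|t| + 2) : ℝ) : ℂ)‖ ≤ ell t := by
      rw [Complex.norm_real, Real.norm_of_nonneg (Real.log_nonneg (by linarith [abs_nonneg t]))]
      exact Real.log_le_log (by positivity) (by linarith)
    have h4 := hleft u t hu h
    nlinarith [mul_le_mul_of_nonneg_left (show 1 ≤ ell t / δ by linarith) hC₂]
  rcases le_or_gt u (3 / 2) with h' | h'
  · refine (hmid u t δ h.le h' ht hδ hδ1 hgap).trans ?_
    rw [mul_div_assoc]
    exact mul_le_mul_of_nonneg_right (by linarith) h0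
  · have hre : ((u : ℂ) + t * I).re = u := by simp
    rw [negLogDeriv_eq (by rw [hre]; linarith)
      (fun h0 => by rw [h0] at hre; simp at hre; linarith)
      (riemannZeta_ne_zero_of_one_le_re (by rw [hre]; linarith)), norm_neg]
    have := hright ((u : ℂ) + t * I) (by rw [hre]; linarith) (by rw [hre]; linarith)
    nlinarith [mul_le_mul_of_nonneg_left (show 1 ≤ ell t / δ by linarith) hC₃]

end FA.PairCorrelation
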