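import Fermat.Agent.PairCorr.Weight
import Fermat.Agent.AlmostAllPrimes.MeanSquare

/-!
# Windows of zeros

`∑ 1 / (1 + (t - γ)²) = O (log |t|)` over all zeros, and the part of its mean square that comes
from the interplay of `[0, T]` with the zeros outside, or of the outside with the zeros in
`(0, T]`, is `O (log³ T)`.
-/

set_option autoImplicit false

noncomputable section

namespace FA.PairCorrelation

open MeasureTheory Filter Topology Finset FA.RiemannMangoldt FA.ExplicitFormula FA.ZeroFree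
open scoped Real

theorem arctan_le_of_nonneg {u : ℝ} (hu : 0 ≤ u) : Real.arctan u ≤ u := by
  have h := Real.le_tan (Real.arctan_nonneg.2 hu) (Real.arctan_lt_pi_div_two u)
  rwa [Real.tan_arctan] at h

theorem half_pi_sub_arctan_le {d : ℝ} (hd : 0 ≤ d) : π / 2 - Real.arctan d ≤ 4 / (1 + d) := by
  rcases le_or_gt d 1 with h | h
  · calc π / 2 - Real.arctan d ≤ 2 := by linarith [Real.arctan_nonneg.2 hd, Real.pi_le_four]
      _ ≤ 4 / (1 + d) := by rw [le_div_iff₀ (by linarith)]; linarith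
  · rw [← Real.arctan_inv_of_pos (by linarith)]
    refine (arctan_le_of_nonneg (by positivity)).trans ?_
    rw [← one_div, div_le_div_iff₀ (by linarith) (by linarith)]
    linarith

theorem cauchy_anti {u v : ℝ} (hu : 0 ≤ u) (huv : u ≤ v) : cauchy v ≤ cauchy u :=
  one_div_le_one_div_of_le (by positivity) (by nlinarith)

theorem cauchy_neg (u : ℝ) : cauchy (-u) = cauchy u := by simp [cauchy]

/-- **The window.** -/
theorem exists_window_sum : ∃ C, 0 ≤ C ∧ ∀ (t : ℝ) (S : Finset ℂ), (∀ ρ ∈ S, xiFn ρ = 0) →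
    ∑ ρ ∈ S, (zeroWeight ρ : ℝ) * cauchy (t - ρ.im) ≤ C * ell t := by
  obtain ⟨C, hC, h⟩ := exists_sum_blocks
  obtain ⟨f, hf⟩ : ∃ f : ℕ → ℝ, f = fun j : ℕ => 1 / ((j : ℝ) + 1) ^ (3 / 2 : ℝ) := ⟨_, rfl⟩
  have hfs : Summable f := by
    rw [hf]
    have h1 := (summable_nat_add_iff 1).2
      (Real.summable_one_div_nat_rpow.2 (show (1 : ℝ) < 3 / 2 by norm_num))
    simpa using h1
  have hf0 : ∀ j, 0 ≤ f j := fun j => by rw [hf]; positivity
  obtain ⟨P, hP⟩ : ∃ P, P = ∑' j, f j := ⟨_, rfl⟩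
  have hP0 : 0 ≤ P := hP ▸ tsum_nonneg hf0
  refine ⟨8 * C * (2 * P), by positivity, fun t S hS => ?_⟩
  obtain ⟨n, hn⟩ : ∃ n, n = ⌊|t|⌋₊ := ⟨_, rfl⟩
  classical
  have hn1 : (n : ℝ) ≤ |t| := hn ▸ Nat.floor_le (abs_nonneg t)
  have hn2 : |t| < n + 1 := hn ▸ Nat.lt_floor_add_one |t|
  refine (h S (S.image fun ρ => ⌊|ρ.im|⌋₊) _ (fun k => 8 / (1 + |(k : ℝ) - n|) ^ 2) (fun ρ hρ =>
    ⟨hS ρ hρ, mem_image_of_mem _ hρ, ?_⟩) fun k _ => by positivity).trans ?_
  · have a1 := Nat.floor_le (abs_nonneg ρ.im)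
    have a2 := Nat.lt_floor_add_one |ρ.im|
    obtain ⟨d, hd⟩ : ∃ d, d = |t - ρ.im| := ⟨_, rfl⟩
    have h1 : |(⌊|ρ.im|⌋₊ : ℝ) - n| ≤ d + 1 := by
      have c1 := abs_le.1 (abs_abs_sub_abs_le_abs_sub t ρ.im)
      rw [← hd] at c1
      rw [abs_le]
      constructor <;> linarith [c1.1, c1.2]
    rw [cauchy, ← sq_abs (t - ρ.im), ← hd, div_le_div_iff₀ (by positivity) (by positivity), one_mul]
    refine (pow_le_pow_left₀ (by positivity) (show 1 + |(⌊|ρ.im|⌋₊ : ℝ) - n| ≤ 2 + d by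
      linarith) 2).trans ?_
    nlinarith [sq_nonneg (d - 2)]
  have hterm : ∀ k : ℕ, ell (k : ℝ) * (8 / (1 + |(k : ℝ) - n|) ^ 2) ≤
      8 * ell t * (1 / (1 + |(k : ℝ) - n|) ^ (3 / 2 : ℝ)) := fun k => by
    obtain ⟨j, hj⟩ : ∃ j, j = 1 + |(k : ℝ) - n| := ⟨_, rfl⟩
    have hj1 : 1 ≤ j := by rw [hj]; linarith [abs_nonneg ((k : ℝ) - n)]
    rw [← hj]
    have hl : ell (k : ℝ) ≤ ell t * √j := by
      have h1 : ell (k : ℝ) ≤ ell t + Real.log j := by
        rw [ell, ell, Nat.abs_cast, ← Real.log_mul (by positivity) (by linarith)]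
        refine Real.log_le_log (by positivity) ?_
        have h2 : (k : ℝ) ≤ |t| + (j - 1) := by
          rw [hj]
          linarith [le_abs_self ((k : ℝ) - n)]
        nlinarith [mul_nonneg (show 0 ≤ |t| + 99 by positivity) (show 0 ≤ j - 1 by linarith)]
      have h3 := Real.log_le_sub_one_of_pos (Real.sqrt_pos.2 (show 0 < j by linarith))
      rw [Real.log_sqrt (by linarith)] at h3
      have h4 : 1 ≤ √j := Real.one_le_sqrt.2 hj1
      nlinarith [four_le_ell t]
    have e : j ^ 2 = j ^ (3 / 2 : ℝ) * √j := by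
      rw [Real.sqrt_eq_rpow, ← Real.rpow_add (by linarith)]
      norm_num
    rw [e]
    calc ell (k : ℝ) * (8 / (j ^ (3 / 2 : ℝ) * √j))
        ≤ ell t * √j * (8 / (j ^ (3 / 2 : ℝ) * √j)) := by gcongr
      _ = _ := by
        have : 0 < √j := Real.sqrt_pos.2 (by linarith)
        have : 0 < j ^ (3 / 2 : ℝ) := Real.rpow_pos_of_pos (by linarith) _
        field_simp
  refine (mul_le_mul_of_nonneg_left (sum_le_sum fun k _ => hterm k) hC).trans ?_
  rw [← mul_sum]
  have hside : ∀ (R : Finset ℕ) (e : ℕ → ℕ), Set.InjOn e R →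
      (∀ k ∈ R, (e k : ℝ) = |(k : ℝ) - n|) →
      ∑ k ∈ R, 1 / (1 + |(k : ℝ) - n|) ^ (3 / 2 : ℝ) ≤ P := fun R e hinj he => by
    refine (le_of_eq ?_).trans (hP ▸ hfs.sum_le_tsum (R.image e) fun j _ => hf0 j)
    rw [sum_image hinj]
    exact sum_congr rfl fun k hk => by rw [hf]; simp only; rw [he k hk, add_comm]
  have hsum : ∀ R : Finset ℕ, ∑ k ∈ R, 1 / (1 + |(k : ℝ) - n|) ^ (3 / 2 : ℝ) ≤ 2 * P := fun R => by
    rw [← sum_filter_add_sum_filter_not R fun k => k ≤ n, two_mul]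
    refine add_le_add (hside _ (fun k => n - k) ?_ ?_) (hside _ (fun k => k - n) ?_ ?_)
    · intro a ha b hb hab
      simp only [coe_filter, Set.mem_ofPred_eq] at ha hb
      simp only at hab
      omega
    · intro k hk
      simp only [mem_filter] at hk
      rw [Nat.cast_sub hk.2, abs_sub_comm, abs_of_nonneg (sub_nonneg.2 (Nat.cast_le.2 hk.2))]
    · intro a ha b hb hab
      simp only [coe_filter, Set.mem_ofPred_eq] at ha hb
      simp only at hab
      omega
    · intro k hk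
      simp only [mem_filter, not_le] at hk
      rw [Nat.cast_sub hk.2.le, abs_of_nonneg (sub_nonneg.2 (Nat.cast_le.2 hk.2.le))]
  refine (mul_le_mul_of_nonneg_left
    (mul_le_mul_of_nonneg_left (hsum _) (by linarith [four_le_ell t])) hC).trans (le_of_eq ?_)
  ring

/-- A sum around an endpoint. -/
theorem exists_edge_sum : ∃ C, 0 ≤ C ∧ ∀ (T c : ℝ) (S : Finset ℂ) (f : ℂ → ℝ), 1 ≤ T → |c| ≤ T →
    (∀ ρ ∈ S, xiFn ρ = 0 ∧ f ρ ≤ 4 / (1 + |ρ.im - c|) ∧
      (4 * T < |ρ.im| → f ρ ≤ T / (ρ.im - c) ^ 2)) →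
      ∑ ρ ∈ S, (zeroWeight ρ : ℝ) * f ρ ≤ C * ell T ^ 2 := by
  obtain ⟨A, hA, hhead⟩ := FA.AlmostAllPrimes.exists_pair_sum
  obtain ⟨B, hB, htail⟩ := exists_sum_tail
  refine ⟨64 * A + 4 * B, by positivity, fun T c S f hT hc hS => ?_⟩
  classical
  have hl4 : ell (4 * T) ≤ 4 * ell T := by
    rw [show 4 * T = 2 * (2 * T) by ring]
    linarith [ell_two_mul (2 * T), ell_two_mul T]
  rw [← sum_filter_add_sum_filter_not S fun ρ => |ρ.im| ≤ 4 * T, add_mul]
  refine add_le_add ?_ ?_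
  · refine (sum_le_sum (g := fun ρ => 4 * ((zeroWeight ρ : ℝ) * (1 / (1 + |ρ.im - c|))))
      fun ρ hρ => ?_).trans ?_
    · rw [mul_left_comm, mul_one_div]
      exact mul_le_mul_of_nonneg_left (hS ρ (mem_filter.1 hρ).1).2.1 (Nat.cast_nonneg _)
    · rw [← mul_sum]
      refine (mul_le_mul_of_nonneg_left (hhead (4 * T) c _ (by linarith) (by linarith)
        fun ρ hρ => ⟨(hS ρ (mem_filter.1 hρ).1).1, (mem_filter.1 hρ).2⟩) (by norm_num)).trans ?_
      have h1 := pow_le_pow_left₀ (ell_pos (4 * T)).le hl4 2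
      nlinarith
  · refine (sum_le_sum (g := fun ρ => 4 * T * ((zeroWeight ρ : ℝ) * (1 / (1 + |ρ.im|) ^ 2)))
      fun ρ hρ => ?_).trans ?_
    · rw [mem_filter, not_le] at hρ
      rw [mul_left_comm]
      refine mul_le_mul_of_nonneg_left ((((hS ρ hρ.1).2.2) hρ.2).trans ?_) (Nat.cast_nonneg _)
      have h1 : (1 + |ρ.im|) / 2 ≤ |ρ.im - c| := by
        linarith [abs_sub_abs_le_abs_sub ρ.im c]
      rw [← sq_abs (ρ.im - c), mul_one_div, div_le_div_iff₀ (pow_pos (lt_of_lt_of_le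
        (by positivity) h1) 2) (by positivity)]
      have h2 := pow_le_pow_left₀ (show 0 ≤ (1 + |ρ.im|) / 2 by positivity) h1 2
      nlinarith
    · rw [← mul_sum]
      refine (mul_le_mul_of_nonneg_left (htail (4 * T) _ (by linarith) fun ρ hρ => by
        rw [mem_filter, not_le] at hρ
        exact ⟨(hS ρ hρ.1).1, hρ.2⟩) (by positivity)).trans ?_
      rw [mul_left_comm, mul_div_cancel₀ _ (by positivity : 4 * T ≠ 0)]
      nlinarith [four_le_ell T, mul_le_mul_of_nonneg_left hl4 hB,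
        mul_nonneg hB (mul_nonneg (ell_pos T).le (show 0 ≤ ell T - 1 by linarith [four_le_ell T]))]

/-- **The zeros outside `(0, T]` seen from `[0, T]`.** -/
theorem exists_inside : ∃ C, 0 ≤ C ∧ ∀ (T : ℝ) (S : Finset ℂ), 1 ≤ T →
    (∀ ρ ∈ S, xiFn ρ = 0 ∧ (ρ.im ≤ 0 ∨ T < ρ.im)) →
      ∫ t in (0 : ℝ)..T, (∑ ρ ∈ S, (zeroWeight ρ : ℝ) * cauchy (t - ρ.im)) ^ 2 ≤
        C * ell T ^ 3 := by
  obtain ⟨A, hA, hsup⟩ := exists_window_sum
  obtain ⟨B, hB, hedge⟩ := exists_edge_sum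
  refine ⟨A * (2 * B), by positivity, fun T S hT hS => ?_⟩
  classical
  have hT0 : 0 ≤ T := by linarith
  have hcont : Continuous fun t => ∑ ρ ∈ S, (zeroWeight ρ : ℝ) * cauchy (t - ρ.im) :=
    continuous_finsetSum _ fun ρ _ => continuous_const.mul (continuous_cauchy.comp (by fun_prop))
  have h1 : ∫ t in (0 : ℝ)..T, ∑ ρ ∈ S, (zeroWeight ρ : ℝ) * cauchy (t - ρ.im) ≤
      2 * B * ell T ^ 2 := by
    have hii : ∀ ρ ∈ S, IntervalIntegrable (fun t => (zeroWeight ρ : ℝ) * cauchy (t - ρ.im))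
        volume 0 T := fun ρ _ => (integrable_cauchy_sub _).intervalIntegrable.const_mul _
    rw [intervalIntegral.integral_finsetSum hii]
    simp only [intervalIntegral.integral_const_mul]
    rw [← sum_filter_add_sum_filter_not S fun ρ => T < ρ.im, two_mul, add_mul]
    refine add_le_add (hedge T T _ _ hT (by rw [abs_of_nonneg hT0]) fun ρ hρ => ?_)
      (hedge T 0 _ _ hT (by simpa using hT0) fun ρ hρ => ?_)
    · rw [mem_filter] at hρ
      refine ⟨(hS ρ hρ.1).1, ?_, fun _ => ?_⟩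
      · rw [integral_cauchy_sub, abs_of_nonneg (by linarith [hρ.2]),
          show T - ρ.im = -(ρ.im - T) by ring, Real.arctan_neg,
          show (0 : ℝ) - ρ.im = -ρ.im by ring, Real.arctan_neg]
        linarith [half_pi_sub_arctan_le (show 0 ≤ ρ.im - T by linarith [hρ.2]),
          Real.arctan_lt_pi_div_two ρ.im]
      · refine (intervalIntegral.integral_mono_on hT0 ((continuous_cauchy.comp
          (by fun_prop)).intervalIntegrable _ _) intervalIntegrable_const
          (g := fun _ => 1 / (ρ.im - T) ^ 2) fun t ht => ?_).trans (le_of_eq ?_)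
        · simp only [cauchy, Function.comp_apply]
          refine one_div_le_one_div_of_le (pow_pos (by linarith [hρ.2]) 2) ?_
          nlinarith [hρ.2, ht.2]
        · rw [intervalIntegral.integral_const, smul_eq_mul]
          ring
    · rw [mem_filter] at hρ
      obtain ⟨h0, h'⟩ := hS ρ hρ.1
      have hneg : ρ.im < 0 := lt_of_le_of_ne (h'.resolve_right hρ.2) (im_ne_zero_of_zero h0)
      refine ⟨h0, ?_, fun _ => ?_⟩
      · rw [integral_cauchy_sub, sub_zero, abs_of_neg hneg, show (0 : ℝ) - ρ.im = -ρ.im by ring]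
        linarith [half_pi_sub_arctan_le (show 0 ≤ -ρ.im by linarith),
          Real.arctan_lt_pi_div_two (T - ρ.im)]
      · refine (intervalIntegral.integral_mono_on hT0 ((continuous_cauchy.comp
          (by fun_prop)).intervalIntegrable _ _) intervalIntegrable_const
          (g := fun _ => 1 / (ρ.im - 0) ^ 2) fun t ht => ?_).trans (le_of_eq ?_)
        · simp only [cauchy, Function.comp_apply, sub_zero]
          refine one_div_le_one_div_of_le (by nlinarith) ?_
          nlinarith [ht.1]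
        · rw [intervalIntegral.integral_const, smul_eq_mul]
          ring
  calc ∫ t in (0 : ℝ)..T, (∑ ρ ∈ S, (zeroWeight ρ : ℝ) * cauchy (t - ρ.im)) ^ 2
      ≤ ∫ t in (0 : ℝ)..T, A * ell T * ∑ ρ ∈ S, (zeroWeight ρ : ℝ) * cauchy (t - ρ.im) := by
        refine intervalIntegral.integral_mono_on hT0 ((hcont.pow 2).intervalIntegrable _ _)
          ((continuous_const.mul hcont).intervalIntegrable _ _) fun t ht => ?_
        rw [sq]
        refine mul_le_mul_of_nonneg_right ((hsup t S fun ρ hρ => (hS ρ hρ).1).trans ?_)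
          (sum_nonneg fun ρ _ => mul_nonneg (Nat.cast_nonneg _) (cauchy_pos _).le)
        exact mul_le_mul_of_nonneg_left (ell_mono (by
          rw [abs_of_nonneg ht.1, abs_of_nonneg hT0]; exact ht.2)) hA
    _ ≤ A * ell T * (2 * B * ell T ^ 2) := by
        rw [intervalIntegral.integral_const_mul]
        exact mul_le_mul_of_nonneg_left h1 (mul_nonneg hA (ell_pos T).le)
    _ = _ := by ring

/-- **The zeros in `(0, T]` seen from outside `[0, T]`.** -/
theorem exists_outside : ∃ C, 0 ≤ C ∧ ∀ (T : ℝ) (S : Finset ℂ), 1 ≤ T →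
    (∀ ρ ∈ S, xiFn ρ = 0 ∧ 0 < ρ.im ∧ ρ.im ≤ T) →
      (∫ t in Set.Iic (0 : ℝ), (∑ ρ ∈ S, (zeroWeight ρ : ℝ) * cauchy (t - ρ.im)) ^ 2) +
          (∫ t in Set.Ioi T, (∑ ρ ∈ S, (zeroWeight ρ : ℝ) * cauchy (t - ρ.im)) ^ 2) ≤
        C * ell T ^ 3 := by
  obtain ⟨A, hA, hsup⟩ := exists_window_sum
  obtain ⟨B, hB, hedge⟩ := exists_edge_sum
  refine ⟨A * (2 * B), by positivity, fun T S hT hS => ?_⟩
  have hT0 : 0 ≤ T := by linarith
  obtain ⟨f, hf⟩ : ∃ f, f = fun t => ∑ ρ ∈ S, (zeroWeight ρ : ℝ) * cauchy (t - ρ.im) := ⟨_, rfl⟩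
  have hi : Integrable f := hf ▸ integrable_finsetSum _ fun ρ _ =>
    (integrable_cauchy_sub _).const_mul _
  have hf0 : ∀ t, 0 ≤ f t := fun t => hf ▸
    sum_nonneg fun ρ _ => mul_nonneg (Nat.cast_nonneg _) (cauchy_pos _).le
  have hbd : ∀ t, t ≤ 0 ∨ T < t → f t ≤ A * ell T := fun t ht => by
    rw [hf]
    rcases ht with ht | ht
    · refine (sum_le_sum (g := fun ρ => (zeroWeight ρ : ℝ) * cauchy (0 - ρ.im)) fun ρ hρ =>
        mul_le_mul_of_nonneg_left ?_ (Nat.cast_nonneg _)).trans ((hsup 0 S fun ρ hρ =>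
          (hS ρ hρ).1).trans (mul_le_mul_of_nonneg_left (ell_mono (by simp)) hA))
      rw [← cauchy_neg (t - ρ.im), ← cauchy_neg (0 - ρ.im)]
      exact cauchy_anti (by linarith [(hS ρ hρ).2.1]) (by linarith)
    · refine (sum_le_sum (g := fun ρ => (zeroWeight ρ : ℝ) * cauchy (T - ρ.im)) fun ρ hρ =>
        mul_le_mul_of_nonneg_left ?_ (Nat.cast_nonneg _)).trans (hsup T S fun ρ hρ => (hS ρ hρ).1)
      exact cauchy_anti (by linarith [(hS ρ hρ).2.2]) (by linarith)
  have hd : ∀ (c u : ℝ), HasDerivAt (fun u => Real.arctan (u - c)) (cauchy (u - c)) u :=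
    fun c u => by simpa [cauchy] using ((hasDerivAt_id u).sub_const c).arctan
  have hl : ∀ γ : ℝ, ∫ t in Set.Iic (0 : ℝ), cauchy (t - γ) = π / 2 - Real.arctan γ := fun γ => by
    rw [integral_Iic_of_hasDerivAt_of_tendsto' (fun u _ => hd γ u)
      (integrable_cauchy_sub γ).integrableOn
      ((Real.tendsto_arctan_atBot.mono_right nhdsWithin_le_nhds).comp
        (tendsto_atBot_add_const_right _ (-γ) tendsto_id)), zero_sub, Real.arctan_neg]
    ring
  have hr : ∀ γ : ℝ, ∫ t in Set.Ioi T, cauchy (t - γ) = π / 2 - Real.arctan (T - γ) := fun γ =>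
    integral_Ioi_of_hasDerivAt_of_tendsto' (fun u _ => hd γ u)
      (integrable_cauchy_sub γ).integrableOn
      ((Real.tendsto_arctan_atTop.mono_right nhdsWithin_le_nhds).comp
        (tendsto_atTop_add_const_right _ (-γ) tendsto_id))
  have hfar : ∀ ρ ∈ S, ¬4 * T < |ρ.im| := fun ρ hρ => by
    rw [abs_of_pos (hS ρ hρ).2.1]
    linarith [(hS ρ hρ).2.2]
  have h0 : ∀ s : Set ℝ, MeasurableSet s → (∀ t ∈ s, t ≤ 0 ∨ T < t) →
      ∫ t in s, f t ^ 2 ≤ A * ell T * ∫ t in s, f t := fun s hs hsT => by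
    rw [← integral_const_mul]
    refine integral_mono_of_nonneg (Eventually.of_forall fun t => sq_nonneg _)
      (hi.integrableOn.const_mul _) ((ae_restrict_mem hs).mono fun t ht => ?_)
    simp only [sq]
    exact mul_le_mul_of_nonneg_right (hbd t (hsT t ht)) (hf0 t)
  have hI : (∫ t in Set.Iic (0 : ℝ), f t) + ∫ t in Set.Ioi T, f t ≤ 2 * B * ell T ^ 2 := by
    rw [hf, integral_finsetSum _ fun ρ _ => ((integrable_cauchy_sub _).const_mul _).integrableOn,
      integral_finsetSum _ fun ρ _ => ((integrable_cauchy_sub _).const_mul _).integrableOn]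
    simp only [integral_const_mul, hl, hr]
    rw [two_mul, add_mul]
    refine add_le_add (hedge T 0 S _ hT (by simpa using hT0) fun ρ hρ => ⟨(hS ρ hρ).1, ?_,
      fun h => absurd h (hfar ρ hρ)⟩) (hedge T T S _ hT (by rw [abs_of_nonneg hT0]) fun ρ hρ =>
      ⟨(hS ρ hρ).1, ?_, fun h => absurd h (hfar ρ hρ)⟩)
    · rw [sub_zero, abs_of_pos (hS ρ hρ).2.1]
      exact half_pi_sub_arctan_le (hS ρ hρ).2.1.le
    · rw [abs_of_nonpos (by linarith [(hS ρ hρ).2.2]), neg_sub]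
      exact half_pi_sub_arctan_le (by linarith [(hS ρ hρ).2.2])
  subst hf
  calc _ ≤ A * ell T * (∫ t in Set.Iic (0 : ℝ), _) + A * ell T * ∫ t in Set.Ioi T, _ :=
        add_le_add (h0 _ measurableSet_Iic fun t ht => Or.inl ht)
          (h0 _ measurableSet_Ioi fun t ht => Or.inr ht)
    _ ≤ A * ell T * (2 * B * ell T ^ 2) := by
        rw [← mul_add]
        exact mul_le_mul_of_nonneg_left hI (mul_nonneg hA (ell_pos T).le)
    _ = _ := by ring

end FA.PairCorrelation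

end
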