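import Fermat.Agent.PairCorr.MeanSquare
import Fermat.Agent.PairCorr.Windows

/-!
# Montgomery's theorem on the pair sum

Assume, as a hypothesis, that all nontrivial zeros have real part `1/2`. For `1 ≤ x ≤ δ T`,
`2π` times the pair sum of the ordinates in `(0, T]` is `T log x + T log² T / x²` up to
`ε T (log T + log² T / x²)`. Conditional on RH.
-/

set_option autoImplicit false

noncomputable section

namespace FA.PairCorrelation

open MeasureTheory Filter Topology Finset FA.RiemannMangoldt FA.ExplicitFormula FA.ZeroFree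
open scoped Real

/-- The zeros with `0 < γ ≤ T`. -/
def upperZeros (T : ℝ) : Finset ℂ := (finite_zetaZeros T).toFinset

theorem mem_upperZeros {T : ℝ} {ρ : ℂ} :
    ρ ∈ upperZeros T ↔ xiFn ρ = 0 ∧ 0 < ρ.im ∧ ρ.im ≤ T := by
  rw [upperZeros, Set.Finite.mem_toFinset, mem_zetaZeros_iff]

theorem montTerm_of_line {x : ℝ} (hx : 0 < x) (t : ℝ)
    (hRH : ∀ ρ, xiFn ρ = 0 → ρ.re = 1 / 2) (ρ : ℂ) :
    montTerm x t ρ = ((2 * (zeroWeight ρ : ℝ) * cauchy (t - ρ.im) : ℝ) : ℂ) *
      Complex.exp (((Real.log x * ρ.im : ℝ) : ℂ) * Complex.I) := by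
  by_cases hρ : xiFn ρ = 0
  · have e : ρ = 1 / 2 + (ρ.im : ℂ) * Complex.I :=
      Complex.ext (by simp [hRH ρ hρ]) (by simp)
    have hw : wKer t ρ = ((2 * cauchy (t - ρ.im) : ℝ) : ℂ) := by
      calc wKer t ρ = wKer t (1 / 2 + (ρ.im : ℂ) * Complex.I) := by rw [← e]
        _ = _ := by rw [wKer_line, cauchy, mul_one_div]
    have hp : xPow x ρ = Complex.exp (((Real.log x * ρ.im : ℝ) : ℂ) * Complex.I) := by
      rw [xPow, cpow_pos_eq hx, show ρ - 1 / 2 = (ρ.im : ℂ) * Complex.I by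
        linear_combination e]
      push_cast
      ring_nf
    rw [montTerm, hw, hp]
    push_cast
    ring
  · simp [montTerm, zeroWeight_eq_zero hρ]

theorem zeroPart_eq {x : ℝ} (hx : 0 < x) (hRH : ∀ ρ, xiFn ρ = 0 → ρ.re = 1 / 2) (S : Finset ℂ)
    (t : ℝ) : zeroPart x S t = ∑ ρ ∈ S, montTerm x t ρ :=
  sum_congr rfl fun ρ _ => (montTerm_of_line hx t hRH ρ).symm

/-- The two principal terms. -/
def mainPart (x : ℝ) (t : ℝ) : ℂ :=
  -((x : ℂ) ^ (Complex.I * (t : ℂ)) * primeSum x t) +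
    (x : ℂ) ^ (-1 + Complex.I * (t : ℂ)) * ((Real.log (|t| + 2) : ℝ) : ℂ)


theorem norm_cpow_it {x : ℝ} (hx : 0 < x) (t : ℝ) : ‖(x : ℂ) ^ (Complex.I * (t : ℂ))‖ = 1 := by
  rw [Complex.norm_cpow_eq_rpow_re_of_pos hx]
  simp

theorem norm_cpow_pred {x : ℝ} (hx : 0 < x) (t : ℝ) :
    ‖(x : ℂ) ^ (-1 + Complex.I * (t : ℂ))‖ = 1 / x := by
  rw [Complex.norm_cpow_eq_rpow_re_of_pos hx]
  simp [Real.rpow_neg_one]

theorem continuous_mainPart {x : ℝ} (hx : 0 < x) : Continuous (mainPart x) := by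
  have h : ∀ a : ℂ, Continuous fun t : ℝ => (x : ℂ) ^ (a + Complex.I * (t : ℂ)) := fun a =>
    (by fun_prop : Continuous fun t : ℝ => a + Complex.I * (t : ℂ)).const_cpow
      (Or.inl (Complex.ofReal_ne_zero.2 hx.ne'))
  refine Continuous.add ((Continuous.mul ?_ (continuous_primeSum hx)).neg) ((h (-1)).mul ?_)
  · simpa using h 0
  · exact Complex.continuous_ofReal.comp ((continuous_abs.add continuous_const).log
      fun t => (by positivity : (0 : ℝ) < |t| + 2).ne')

/-- **The truncated zero sum against the principal terms.** -/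
theorem exists_truncation : ∃ C, 0 ≤ C ∧ ∀ x T : ℝ, 1 ≤ x → 0 ≤ T →
    (∀ ρ, xiFn ρ = 0 → ρ.re = 1 / 2) → ∃ M : ℕ, T ≤ M ∧
      sqMean T (fun t => zeroPart x (zerosUpTo M) t - mainPart x t) ≤
        C * (T / x ^ 2 + x) + 1 := by
  obtain ⟨C, hC, hform⟩ := exists_montgomery_formula
  obtain ⟨A, hA, hwin⟩ := exists_window_sum
  refine ⟨4 * C ^ 2, by positivity, fun x T hx hT hRH => ?_⟩
  have hx0 : 0 < x := by linarith
  obtain ⟨E, hE⟩ : ∃ E : ℝ → ℂ, E = fun t => (∑' ρ, montTerm x t ρ) - mainPart x t := ⟨_, rfl⟩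
  obtain ⟨B, hB⟩ : ∃ B, B = 2 * (A * ell T) + (∑' n, ‖(pCoef x n : ℂ)‖) + Real.log (T + 2) :=
    ⟨_, rfl⟩
  have hlim : Tendsto (fun M : ℕ => sqMean T fun t => zeroPart x (zerosUpTo M) t - mainPart x t)
      atTop (𝓝 (sqMean T E)) := by
    refine intervalIntegral.tendsto_integral_filter_of_dominated_convergence (fun _ => B ^ 2)
      (Eventually.of_forall fun M =>
        (((continuous_zeroPart x _).sub (continuous_mainPart hx0)).norm.pow 2).aestronglyMeasurable)
      (Eventually.of_forall fun M => ae_of_all _ fun t ht => ?_) intervalIntegrable_const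
      (ae_of_all _ fun t _ => ?_)
    · rw [Set.uIoc_of_le hT] at ht
      rw [Real.norm_of_nonneg (sq_nonneg _)]
      refine pow_le_pow_left₀ (norm_nonneg _) ((norm_sub_le _ _).trans ?_) 2
      have h1 := (norm_zeroPart_le x (zerosUpTo M) t).trans (mul_le_mul_of_nonneg_left
        ((hwin t (zerosUpTo M) fun ρ hρ => (mem_zerosUpTo.1 hρ).1).trans
          (mul_le_mul_of_nonneg_left (ell_mono (show |t| ≤ |T| by
            rw [abs_of_pos ht.1, abs_of_nonneg hT]; exact ht.2)) hA)) zero_le_two)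
      have h2 : ‖mainPart x t‖ ≤ (∑' n, ‖(pCoef x n : ℂ)‖) + Real.log (T + 2) := by
        refine (norm_add_le _ _).trans (add_le_add ?_ ?_)
        · rw [norm_neg, norm_mul, norm_cpow_it hx0, one_mul]
          exact norm_primeSum_le hx0 t
        · rw [norm_mul, norm_cpow_pred hx0, Complex.norm_real,
            Real.norm_of_nonneg (Real.log_nonneg (by linarith [abs_nonneg t]))]
          refine (mul_le_of_le_one_left (Real.log_nonneg (by linarith [abs_nonneg t]))
            (by rw [div_le_one hx0]; exact hx)).trans ?_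
          exact Real.log_le_log (by positivity) (by rw [abs_of_pos ht.1]; linarith [ht.2])
      linarith
    · rw [hE]
      refine (Tendsto.norm (Tendsto.sub_const ?_ _)).pow 2
      simp only [zeroPart_eq hx0 hRH]
      exact tendsto_montTerm hx t tendsto_natCast_atTop_atTop
  have hbd : sqMean T E ≤ 4 * C ^ 2 * (T / x ^ 2 + x) := by
    have hg : IntervalIntegrable (fun t => 2 * C ^ 2 * (1 / x ^ 2) + 2 * C ^ 2 * x * cauchy (t - 0))
        volume 0 T := intervalIntegrable_const.add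
      ((integrable_cauchy_sub 0).intervalIntegrable.const_mul _)
    refine (le_abs_self _).trans ?_
    rw [sqMean, ← Real.norm_eq_abs]
    refine (intervalIntegral.norm_integral_le_of_norm_le hT
      (ae_of_all _ fun t _ => ?_) hg).trans ?_
    · simp only [Real.norm_of_nonneg (sq_nonneg _), hE, mainPart, sub_zero]
      have h1 := hform x t hx
      rw [show (∑' ρ, montTerm x t ρ) - (-((x : ℂ) ^ (Complex.I * (t : ℂ)) * primeSum x t) +
        (x : ℂ) ^ (-1 + Complex.I * (t : ℂ)) * ((Real.log (|t| + 2) : ℝ) : ℂ)) =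
        (∑' ρ, montTerm x t ρ) + (x : ℂ) ^ (Complex.I * (t : ℂ)) * primeSum x t -
        (x : ℂ) ^ (-1 + Complex.I * (t : ℂ)) * ((Real.log (|t| + 2) : ℝ) : ℂ) by ring]
      refine (pow_le_pow_left₀ (norm_nonneg _) h1 2).trans ?_
      have h2 : (√x / (1 + t ^ 2)) ^ 2 ≤ x * cauchy t := by
        rw [div_pow, Real.sq_sqrt hx0.le, cauchy, mul_one_div]
        exact div_le_div_of_nonneg_left hx0.le (by positivity) (by nlinarith)
      nlinarith [mul_le_mul_of_nonneg_left h2 (sq_nonneg C), mul_nonneg (sq_nonneg C)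
        (sq_nonneg (1 / x - √x / (1 + t ^ 2))), one_div_pow x 2]
    · rw [intervalIntegral.integral_add intervalIntegrable_const
        ((integrable_cauchy_sub 0).intervalIntegrable.const_mul _),
        intervalIntegral.integral_const, intervalIntegral.integral_const_mul, integral_cauchy_sub]
      simp only [sub_zero, Real.arctan_zero, smul_eq_mul]
      have h3 : Real.arctan T ≤ 2 := by linarith [Real.arctan_lt_pi_div_two T, Real.pi_le_four]
      have h4 := mul_le_mul_of_nonneg_left h3 (show 0 ≤ 2 * C ^ 2 * x by positivity)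
      have h5 : 0 ≤ C ^ 2 * (T / x ^ 2) := by positivity
      rw [show T * (2 * C ^ 2 * (1 / x ^ 2)) = 2 * (C ^ 2 * (T / x ^ 2)) by ring]
      linarith
  obtain ⟨M, h1, h2⟩ := ((hlim.eventually (eventually_le_nhds (lt_add_one (sqMean T E)))).and
    (tendsto_natCast_atTop_atTop.eventually (eventually_ge_atTop T))).exists
  exact ⟨M, h2, h1.trans (by linarith)⟩

/-- The principal terms. -/
theorem exists_main_meanSquare {e : ℝ} (he : 0 < e) (he1 : e ≤ 1) :
    ∃ δ T₀, 0 < δ ∧ δ ≤ 1 ∧ ∀ T x : ℝ, T₀ ≤ T → 1 ≤ x → x ≤ δ * T →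
      |sqMean T (mainPart x) - (T * Real.log x + T * Real.log T ^ 2 / x ^ 2)| ≤
        10 * e * (T * (Real.log T + Real.log T ^ 2 / x ^ 2)) := by
  obtain ⟨K, C, hK, hC, hP⟩ := exists_primeSum_meanSquare (show 0 < e ^ 2 by positivity)
  obtain ⟨δ, hδ⟩ : ∃ δ, δ = min 1 (e ^ 2 / (2 * C + 1)) := ⟨_, rfl⟩
  have hδ0 : 0 < δ := hδ ▸ lt_min one_pos (by positivity)
  have hδC : 2 * C * δ ≤ e ^ 2 := by
    have h := min_le_right 1 (e ^ 2 / (2 * C + 1))
    rw [← hδ, le_div_iff₀ (by positivity)] at h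
    linarith
  have hev : ∀ᶠ T : ℝ in atTop, 3 ≤ T ∧ K ≤ e ^ 2 * Real.log T ∧ 1 ≤ Real.log T ∧
      |(∫ t in (0 : ℝ)..T, Real.log (|t| + 2) ^ 2) - T * Real.log T ^ 2| ≤
        e ^ 2 * (T * Real.log T ^ 2) ∧ Real.log T ≤ e ^ 2 * T ^ (2 * e ^ 2) := by
    filter_upwards [eventually_ge_atTop 3,
      Real.tendsto_log_atTop.eventually (eventually_ge_atTop (K / e ^ 2)),
      Real.tendsto_log_atTop.eventually (eventually_ge_atTop 1),
      eventually_log_meanSquare (show 0 < e ^ 2 by positivity),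
      (isLittleO_log_rpow_atTop (show 0 < 2 * e ^ 2 by positivity)).bound
        (show 0 < e ^ 2 by positivity)] with T a b c d f
    refine ⟨a, by rwa [div_le_iff₀' (by positivity)] at b, c, d, ?_⟩
    rw [Real.norm_of_nonneg (by linarith), Real.norm_of_nonneg (by positivity)] at f
    exact f
  obtain ⟨T₀, hT₀⟩ := eventually_atTop.1 hev
  refine ⟨δ, T₀, hδ0, hδ ▸ min_le_left _ _, fun T x hT hx hxT => ?_⟩
  obtain ⟨hT3, hKL, hL1, hlog, hpow⟩ := hT₀ T hT
  obtain ⟨L, hL⟩ : ∃ L, L = Real.log T := ⟨_, rfl⟩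
  obtain ⟨R, hR⟩ : ∃ R, R = T * (L + L ^ 2 / x ^ 2) := ⟨_, rfl⟩
  rw [← hL] at hKL hL1 hlog hpow ⊢
  rw [← hR]
  have hx0 : 0 < x := by linarith
  have hT0 : 0 ≤ T := by linarith
  have hxleT : x ≤ T := hxT.trans (mul_le_of_le_one_left hT0 (hδ ▸ min_le_left _ _))
  have hlx : 0 ≤ Real.log x ∧ Real.log x ≤ L :=
    ⟨Real.log_nonneg hx, hL ▸ Real.log_le_log hx0 hxleT⟩
  have hTL : T * L ≤ R := by
    rw [hR, mul_add]; exact le_add_of_nonneg_right (by positivity)
  have hTL2 : T * L ^ 2 / x ^ 2 ≤ R := by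
    rw [hR, mul_add, mul_div_assoc']; exact le_add_of_nonneg_left (by positivity)
  have hR0 : 0 ≤ R := le_trans (by positivity) hTL
  obtain ⟨a, ha⟩ : ∃ a : ℝ → ℂ,
      a = fun t : ℝ => -((x : ℂ) ^ (Complex.I * (t : ℂ)) * primeSum x t) := ⟨_, rfl⟩
  obtain ⟨b, hb⟩ : ∃ b : ℝ → ℂ, b = fun t : ℝ =>
      (x : ℂ) ^ (-1 + Complex.I * (t : ℂ)) * ((Real.log (|t| + 2) : ℝ) : ℂ) := ⟨_, rfl⟩
  have hc : ∀ z : ℂ, Continuous fun t : ℝ => (x : ℂ) ^ (z + Complex.I * (t : ℂ)) := fun z =>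
    (by fun_prop : Continuous fun t : ℝ => z + Complex.I * (t : ℂ)).const_cpow
      (Or.inl (Complex.ofReal_ne_zero.2 hx0.ne'))
  have hac : Continuous a := ha ▸
    ((by simpa using hc 0 : Continuous fun t : ℝ => (x : ℂ) ^ (Complex.I * (t : ℂ))).mul
      (continuous_primeSum hx0)).neg
  have hbc : Continuous b := hb ▸ (hc (-1)).mul (Complex.continuous_ofReal.comp
    ((continuous_abs.add continuous_const).log fun t => (by positivity : (0 : ℝ) < |t| + 2).ne'))
  have eu : mainPart x = fun t => a t + b t := by rw [ha, hb]; rfl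
  have hJa : |sqMean T a - T * Real.log x| ≤ 3 * e ^ 2 * R := by
    have e1 : sqMean T a = sqMean T (primeSum x) := by
      rw [ha, sqMean, sqMean]
      simp only [norm_neg, norm_mul, norm_cpow_it hx0, one_mul]
    rw [e1]
    refine (hP x T hx hT0).trans ?_
    have h1 : x * (Real.log x + 1) ≤ δ * T * (2 * L) :=
      mul_le_mul hxT (by linarith) (by linarith) (by positivity)
    have h2 := mul_le_mul_of_nonneg_left h1 hC
    have h3 := mul_le_mul_of_nonneg_left hlx.2 (show 0 ≤ T * e ^ 2 by positivity)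
    have h4 := mul_le_mul_of_nonneg_left hKL hT0
    have h5 := mul_le_mul_of_nonneg_right hδC (show 0 ≤ T * L by positivity)
    have h6 := mul_le_mul_of_nonneg_left hTL (show 0 ≤ 3 * e ^ 2 by positivity)
    linarith
  have hJb : |sqMean T b - T * L ^ 2 / x ^ 2| ≤ e ^ 2 * R := by
    have e1 : sqMean T b = (∫ t in (0 : ℝ)..T, Real.log (|t| + 2) ^ 2) / x ^ 2 := by
      rw [hb, sqMean, ← intervalIntegral.integral_div]
      refine intervalIntegral.integral_congr fun t _ => ?_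
      simp only [norm_mul, norm_cpow_pred hx0, Complex.norm_real, Real.norm_eq_abs, mul_pow, sq_abs]
      ring
    rw [e1, div_sub_div_same, abs_div, abs_of_pos (show 0 < x ^ 2 by positivity)]
    refine (div_le_div_of_nonneg_right hlog (by positivity)).trans ?_
    rw [mul_div_assoc]
    exact mul_le_mul_of_nonneg_left hTL2 (by positivity)
  have he2 : e ^ 2 ≤ e := by nlinarith
  have ha0 := sqMean_nonneg hT0 a
  have hb0 := sqMean_nonneg hT0 b
  rw [eu]
  rw [abs_le] at hJa hJb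
  rcases le_or_gt (Real.log x) (e ^ 2 * L) with hcase | hcase
  · have h := abs_le.1 (sqMean_cross hT0 (show 0 < 1 / e by positivity) hac hbc)
    have h1 : sqMean T a ≤ 4 * e ^ 2 * R := by
      nlinarith [mul_le_mul_of_nonneg_left hcase hT0, mul_le_mul_of_nonneg_left hTL (sq_nonneg e)]
    have h2 : sqMean T b ≤ 2 * R := by nlinarith
    have h3 : 1 / e * sqMean T a ≤ 4 * e * R := by
      rw [one_div_mul_eq_div, div_le_iff₀ he]
      linarith [show 4 * e * R * e = 4 * e ^ 2 * R by ring]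
    have h4 : sqMean T b / (1 / e) ≤ 2 * e * R := by
      rw [div_div_eq_mul_div, div_one]
      nlinarith
    have h5 := mul_le_mul_of_nonneg_right he2 hR0
    rw [abs_le]
    constructor <;> linarith
  · have h := abs_le.1 (sqMean_cross hT0 he hac hbc)
    have hx2 : T ^ (2 * e ^ 2) ≤ x ^ 2 := by
      rw [Real.rpow_def_of_pos (by linarith), ← hL, ← Real.exp_log hx0, ← Real.exp_nat_mul]
      refine Real.exp_le_exp.2 ?_
      push_cast
      nlinarith
    have h1 : T * L ^ 2 / x ^ 2 ≤ e ^ 2 * R := by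
      rw [div_le_iff₀ (by positivity)]
      have h7 : L ≤ e ^ 2 * x ^ 2 := hpow.trans (mul_le_mul_of_nonneg_left hx2 (sq_nonneg e))
      have h8 := mul_le_mul_of_nonneg_left h7 (show 0 ≤ T * L by positivity)
      have h9 := mul_le_mul_of_nonneg_left hTL (show 0 ≤ e ^ 2 * x ^ 2 by positivity)
      linarith
    have h2 : sqMean T b / e ≤ 2 * e * R := by
      rw [div_le_iff₀ he]
      nlinarith
    have h5 := mul_le_mul_of_nonneg_right he2 hR0
    have h10 : sqMean T a ≤ 4 * R := by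
      nlinarith [mul_le_mul_of_nonneg_left hlx.2 hT0,
        mul_le_mul_of_nonneg_right (show e ^ 2 ≤ 1 by linarith) hR0]
    have h3 : e * sqMean T a ≤ 4 * e * R := by
      calc e * sqMean T a ≤ e * (4 * R) := mul_le_mul_of_nonneg_left h10 he.le
        _ = _ := by ring
    rw [abs_le]
    constructor <;> linarith

/-- **Montgomery's theorem, conditional on RH.** -/
theorem exists_pair_asymptotic (hRH : ∀ ρ, xiFn ρ = 0 → ρ.re = 1 / 2) {ε : ℝ} (hε : 0 < ε) :
    ∃ δ T₀, 0 < δ ∧ δ ≤ 1 ∧ ∀ T x : ℝ, T₀ ≤ T → 1 ≤ x → x ≤ δ * T →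
      |2 * π * pairSum x (upperZeros T) - (T * Real.log x + T * Real.log T ^ 2 / x ^ 2)| ≤
        ε * (T * (Real.log T + Real.log T ^ 2 / x ^ 2)) := by
  obtain ⟨e, he⟩ : ∃ e, e = min ε 1 / 10000 := ⟨_, rfl⟩
  have he0 : 0 < e := he ▸ div_pos (lt_min hε one_pos) (by norm_num)
  have he1 : 10000 * e ≤ 1 := by rw [he]; linarith [min_le_right ε 1]
  have heε : 10000 * e ≤ ε := by rw [he]; linarith [min_le_left ε 1]
  obtain ⟨δ, T₁, hδ0, hδ1, hmain⟩ := exists_main_meanSquare he0 (show e ≤ 1 by linarith)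
  obtain ⟨C₁, hC₁, htr⟩ := exists_truncation
  obtain ⟨C₂, hC₂, hin⟩ := exists_inside
  obtain ⟨C₃, hC₃, hout⟩ := exists_outside
  obtain ⟨D, hD⟩ : ∃ D, D = 32 * C₂ + 32 * C₃ + 1 := ⟨_, rfl⟩
  have hD0 : 0 < D := by rw [hD]; positivity
  have hev : ∀ᶠ T : ℝ in atTop, 100 ≤ T ∧ T₁ ≤ T ∧ 1 ≤ Real.log T ∧
      2 * C₁ + 1 ≤ e ^ 2 * Real.log T ∧ D * Real.log T ^ 2 ≤ e ^ 2 * T := by
    filter_upwards [eventually_ge_atTop 100, eventually_ge_atTop T₁,
      Real.tendsto_log_atTop.eventually (eventually_ge_atTop 1),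
      Real.tendsto_log_atTop.eventually (eventually_ge_atTop ((2 * C₁ + 1) / e ^ 2)),
      (Real.isLittleO_pow_log_id_atTop (n := 2)).bound
        (show 0 < e ^ 2 / D by positivity)] with T a b c d f
    refine ⟨a, b, c, by rwa [div_le_iff₀' (by positivity)] at d, ?_⟩
    rw [Real.norm_of_nonneg (sq_nonneg _), id, Real.norm_of_nonneg (by linarith),
      div_mul_eq_mul_div, le_div_iff₀ hD0] at f
    linarith
  obtain ⟨T₀, hT₀⟩ := eventually_atTop.1 hev
  refine ⟨δ, T₀, hδ0, hδ1, fun T x hT hx hxT => ?_⟩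
  obtain ⟨hT100, hT1, hL1, hCL, hDL⟩ := hT₀ T hT
  obtain ⟨L, hL⟩ : ∃ L, L = Real.log T := ⟨_, rfl⟩
  obtain ⟨R, hR⟩ : ∃ R, R = T * (L + L ^ 2 / x ^ 2) := ⟨_, rfl⟩
  rw [← hL] at hL1 hCL hDL ⊢
  rw [← hR]
  have hx0 : 0 < x := by linarith
  have hT0 : 0 ≤ T := by linarith
  have hxleT : x ≤ T := hxT.trans (mul_le_of_le_one_left hT0 hδ1)
  have hlx : Real.log x ≤ L := hL ▸ Real.log_le_log hx0 hxleT
  have hR0 : 0 ≤ R := by rw [hR]; positivity
  have hTL : T * L ≤ R := by
    rw [hR, mul_add]; exact le_add_of_nonneg_right (by positivity)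
  have hA : T * Real.log x + T * L ^ 2 / x ^ 2 ≤ R := by
    rw [hR, mul_add, mul_div_assoc']
    linarith [mul_le_mul_of_nonneg_left hlx hT0]
  have hcube : (4 * C₂ + 4 * C₃) * ell T ^ 3 ≤ e ^ 2 * R := by
    have h1 : ell T ≤ 2 * L := by
      rw [ell, hL, two_mul, ← Real.log_mul (by linarith) (by linarith)]
      refine Real.log_le_log (by positivity) ?_
      rw [abs_of_nonneg hT0]
      nlinarith
    have h2 := pow_le_pow_left₀ (ell_pos T).le h1 3
    have h3 := mul_le_mul_of_nonneg_right hDL (show 0 ≤ L by linarith)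
    have h4 : (0 : ℝ) ≤ L ^ 3 := by positivity
    rw [hD] at h3
    have h5 := mul_le_mul_of_nonneg_left h2 (show 0 ≤ 4 * C₂ + 4 * C₃ by positivity)
    have h6 := mul_le_mul_of_nonneg_left hTL (sq_nonneg e)
    linarith [show (2 * L) ^ 3 = 8 * L ^ 3 by ring,
      show (32 * C₂ + 32 * C₃ + 1) * L ^ 2 * L = (32 * C₂ + 32 * C₃ + 1) * L ^ 3 by ring]
  obtain ⟨M, hMT, htrM⟩ := htr x T hx hT0 hRH
  have hmain' := hmain T x hT1 hx hxT
  rw [← hL, ← hR] at hmain'
  obtain ⟨u, hu⟩ : ∃ u, u = mainPart x := ⟨_, rfl⟩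
  obtain ⟨g, hg⟩ : ∃ g, g = zeroPart x (zerosUpTo M) := ⟨_, rfl⟩
  obtain ⟨s, hs⟩ : ∃ s, s = zeroPart x (upperZeros T) := ⟨_, rfl⟩
  have huc : Continuous u := hu ▸ continuous_mainPart hx0
  have hgc : Continuous g := hg ▸ continuous_zeroPart x _
  have hsc : Continuous s := hs ▸ continuous_zeroPart x _
  rw [← hu] at hmain'
  have hE : sqMean T (fun t => g t - u t) ≤ (10 * e) ^ 2 * R := by
    rw [hg, hu]
    refine htrM.trans ?_
    have h1 : T / x ^ 2 ≤ T := div_le_self hT0 (one_le_pow₀ hx)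
    have h2 : C₁ * (T / x ^ 2 + x) ≤ C₁ * (2 * T) :=
      mul_le_mul_of_nonneg_left (by linarith) hC₁
    have h3 := mul_le_mul_of_nonneg_left hCL hT0
    have h4 := mul_le_mul_of_nonneg_left hTL (sq_nonneg e)
    have h5 : 0 ≤ e ^ 2 * R := by positivity
    linarith [show (10 * e) ^ 2 * R = 100 * (e ^ 2 * R) by ring]
  have hg1 := sqMean_perturb hT0 (show 0 < 10 * e by positivity) (by linarith) huc (hgc.sub huc)
    hmain' hE (by linarith)
  simp only [Pi.sub_apply] at hg1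
  rw [show (fun t => u t + (g t - u t)) = g from funext fun t => add_sub_cancel _ _] at hg1
  have hH : sqMean T (fun t => s t - g t) ≤ (60 * e) ^ 2 * R := by
    classical
    have hsub : upperZeros T ⊆ zerosUpTo (M : ℝ) := fun ρ hρ => by
      rw [mem_upperZeros] at hρ
      rw [mem_zerosUpTo, abs_of_pos hρ.2.1]
      exact ⟨hρ.1, hρ.2.2.trans hMT⟩
    obtain ⟨D', hD'⟩ : ∃ D', D' = zerosUpTo (M : ℝ) \ upperZeros T := ⟨_, rfl⟩
    have h1 := hin T D' (by linarith) fun ρ hρ => by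
      rw [hD', Finset.mem_sdiff, mem_zerosUpTo, mem_upperZeros] at hρ
      refine ⟨hρ.1.1, ?_⟩
      by_contra h
      rw [not_or, not_le, not_lt] at h
      exact hρ.2 ⟨hρ.1.1, h⟩
    have h2 : sqMean T (fun t => s t - g t) ≤ 4 * (C₂ * ell T ^ 3) := by
      refine le_trans ?_ (mul_le_mul_of_nonneg_left h1 (by norm_num))
      rw [sqMean, ← intervalIntegral.integral_const_mul]
      refine intervalIntegral.integral_mono_on hT0 (((hsc.sub hgc).norm.pow 2).intervalIntegrable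
        _ _) ((continuous_const.mul ((continuous_finsetSum _ fun ρ _ => continuous_const.mul
          (continuous_cauchy.comp (by fun_prop))).pow 2)).intervalIntegrable _ _) fun t _ => ?_
      have e1 : s t - g t = -zeroPart x D' t := by
        rw [hs, hg, hD', zeroPart, zeroPart, zeroPart, ← Finset.sum_sdiff hsub]
        ring
      have h3 := pow_le_pow_left₀ (norm_nonneg _) (norm_zeroPart_le x D' t) 2
      rw [e1, norm_neg]
      linarith
    have h4 : 0 ≤ C₃ * ell T ^ 3 := mul_nonneg hC₃ (pow_nonneg (ell_pos T).le 3)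
    have h5 : 0 ≤ e ^ 2 * R := by positivity
    linarith [show (60 * e) ^ 2 * R = 3600 * (e ^ 2 * R) by ring]
  have hs1 := sqMean_perturb hT0 (show 0 < 60 * e by positivity) (by linarith) hgc (hsc.sub hgc)
    (A := T * Real.log x + T * L ^ 2 / x ^ 2)
    (by linarith [show 6 * (10 * e) * R = 60 * e * R by ring]) hH (by linarith)
  simp only [Pi.sub_apply] at hs1
  rw [show (fun t => g t + (s t - g t)) = s from funext fun t => add_sub_cancel _ _] at hs1
  obtain ⟨hi, hval⟩ := integral_norm_sq_zeroPart x (upperZeros T)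
  rw [← hs] at hi hval
  have hsplit : 2 * π * pairSum x (upperZeros T) = (∫ t in Set.Iic (0 : ℝ), ‖s t‖ ^ 2) +
      sqMean T s + ∫ t in Set.Ioi T, ‖s t‖ ^ 2 := by
    rw [← hval, ← intervalIntegral.integral_Iic_add_Ioi hi.integrableOn hi.integrableOn (b := 0),
      ← intervalIntegral.integral_interval_add_Ioi hi.integrableOn hi.integrableOn (b := T), sqMean,
      add_assoc]
  have houter : (∫ t in Set.Iic (0 : ℝ), ‖s t‖ ^ 2) + (∫ t in Set.Ioi T, ‖s t‖ ^ 2) ≤
      4 * (C₃ * ell T ^ 3) := by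
    have h1 := hout T (upperZeros T) (by linarith) fun ρ hρ => mem_upperZeros.1 hρ
    have hb : ∀ t, ‖s t‖ ^ 2 ≤
        4 * (∑ ρ ∈ upperZeros T, (zeroWeight ρ : ℝ) * cauchy (t - ρ.im)) ^ 2 := fun t => by
      rw [hs]
      refine (pow_le_pow_left₀ (norm_nonneg _) (norm_zeroPart_le _ _ t) 2).trans (le_of_eq ?_)
      ring
    have hint : Integrable fun t : ℝ =>
        (∑ ρ ∈ upperZeros T, (zeroWeight ρ : ℝ) * cauchy (t - ρ.im)) ^ 2 := by
      simp only [sq, Finset.sum_mul_sum]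
      refine integrable_finsetSum _ fun ρ _ => integrable_finsetSum _ fun σ _ => ?_
      refine ((integrable_cauchy_mul ρ.im σ.im).const_mul
        ((zeroWeight ρ : ℝ) * zeroWeight σ)).congr (Eventually.of_forall fun t => ?_)
      ring
    have h2 : ∀ S : Set ℝ, ∫ t in S, ‖s t‖ ^ 2 ≤
        4 * ∫ t in S, (∑ ρ ∈ upperZeros T, (zeroWeight ρ : ℝ) * cauchy (t - ρ.im)) ^ 2 :=
        fun S => by
      rw [← integral_const_mul]
      exact setIntegral_mono hi.integrableOn (hint.integrableOn.const_mul _) hb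
    linarith [h2 (Set.Iic 0), h2 (Set.Ioi T)]
  have hpos1 : 0 ≤ ∫ t in Set.Iic (0 : ℝ), ‖s t‖ ^ 2 := integral_nonneg fun t => sq_nonneg _
  have hpos2 : 0 ≤ ∫ t in Set.Ioi T, ‖s t‖ ^ 2 := integral_nonneg fun t => sq_nonneg _
  have h6 : 0 ≤ C₂ * ell T ^ 3 := mul_nonneg hC₂ (pow_nonneg (ell_pos T).le 3)
  have h7 : e ^ 2 * R ≤ e * R := mul_le_mul_of_nonneg_right (by nlinarith) hR0
  have h8 : 10000 * (e * R) ≤ ε * R := by
    rw [← mul_assoc]; exact mul_le_mul_of_nonneg_right heε hR0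
  have h9 : 0 ≤ e * R := mul_nonneg he0.le hR0
  rw [hsplit]
  rw [abs_le] at hs1 ⊢
  constructor <;> linarith

end FA.PairCorrelation

end
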