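import Fermat.Agent.PairCorr.Formula
import Fermat.Agent.Root.SummaryPrimeNumberTheorem

/-!
# The squares of the coefficients

By the prime number theorem `∑ Λ n ² = N log N (1 + o 1)`, hence by partial summation
`∑ pCoef x n ² = log x (1 + o 1) + O 1`, and `∑ n pCoef x n ² = O (x (log x + 1))`.
-/

set_option autoImplicit false

noncomputable section

namespace FA.PairCorrelation

open Filter Topology Finset
open scoped ArithmeticFunction.vonMangoldt

/-- `∑_{n ≤ N} Λ n ²`. -/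
def vmSq (N : ℕ) : ℝ := ∑ n ∈ range (N + 1), Λ n ^ 2

theorem vmSq_nonneg (N : ℕ) : 0 ≤ vmSq N := sum_nonneg fun n _ => sq_nonneg _

theorem vmSq_zero : vmSq 0 = 0 := by simp [vmSq]

theorem vmSq_succ (N : ℕ) : vmSq (N + 1) = vmSq N + Λ (N + 1) ^ 2 := sum_range_succ _ _

/-- `vmSq N = N log N (1 + o 1)`. -/
theorem exists_vmSq {ε : ℝ} (hε : 0 < ε) : ∃ K, 0 ≤ K ∧ ∀ N : ℕ,
    |vmSq N - N * Real.log N| ≤ ε * (N * Real.log N) + K := by
  obtain ⟨η, hη⟩ : ∃ η, η = min ε 1 / 8 := ⟨_, rfl⟩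
  have hη0 : 0 < η := hη ▸ div_pos (lt_min hε one_pos) (by norm_num)
  have hη1 : η ≤ 1 / 8 := by rw [hη]; linarith [min_le_right ε 1]
  have hηε : 8 * η ≤ ε := by rw [hη]; linarith [min_le_left ε 1]
  have hψ : ∀ᶠ y : ℝ in atTop, Chebyshev.psi y ≤ (1 + η) * y := by
    filter_upwards [FA.PNT.Summary.tendsto_psi.eventually
      (eventually_le_nhds (show (1 : ℝ) < 1 + η by linarith)), eventually_gt_atTop 0] with y hy hy0
    rwa [div_le_iff₀ hy0] at hy
  have hθ : ∀ᶠ y : ℝ in atTop,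
      (1 - η) * y ≤ Chebyshev.theta y ∧ Chebyshev.theta y ≤ (1 + η) * y := by
    filter_upwards [FA.PNT.Summary.tendsto_theta.eventually (Icc_mem_nhds
      (show 1 - η < (1 : ℝ) by linarith) (show (1 : ℝ) < 1 + η by linarith)),
      eventually_gt_atTop 0] with y hy hy0
    exact ⟨(le_div_iff₀ hy0).1 hy.1, (div_le_iff₀ hy0).1 hy.2⟩
  obtain ⟨c, hc⟩ : ∃ c, c = -Real.log η := ⟨_, rfl⟩
  have hc0 : 0 ≤ c := by rw [hc]; linarith [Real.log_nonpos hη0.le (by linarith)]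
  have hev : ∀ᶠ y : ℝ in atTop, Chebyshev.psi y ≤ (1 + η) * y ∧
      (1 - η) * y ≤ Chebyshev.theta y ∧ Chebyshev.theta (η * y) ≤ (1 + η) * (η * y) ∧
        c / η ≤ Real.log y ∧ 1 ≤ η * y := by
    filter_upwards [hψ, hθ, (tendsto_id.const_mul_atTop hη0).eventually hθ,
      Real.tendsto_log_atTop.eventually (eventually_ge_atTop (c / η)),
      (tendsto_id.const_mul_atTop hη0).eventually (eventually_ge_atTop 1)] with y a b d e f
    exact ⟨a, b.1, d.2, e, f⟩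
  obtain ⟨N₀, hN₀⟩ := eventually_atTop.1 (tendsto_natCast_atTop_atTop.eventually hev)
  refine ⟨∑ N ∈ range N₀, |vmSq N - N * Real.log N|, sum_nonneg fun _ _ => abs_nonneg _,
    fun N => ?_⟩
  have hLnn : 0 ≤ (N : ℝ) * Real.log N := by positivity
  rcases lt_or_ge N N₀ with hN | hN
  · have := single_le_sum (f := fun N : ℕ => |vmSq N - N * Real.log N|) (fun _ _ => abs_nonneg _)
      (mem_range.2 hN)
    nlinarith [mul_nonneg hε.le hLnn]
  obtain ⟨a, b, d, hlog, hηN⟩ := hN₀ N hN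
  have hN0 : (0 : ℝ) < N := by nlinarith
  have hL : 0 ≤ Real.log N := Real.log_natCast_nonneg N
  have hup : vmSq N ≤ (1 + η) * (N * Real.log N) := by
    calc vmSq N ≤ ∑ n ∈ Icc 0 N, Real.log N * Λ n := by
          rw [vmSq, Nat.range_eq_Icc_zero_sub_one _ (Nat.succ_ne_zero _)]
          refine sum_le_sum fun n hn => ?_
          rw [sq]
          refine mul_le_mul_of_nonneg_right ?_ ArithmeticFunction.vonMangoldt_nonneg
          rcases Nat.eq_zero_or_pos n with rfl | hn0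
          · simpa using hL
          exact ArithmeticFunction.vonMangoldt_le_log.trans
            (Real.log_le_log (Nat.cast_pos.2 hn0) (Nat.cast_le.2 (mem_Icc.1 hn).2))
      _ = Real.log N * Chebyshev.psi N := by
          rw [← mul_sum, Chebyshev.psi_eq_sum_Icc, Nat.floor_natCast]
      _ ≤ Real.log N * ((1 + η) * N) := mul_le_mul_of_nonneg_left a hL
      _ = _ := by ring
  have hlow : (1 - 5 * η) * (N * Real.log N) ≤ vmSq N := by
    obtain ⟨m, hm⟩ : ∃ m, m = ⌊η * (N : ℝ)⌋₊ := ⟨_, rfl⟩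
    have hmN : m ≤ N := hm ▸ Nat.floor_le_of_le (by nlinarith)
    have hll : 0 ≤ Real.log N - c := by
      have : c ≤ η * Real.log N := by rwa [div_le_iff₀' hη0] at hlog
      nlinarith
    have h1 : (Real.log N - c) * (Chebyshev.theta N - Chebyshev.theta (η * N)) ≤ vmSq N := by
      rw [Chebyshev.theta, Chebyshev.theta, Nat.floor_natCast, ← hm, sum_filter, sum_filter,
        ← sum_sdiff (Ioc_subset_Ioc_right hmN), add_sub_cancel_right, mul_sum, vmSq]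
      refine (sum_le_sum (g := fun n => Λ n ^ 2) fun p hp => ?_).trans
        (sum_le_sum_of_subset_of_nonneg ?_ fun _ _ _ => sq_nonneg _)
      · split_ifs with hpr
        · have hp' : m < p := by
            simp only [Finset.mem_sdiff, mem_Ioc, not_and, not_le] at hp
            exact hp.2 hp.1.1
          have h2 : η * (N : ℝ) ≤ p :=
            (Nat.lt_floor_add_one _).le.trans (by rw [← hm]; exact_mod_cast hp')
          have h3 := Real.log_le_log (by linarith) h2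
          rw [Real.log_mul hη0.ne' hN0.ne'] at h3
          rw [ArithmeticFunction.vonMangoldt_apply_prime hpr, sq]
          exact mul_le_mul_of_nonneg_right (by linarith) (Real.log_natCast_nonneg p)
        · rw [mul_zero]; exact sq_nonneg _
      · intro n hn
        simp only [Finset.mem_sdiff, mem_Ioc] at hn
        exact mem_range.2 (by omega)
    have h2 : (1 - 3 * η) * N ≤ Chebyshev.theta N - Chebyshev.theta (η * N) := by nlinarith
    have h3 := (mul_le_mul_of_nonneg_left h2 hll).trans h1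
    have h4 : c ≤ η * Real.log N := by rwa [div_le_iff₀' hη0] at hlog
    nlinarith [mul_le_mul_of_nonneg_right h4 (show 0 ≤ (1 - 3 * η) * (N : ℝ) by
      exact mul_nonneg (by linarith) hN0.le), mul_nonneg (mul_nonneg hη0.le hη0.le) hLnn]
  have hK : 0 ≤ ∑ N ∈ range N₀, |vmSq N - (N : ℝ) * Real.log N| :=
    sum_nonneg fun _ _ => abs_nonneg _
  rw [abs_le]
  have h8 := mul_le_mul_of_nonneg_right hηε hLnn
  constructor <;> nlinarith [mul_nonneg hη0.le hLnn]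

theorem head_eq (N : ℕ) :
    ∑ n ∈ range (N + 1), (n : ℝ) * Λ n ^ 2 = N * vmSq N - ∑ k ∈ range N, vmSq k := by
  induction N with
  | zero => simp
  | succ N ih =>
    rw [sum_range_succ _ (N + 1), ih, vmSq_succ, sum_range_succ _ N]
    push_cast
    ring

theorem tail_eq (f : ℕ → ℝ) {N : ℕ} : ∀ M, N ≤ M →
    ∑ n ∈ Ioc N M, Λ n ^ 2 * f n =
      vmSq M * f (M + 1) - vmSq N * f (N + 1) + ∑ k ∈ Ioc N M, vmSq k * (f k - f (k + 1)) := by
  intro M hM
  induction M, hM using Nat.le_induction with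
  | base => simp
  | succ M hM ih =>
    rw [sum_Ioc_succ_top (by omega), sum_Ioc_succ_top (by omega), ih, vmSq_succ]
    ring

/-- `∑_{k < N} k log k = N² log N / 2 + O (N²)`. -/
theorem abs_sum_mul_log_le {N : ℕ} (hN : 1 ≤ N) :
    |∑ k ∈ range N, (k : ℝ) * Real.log k - (N : ℝ) ^ 2 * Real.log N / 2| ≤ 2 * (N : ℝ) ^ 2 := by
  induction N, hN using Nat.le_induction with
  | base => simp
  | succ N hN ih =>
    have hN0 : (1 : ℝ) ≤ N := by exact_mod_cast hN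
    obtain ⟨L, hL⟩ : ∃ L, L = Real.log (N : ℝ) := ⟨_, rfl⟩
    obtain ⟨d, hd⟩ : ∃ d, d = Real.log ((N : ℝ) + 1) - Real.log N := ⟨_, rfl⟩
    have hd0 : 0 ≤ d := hd ▸ sub_nonneg.2 (Real.log_le_log (by linarith) (by linarith))
    have hd1 : (N : ℝ) * d ≤ 1 := by
      have h := Real.log_le_sub_one_of_pos (show 0 < ((N : ℝ) + 1) / N by positivity)
      rw [Real.log_div (by linarith) (by linarith), div_sub_one (by linarith)] at h
      rw [← hd, add_sub_cancel_left, le_div_iff₀ (by linarith)] at h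
      linarith
    have hL0 : 0 ≤ L := hL ▸ Real.log_nonneg hN0
    have hLN : L ≤ N := hL ▸ (Real.log_le_sub_one_of_pos (by linarith)).trans (by linarith)
    rw [sum_range_succ, Nat.cast_succ, show Real.log ((N : ℝ) + 1) = L + d by rw [hd, hL]; ring,
      ← hL]
    rw [← hL] at ih
    rw [abs_le] at ih ⊢
    constructor <;> nlinarith [mul_le_mul_of_nonneg_right hd1 (show (0 : ℝ) ≤ N by linarith),
      mul_nonneg hd0 (sq_nonneg ((N : ℝ) + 1))]

theorem log_succ_sub_le {k : ℕ} (hk : 1 ≤ k) :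
    0 ≤ Real.log ((k : ℝ) + 1) - Real.log k ∧
      Real.log ((k : ℝ) + 1) - Real.log k ≤ 1 / k := by
  have hk0 : (1 : ℝ) ≤ k := by exact_mod_cast hk
  refine ⟨sub_nonneg.2 (Real.log_le_log (by linarith) (by linarith)), ?_⟩
  rw [← Real.log_div (by linarith) (by linarith)]
  refine (Real.log_le_sub_one_of_pos (by positivity)).trans (le_of_eq ?_)
  field_simp
  ring

/-- The primitive of the tail. -/
def tailPrim (k : ℕ) : ℝ := 3 / 2 * (Real.log k / (k : ℝ) ^ 2)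

theorem tailPrim_step {k : ℕ} (hk : 1 ≤ k) :
    |(k : ℝ) * Real.log k * (1 / (k : ℝ) ^ 3 - 1 / ((k : ℝ) + 1) ^ 3) -
      (tailPrim k - tailPrim (k + 1))| ≤ 4 / (k : ℝ) ^ 3 := by
  obtain ⟨hd0, hd1⟩ := log_succ_sub_le hk
  have hk0 : (1 : ℝ) ≤ k := by exact_mod_cast hk
  obtain ⟨L, hL⟩ : ∃ L, L = Real.log (k : ℝ) := ⟨_, rfl⟩
  obtain ⟨d, hd⟩ : ∃ d, d = Real.log ((k : ℝ) + 1) - L := ⟨_, rfl⟩
  rw [← hL, ← hd] at hd0 hd1
  have hL0 : 0 ≤ L := hL ▸ Real.log_nonneg hk0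
  have hLk : L ≤ k := hL ▸ (Real.log_le_sub_one_of_pos (by linarith)).trans (by linarith)
  have e : (k : ℝ) * L * (1 / (k : ℝ) ^ 3 - 1 / ((k : ℝ) + 1) ^ 3) -
      (3 / 2 * (L / (k : ℝ) ^ 2) - 3 / 2 * ((L + d) / ((k : ℝ) + 1) ^ 2)) =
      -(L * ((3 * k + 1) / (2 * (k : ℝ) ^ 2 * ((k : ℝ) + 1) ^ 3))) +
        3 / 2 * (d / ((k : ℝ) + 1) ^ 2) := by
    field_simp
    ring
  rw [tailPrim, tailPrim, Nat.cast_succ, show Real.log ((k : ℝ) + 1) = L + d by rw [hd]; ring, ← hL,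
    e]
  have h1 : L * ((3 * k + 1) / (2 * (k : ℝ) ^ 2 * ((k : ℝ) + 1) ^ 3)) ≤ 2 / (k : ℝ) ^ 3 := by
    refine (mul_le_mul_of_nonneg_right hLk (by positivity)).trans ?_
    rw [mul_div_assoc', div_le_div_iff₀ (by positivity) (by positivity)]
    nlinarith [mul_nonneg (sq_nonneg (k : ℝ)) (show (0 : ℝ) ≤ k by linarith),
      mul_nonneg (sq_nonneg (k : ℝ)) (sq_nonneg (k : ℝ))]
  have h2 : d / ((k : ℝ) + 1) ^ 2 ≤ 1 / (k : ℝ) ^ 3 := by
    rw [le_div_iff₀ (by linarith)] at hd1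
    rw [div_le_div_iff₀ (by positivity) (by positivity)]
    nlinarith [mul_le_mul_of_nonneg_right hd1 (sq_nonneg (k : ℝ))]
  have h3 : 0 ≤ L * ((3 * k + 1) / (2 * (k : ℝ) ^ 2 * ((k : ℝ) + 1) ^ 3)) := by positivity
  have h4 : 0 ≤ d / ((k : ℝ) + 1) ^ 2 := by positivity
  rw [abs_le]
  have h5 : 4 / (k : ℝ) ^ 3 = 4 * (1 / (k : ℝ) ^ 3) := by ring
  have h6 : 2 / (k : ℝ) ^ 3 = 2 * (1 / (k : ℝ) ^ 3) := by ring
  constructor <;> linarith

theorem sum_inv_cube_le {N : ℕ} (hN : 1 ≤ N) : ∀ M, N ≤ M →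
    ∑ k ∈ Ioc N M, 1 / (k : ℝ) ^ 3 ≤ 1 / (N : ℝ) ^ 2 - 1 / (M : ℝ) ^ 2 := by
  intro M hM
  induction M, hM using Nat.le_induction with
  | base => simp
  | succ M hM ih =>
    rw [sum_Ioc_succ_top (by omega), Nat.cast_succ]
    have hM0 : (1 : ℝ) ≤ M := by exact_mod_cast hN.trans hM
    have h : 1 / ((M : ℝ) + 1) ^ 3 ≤ 1 / (M : ℝ) ^ 2 - 1 / ((M : ℝ) + 1) ^ 2 := by
      rw [div_sub_div _ _ (by positivity) (by positivity),
        div_le_div_iff₀ (by positivity) (by positivity)]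
      nlinarith [mul_nonneg (sq_nonneg ((M : ℝ) + 1)) (sq_nonneg (M : ℝ)),
        mul_nonneg (mul_nonneg (sq_nonneg ((M : ℝ) + 1)) (sq_nonneg (M : ℝ)))
          (show (0 : ℝ) ≤ M by linarith)]
    linarith

theorem sum_Ioc_sub (f : ℕ → ℝ) {N : ℕ} : ∀ M, N ≤ M →
    ∑ k ∈ Ioc N M, (f k - f (k + 1)) = f (N + 1) - f (M + 1) := by
  intro M hM
  induction M, hM using Nat.le_induction with
  | base => simp
  | succ M hM ih => rw [sum_Ioc_succ_top (by omega), ih]; ring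

/-- **The head and the tail.** -/
theorem exists_head_tail {ε : ℝ} (hε : 0 < ε) : ∃ K, 0 ≤ K ∧ ∀ N M : ℕ, 1 ≤ N → N ≤ M →
    |∑ n ∈ range (N + 1), (n : ℝ) * Λ n ^ 2 - (N : ℝ) ^ 2 * Real.log N / 2| ≤
        (2 * ε * Real.log N + K) * (N : ℝ) ^ 2 ∧
      |∑ n ∈ Ioc N M, Λ n ^ 2 * (1 / (n : ℝ) ^ 3) - Real.log N / (2 * (N : ℝ) ^ 2)| ≤
        (3 * ε * Real.log N + K) / (N : ℝ) ^ 2 + K / M := by
  obtain ⟨K, hK, hA⟩ := exists_vmSq hε
  refine ⟨14 + 10 * ε + 3 * K, by positivity, fun N M hN hNM => ⟨?_, ?_⟩⟩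
  all_goals
    have hN0 : (1 : ℝ) ≤ N := by exact_mod_cast hN
    obtain ⟨L, hL⟩ : ∃ L, L = Real.log (N : ℝ) := ⟨_, rfl⟩
    have hL0 : 0 ≤ L := hL ▸ Real.log_nonneg hN0
  · have hsum : |∑ k ∈ range N, vmSq k - ∑ k ∈ range N, (k : ℝ) * Real.log k| ≤
        (N : ℝ) * (ε * (N * L) + K) := by
      rw [← sum_sub_distrib]
      refine (abs_sum_le_sum_abs _ _).trans ((sum_le_sum (g := fun _ => ε * ((N : ℝ) * L) + K)
        fun k hk => (hA k).trans ?_).trans (le_of_eq (by rw [sum_const, card_range, nsmul_eq_mul])))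
      have hk' : (k : ℝ) ≤ N := Nat.cast_le.2 (mem_range.1 hk).le
      refine add_le_add_left (mul_le_mul_of_nonneg_left ?_ hε.le) _ |>.trans (le_of_eq rfl)
      rcases Nat.eq_zero_or_pos k with rfl | hk0
      · simp; positivity
      · exact mul_le_mul hk' (hL ▸ Real.log_le_log (Nat.cast_pos.2 hk0) hk')
          (Real.log_natCast_nonneg k) (by positivity)
    have hE := hA N
    rw [← hL] at hE ⊢
    have hm := abs_sum_mul_log_le hN
    rw [← hL] at hm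
    rw [head_eq]
    have h1 : (N : ℝ) * K ≤ (N : ℝ) ^ 2 * K := mul_le_mul_of_nonneg_right (by nlinarith) hK
    have h2 : 0 ≤ ε * (N : ℝ) ^ 2 := by positivity
    rw [abs_le] at hE hm hsum ⊢
    constructor <;> nlinarith [mul_le_mul_of_nonneg_left hE.1 (show (0 : ℝ) ≤ N by linarith),
      mul_le_mul_of_nonneg_left hE.2 (show (0 : ℝ) ≤ N by linarith)]
  · obtain ⟨f, hf⟩ : ∃ f : ℕ → ℝ, f = fun n : ℕ => 1 / (n : ℝ) ^ 3 := ⟨_, rfl⟩
    have e : ∀ n : ℕ, 1 / (n : ℝ) ^ 3 = f n := fun n => by rw [hf]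
    simp only [e]
    rw [tail_eq f M hNM, ← hL]
    have hfd : ∀ k : ℕ, 1 ≤ k → 0 ≤ f k - f (k + 1) ∧ f k - f (k + 1) ≤ f k := fun k hk => by
      have hk0 : (1 : ℝ) ≤ k := by exact_mod_cast hk
      rw [hf]
      simp only [Nat.cast_succ]
      refine ⟨sub_nonneg.2 (one_div_le_one_div_of_le (by positivity)
        (pow_le_pow_left₀ (by linarith) (by linarith) 3)), ?_⟩
      linarith [show (0 : ℝ) ≤ 1 / ((k : ℝ) + 1) ^ 3 by positivity]
    obtain ⟨S, hS⟩ : ∃ S, S = ∑ k ∈ Ioc N M, (k : ℝ) * Real.log k * (f k - f (k + 1)) := ⟨_, rfl⟩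
    obtain ⟨q, hq⟩ : ∃ q, q = 1 / (N : ℝ) ^ 2 := ⟨_, rfl⟩
    obtain ⟨r, hr⟩ : ∃ r, r = 1 / (M : ℝ) := ⟨_, rfl⟩
    have hq0 : 0 ≤ q := by rw [hq]; positivity
    have hcube : ∑ k ∈ Ioc N M, f k ≤ q := by
      rw [hf, hq]
      refine (sum_inv_cube_le hN M hNM).trans ?_
      linarith [show (0 : ℝ) ≤ 1 / (M : ℝ) ^ 2 by positivity]
    have hS1 : |S - (tailPrim (N + 1) - tailPrim (M + 1))| ≤ 4 * q := by
      rw [← sum_Ioc_sub tailPrim M hNM, hS, ← sum_sub_distrib]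
      refine (abs_sum_le_sum_abs _ _).trans ((sum_le_sum (g := fun k : ℕ => 4 * f k)
        fun k hk => ?_).trans ?_)
      · have := tailPrim_step (k := k) (by have := (mem_Ioc.1 hk).1; omega)
        rw [hf]
        simp only [Nat.cast_succ]
        rw [mul_one_div]
        exact this
      · rw [← mul_sum]
        linarith
    have hS2 : |∑ k ∈ Ioc N M, vmSq k * (f k - f (k + 1)) - S| ≤ ε * S + K * q := by
      rw [hS, ← sum_sub_distrib, mul_sum]
      refine (abs_sum_le_sum_abs _ _).trans ((sum_le_sum (g := fun k : ℕ =>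
        ε * ((k : ℝ) * Real.log k * (f k - f (k + 1))) + K * f k) fun k hk => ?_).trans ?_)
      · obtain ⟨h1, h2⟩ := hfd k (by have := (mem_Ioc.1 hk).1; omega)
        rw [← sub_mul, abs_mul, abs_of_nonneg h1]
        refine (mul_le_mul_of_nonneg_right (hA k) h1).trans ?_
        nlinarith
      · rw [sum_add_distrib, ← mul_sum (Ioc N M) f K]
        exact add_le_add le_rfl (mul_le_mul_of_nonneg_left hcube hK)
    have hM0 : (1 : ℝ) ≤ M := hN0.trans (Nat.cast_le.2 hNM)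
    have hN1 : |tailPrim (N + 1) - 3 / 2 * (L * q)| ≤ 6 * q := by
      obtain ⟨h1, h2⟩ := log_succ_sub_le hN
      rw [← hL] at h1 h2
      obtain ⟨d, hd⟩ : ∃ d, d = Real.log ((N : ℝ) + 1) - L := ⟨_, rfl⟩
      rw [← hd] at h1 h2
      have hd1 : d ≤ 1 := h2.trans (by rw [div_le_one (by linarith)]; exact hN0)
      have hLN : L ≤ N := hL ▸ (Real.log_le_sub_one_of_pos (by linarith)).trans (by linarith)
      rw [tailPrim, Nat.cast_succ, show Real.log ((N : ℝ) + 1) = L + d by rw [hd]; ring, hq,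
        show 3 / 2 * ((L + d) / ((N : ℝ) + 1) ^ 2) - 3 / 2 * (L * (1 / (N : ℝ) ^ 2)) =
          3 / 2 * ((d * (N : ℝ) ^ 2 - L * (2 * N + 1)) / (((N : ℝ) + 1) ^ 2 * (N : ℝ) ^ 2)) by
          field_simp; ring, abs_mul, abs_of_pos (show (0 : ℝ) < 3 / 2 by norm_num), abs_div,
        abs_of_pos (show (0 : ℝ) < ((N : ℝ) + 1) ^ 2 * (N : ℝ) ^ 2 by positivity),
        mul_div_assoc', mul_one_div, div_le_div_iff₀ (by positivity) (by positivity)]
      have h5 : |d * (N : ℝ) ^ 2 - L * (2 * N + 1)| ≤ 4 * ((N : ℝ) + 1) ^ 2 := by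
        rw [abs_le]
        constructor <;> nlinarith [mul_le_mul_of_nonneg_right hd1 (sq_nonneg (N : ℝ)),
          mul_le_mul_of_nonneg_right hLN (show (0 : ℝ) ≤ 2 * N + 1 by linarith), sq_nonneg (N : ℝ),
          mul_nonneg h1 (sq_nonneg (N : ℝ))]
      nlinarith [mul_le_mul_of_nonneg_right h5 (sq_nonneg (N : ℝ))]
    have hN2 : |(N : ℝ) * L * f (N + 1) - L * q| ≤ 3 * q := by
      have hLN : L ≤ N := hL ▸ (Real.log_le_sub_one_of_pos (by linarith)).trans (by linarith)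
      rw [hf, hq]
      simp only [Nat.cast_succ]
      rw [abs_sub_comm, show L * (1 / (N : ℝ) ^ 2) - (N : ℝ) * L * (1 / ((N : ℝ) + 1) ^ 3) =
          L * (3 * (N : ℝ) ^ 2 + 3 * N + 1) / ((N : ℝ) ^ 2 * ((N : ℝ) + 1) ^ 3) by
          field_simp; ring, abs_of_nonneg (by positivity), mul_one_div,
        div_le_div_iff₀ (by positivity) (by positivity)]
      nlinarith [mul_le_mul hLN (show 3 * (N : ℝ) ^ 2 + 3 * N + 1 ≤ 3 * ((N : ℝ) + 1) ^ 2 by
        nlinarith) (by positivity) (by linarith), sq_nonneg ((N : ℝ) + 1), sq_nonneg (N : ℝ)]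
    have hN3 : |vmSq N * f (N + 1) - (N : ℝ) * L * f (N + 1)| ≤ ε * (L * q) + K * q := by
      have h1 : 0 ≤ f (N + 1) := by rw [hf]; positivity
      have h2 : (N : ℝ) * f (N + 1) ≤ q ∧ f (N + 1) ≤ q := by
        rw [hf, hq]
        simp only [Nat.cast_succ]
        rw [mul_one_div]
        constructor <;> rw [div_le_div_iff₀ (by positivity) (by positivity)] <;> nlinarith
      rw [← sub_mul, abs_mul, abs_of_nonneg h1]
      have hE := hA N
      rw [← hL] at hE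
      refine (mul_le_mul_of_nonneg_right hE h1).trans ?_
      nlinarith [mul_le_mul_of_nonneg_left h2.1 (mul_nonneg hε.le hL0),
        mul_le_mul_of_nonneg_left h2.2 hK]
    have hM1 : 0 ≤ tailPrim (M + 1) ∧ tailPrim (M + 1) ≤ 2 * r := by
      have hl : Real.log ((M : ℝ) + 1) ≤ M := by
        linarith [Real.log_le_sub_one_of_pos (show (0 : ℝ) < (M : ℝ) + 1 by positivity)]
      have hl0 : 0 ≤ Real.log ((M : ℝ) + 1) := Real.log_nonneg (by linarith)
      refine ⟨?_, ?_⟩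
      · rw [tailPrim, Nat.cast_succ]; positivity
      · rw [tailPrim, Nat.cast_succ, hr, mul_one_div, mul_div_assoc',
          div_le_div_iff₀ (by positivity) (by positivity)]
        nlinarith [mul_le_mul_of_nonneg_right hl (show (0 : ℝ) ≤ M by linarith)]
    have hM2 : 0 ≤ vmSq M * f (M + 1) ∧ vmSq M * f (M + 1) ≤ (1 + ε + K) * r := by
      have h1 : 0 ≤ f (M + 1) := by rw [hf]; positivity
      refine ⟨mul_nonneg (vmSq_nonneg M) h1, ?_⟩
      have hl : Real.log (M : ℝ) ≤ M := by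
        linarith [Real.log_le_sub_one_of_pos (show (0 : ℝ) < (M : ℝ) by linarith)]
      have h2 : vmSq M ≤ (1 + ε + K) * (M : ℝ) ^ 2 := by
        have := (abs_le.1 (hA M)).2
        nlinarith [mul_le_mul_of_nonneg_left hl (show (0 : ℝ) ≤ M by linarith),
          mul_le_mul_of_nonneg_left (mul_le_mul_of_nonneg_left hl (show (0 : ℝ) ≤ M by linarith))
            hε.le, mul_le_mul_of_nonneg_left (one_le_pow₀ (n := 2) hM0) hK]
      refine (mul_le_mul_of_nonneg_right h2 h1).trans ?_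
      rw [mul_assoc]
      refine mul_le_mul_of_nonneg_left ?_ (by positivity)
      rw [hf, hr]
      simp only [Nat.cast_succ]
      rw [mul_one_div, div_le_div_iff₀ (by positivity) (by linarith)]
      nlinarith
    rw [show L / (2 * (N : ℝ) ^ 2) = L * q / 2 by rw [hq]; ring,
      show (3 * ε * L + (14 + 10 * ε + 3 * K)) / (N : ℝ) ^ 2 + (14 + 10 * ε + 3 * K) / M =
        (3 * ε * L + (14 + 10 * ε + 3 * K)) * q + (14 + 10 * ε + 3 * K) * r by rw [hq, hr]; ring]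
    have hr0 : 0 ≤ r := by rw [hr]; positivity
    have hSle : ε * S ≤ ε * (3 / 2 * (L * q) + 10 * q) := by
      refine mul_le_mul_of_nonneg_left ?_ hε.le
      linarith [(abs_le.1 hS1).2, (abs_le.1 hN1).2]
    rw [abs_le] at hS1 hS2 hN1 hN2 hN3 ⊢
    constructor <;> nlinarith [mul_nonneg hε.le hr0, mul_nonneg hK hr0,
      mul_nonneg hε.le (mul_nonneg hL0 hq0)]

theorem pCoef_sq {x : ℝ} (n : ℕ) : pCoef x n ^ 2 =
    if (n : ℝ) ≤ x then (n : ℝ) * Λ n ^ 2 / x ^ 2 else x ^ 2 * (Λ n ^ 2 * (1 / (n : ℝ) ^ 3)) := by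
  rw [pCoef]
  split_ifs
  · rw [div_pow, mul_pow, Real.sq_sqrt (Nat.cast_nonneg n)]
    ring
  · rw [div_pow, mul_pow, mul_pow, Real.sq_sqrt (Nat.cast_nonneg n)]
    ring

theorem sum_split {x : ℝ} (hx : 0 ≤ x) (g : ℕ → ℝ) {M : ℕ} (hM : ⌊x⌋₊ ≤ M) :
    ∑ n ∈ range (M + 1), g n * pCoef x n ^ 2 =
      (∑ n ∈ range (⌊x⌋₊ + 1), g n * ((n : ℝ) * Λ n ^ 2)) / x ^ 2 +
        x ^ 2 * ∑ n ∈ Ioc ⌊x⌋₊ M, g n * (Λ n ^ 2 * (1 / (n : ℝ) ^ 3)) := by
  have h : Ico (⌊x⌋₊ + 1) (M + 1) = Ioc ⌊x⌋₊ M := by ext k; simp only [mem_Ico, mem_Ioc]; omega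
  rw [← sum_range_add_sum_Ico _ (show ⌊x⌋₊ + 1 ≤ M + 1 by omega), h, sum_div, mul_sum]
  congr 1 <;> refine sum_congr rfl fun n hn => ?_
  · rw [pCoef_sq, if_pos ((Nat.le_floor_iff hx).1 (Nat.lt_succ_iff.1 (mem_range.1 hn)))]
    ring
  · rw [pCoef_sq, if_neg fun h => absurd ((Nat.le_floor_iff hx).2 h) (by
      have := (mem_Ioc.1 hn).1; omega)]
    ring

theorem floor_facts {x : ℝ} (hx : 1 ≤ x) :
    1 ≤ (⌊x⌋₊ : ℝ) ∧ (⌊x⌋₊ : ℝ) ≤ x ∧ x ≤ ⌊x⌋₊ + 1 ∧
      0 ≤ Real.log ⌊x⌋₊ ∧ Real.log ⌊x⌋₊ ≤ Real.log x ∧ Real.log x ≤ Real.log ⌊x⌋₊ + 1 := by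
  have h1 : 1 ≤ (⌊x⌋₊ : ℝ) := by exact_mod_cast Nat.le_floor (by simpa using hx)
  have h2 : (⌊x⌋₊ : ℝ) ≤ x := Nat.floor_le (by linarith)
  have h3 : x ≤ ⌊x⌋₊ + 1 := (Nat.lt_floor_add_one x).le
  refine ⟨h1, h2, h3, Real.log_nonneg h1, Real.log_le_log (by linarith) h2, ?_⟩
  have h4 := (log_succ_sub_le (k := ⌊x⌋₊) (by exact_mod_cast h1)).2
  have h5 : 1 / (⌊x⌋₊ : ℝ) ≤ 1 := by rw [div_le_one (by linarith)]; exact h1
  linarith [Real.log_le_log (show 0 < x by linarith) h3]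

/-- **`∑ pCoef x n ² = log x (1 + o 1) + O 1`.** -/
theorem exists_sq_coef {ε : ℝ} (hε : 0 < ε) : ∃ K, 0 ≤ K ∧ ∀ x : ℝ, 1 ≤ x →
    Summable (fun n => pCoef x n ^ 2) ∧
      |∑' n, pCoef x n ^ 2 - Real.log x| ≤ ε * Real.log x + K := by
  obtain ⟨K, hK, hht⟩ := exists_head_tail (show 0 < ε / 14 by positivity)
  refine ⟨5 * K + 5, by positivity, fun x hx => ?_⟩
  have hx0 : 0 ≤ x := by linarith
  obtain ⟨hN, hNx, hxN, hL0, hLl, hlL⟩ := floor_facts hx
  obtain ⟨N, hNdef⟩ : ∃ N, N = ⌊x⌋₊ := ⟨_, rfl⟩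
  rw [← hNdef] at hN hNx hxN hL0 hLl hlL
  obtain ⟨L, hL⟩ : ∃ L, L = Real.log (N : ℝ) := ⟨_, rfl⟩
  rw [← hL] at hL0 hLl hlL
  have hN1 : 1 ≤ N := by exact_mod_cast hN
  have hb : ∀ M, N ≤ M → |∑ n ∈ range (M + 1), pCoef x n ^ 2 - Real.log x| ≤
      ε * Real.log x + (5 * K + 5) + x ^ 2 * K / M := fun M hM => by
    obtain ⟨hh, ht⟩ := hht N M hN1 hM
    have hs := sum_split hx0 (fun _ => 1) (hNdef ▸ hM)
    simp only [one_mul, ← hNdef] at hs
    rw [hs]
    rw [← hL] at hh ht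
    obtain ⟨H, hH⟩ : ∃ H, H = ∑ n ∈ range (N + 1), (n : ℝ) * Λ n ^ 2 := ⟨_, rfl⟩
    obtain ⟨U, hU⟩ : ∃ U, U = ∑ n ∈ Ioc N M, Λ n ^ 2 * (1 / (n : ℝ) ^ 3) := ⟨_, rfl⟩
    rw [← hH] at hh ⊢
    rw [← hU] at ht ⊢
    obtain ⟨a, ha⟩ : ∃ a, a = (N : ℝ) ^ 2 / x ^ 2 := ⟨_, rfl⟩
    obtain ⟨b, hb⟩ : ∃ b, b = x ^ 2 / (N : ℝ) ^ 2 := ⟨_, rfl⟩
    have hLN : L / N ≤ 1 := by
      rw [div_le_one (by linarith), hL]
      linarith [Real.log_le_sub_one_of_pos (show (0 : ℝ) < N by linarith)]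
    have ha1 : a ≤ 1 := by rw [ha, div_le_one (by positivity)]; nlinarith
    have hb1 : 1 ≤ b := by rw [hb, one_le_div (by positivity)]; nlinarith
    have hb3 : b ≤ 1 + 3 / N := by
      rw [hb, div_le_iff₀ (by positivity)]
      have : (1 + 3 / (N : ℝ)) * (N : ℝ) ^ 2 = (N : ℝ) ^ 2 + 3 * N := by field_simp
      nlinarith
    have hb4 : b ≤ 4 := hb3.trans (by
      have : 3 / (N : ℝ) ≤ 3 := div_le_self (by norm_num) hN
      linarith)
    have ha2 : 1 - 3 / N ≤ a := by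
      have e : a * b = 1 := by rw [ha, hb]; field_simp
      have h0 : 0 ≤ a := by rw [ha]; positivity
      nlinarith [mul_le_mul_of_nonneg_left hb3 h0, div_nonneg (show (0 : ℝ) ≤ 3 by norm_num)
        (show (0 : ℝ) ≤ N by linarith)]
    have e1 : |H / x ^ 2 - a * L / 2| ≤ 2 * (ε / 14) * L + K := by
      rw [ha, show H / x ^ 2 - (N : ℝ) ^ 2 / x ^ 2 * L / 2 =
        (H - (N : ℝ) ^ 2 * L / 2) / x ^ 2 by ring, abs_div,
        abs_of_pos (show 0 < x ^ 2 by positivity), div_le_iff₀ (by positivity)]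
      refine hh.trans (mul_le_mul_of_nonneg_left ?_ (by positivity))
      nlinarith
    have e2 : |x ^ 2 * U - b * L / 2| ≤ 4 * (3 * (ε / 14) * L + K) + x ^ 2 * K / M := by
      rw [hb, show x ^ 2 * U - x ^ 2 / (N : ℝ) ^ 2 * L / 2 =
        x ^ 2 * (U - L / (2 * (N : ℝ) ^ 2)) by ring, abs_mul,
        abs_of_pos (show 0 < x ^ 2 by positivity)]
      refine (mul_le_mul_of_nonneg_left ht (sq_nonneg x)).trans ?_
      rw [mul_add, mul_div_assoc' (x ^ 2), mul_comm (x ^ 2), mul_div_assoc, ← hb,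
        ← mul_div_assoc (x ^ 2)]
      exact add_le_add (by
        rw [mul_comm (4 : ℝ)]; exact mul_le_mul_of_nonneg_left hb4 (by positivity)) le_rfl
    have e3 : |(a + b) * L / 2 - L| ≤ 3 := by
      have h3 : 3 / (N : ℝ) * L = 3 * (L / N) := by ring
      rw [abs_le]
      constructor <;> nlinarith [mul_le_mul_of_nonneg_right hb3 hL0,
        mul_le_mul_of_nonneg_right ha2 hL0, mul_le_mul_of_nonneg_right ha1 hL0,
        mul_le_mul_of_nonneg_right hb1 hL0]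
    rw [abs_le] at e1 e2 e3 ⊢
    constructor <;> nlinarith
  have hsum : Summable fun n => pCoef x n ^ 2 := by
    refine summable_of_sum_range_le (c := Real.log x + (ε * Real.log x + (5 * K + 5) + x ^ 2 * K))
      (fun n => sq_nonneg _) fun M => ?_
    refine (sum_le_sum_of_subset_of_nonneg (range_subset_range.2 (show M ≤ max M N + 1 by omega))
      fun _ _ _ => sq_nonneg _).trans ?_
    have h1 : x ^ 2 * K / ((max M N : ℕ) : ℝ) ≤ x ^ 2 * K :=
      div_le_self (by positivity) (hN.trans (Nat.cast_le.2 (le_max_right M N)))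
    linarith [(abs_le.1 (hb _ (le_max_right M N))).2]
  refine ⟨hsum, le_of_tendsto_of_tendsto
    (((hsum.hasSum.tendsto_sum_nat.comp (tendsto_add_atTop_nat 1)).sub_const (Real.log x)).abs)
    (g := fun M : ℕ => ε * Real.log x + (5 * K + 5) + x ^ 2 * K / M) ?_
    (eventually_atTop.2 ⟨N, hb⟩)⟩
  simpa using (tendsto_const_div_atTop_nhds_zero_nat (x ^ 2 * K)).const_add
    (ε * Real.log x + (5 * K + 5))

/-- **`∑ n pCoef x n ² = O (x (log x + 1))`.** -/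
theorem exists_weighted_coef : ∃ C, 0 ≤ C ∧ ∀ x : ℝ, 1 ≤ x → ∀ M : ℕ,
    ∑ n ∈ range M, (n : ℝ) * pCoef x n ^ 2 ≤ C * (x * (Real.log x + 1)) := by
  obtain ⟨K, hK, hA⟩ := exists_vmSq one_pos
  obtain ⟨K', hK', hht⟩ := exists_head_tail one_pos
  refine ⟨(3 + K') + 8 * (2 + K), by positivity, fun x hx M => ?_⟩
  have hx0 : 0 ≤ x := by linarith
  obtain ⟨hN, hNx, hxN, hL0, hLl, hlL⟩ := floor_facts hx
  obtain ⟨N, hNdef⟩ : ∃ N, N = ⌊x⌋₊ := ⟨_, rfl⟩
  rw [← hNdef] at hN hNx hxN hL0 hLl hlL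
  have hN1 : 1 ≤ N := by exact_mod_cast hN
  refine (sum_le_sum_of_subset_of_nonneg (range_subset_range.2 (show M ≤ max M N + 1 by omega))
    fun _ _ _ => by positivity).trans ?_
  rw [sum_split hx0 _ (hNdef ▸ le_max_right M N), ← hNdef, add_mul]
  refine add_le_add ?_ ?_
  · have hh := (abs_le.1 (hht N N hN1 le_rfl).1).2
    have h1 : ∑ n ∈ range (N + 1), (n : ℝ) * ((n : ℝ) * Λ n ^ 2) ≤
        (N : ℝ) * ∑ n ∈ range (N + 1), (n : ℝ) * Λ n ^ 2 := by
      rw [mul_sum]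
      exact sum_le_sum fun n hn => mul_le_mul_of_nonneg_right
        (Nat.cast_le.2 (Nat.lt_succ_iff.1 (mem_range.1 hn))) (by positivity)
    rw [div_le_iff₀ (by positivity)]
    refine h1.trans ?_
    have h2 : (N : ℝ) ^ 2 ≤ x ^ 2 := by nlinarith
    have h3 : ∑ n ∈ range (N + 1), (n : ℝ) * Λ n ^ 2 ≤
        (N : ℝ) ^ 2 * ((3 + K') * (Real.log x + 1)) := by
      have h4 : Real.log N / 2 + (2 * 1 * Real.log N + K') ≤ (3 + K') * (Real.log x + 1) := by
        nlinarith [mul_nonneg hK' (show 0 ≤ Real.log x by linarith)]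
      nlinarith [mul_le_mul_of_nonneg_left h4 (sq_nonneg (N : ℝ))]
    refine (mul_le_mul hNx (h3.trans (mul_le_mul_of_nonneg_right h2 (mul_nonneg (by positivity)
      (by linarith)))) (sum_nonneg fun _ _ => by positivity) hx0).trans (le_of_eq ?_)
    ring
  obtain ⟨M', hM'⟩ : ∃ M', M' = max M N := ⟨_, rfl⟩
  rw [← hM']
  obtain ⟨f, hf⟩ : ∃ f : ℕ → ℝ, f = fun n : ℕ => 1 / (n : ℝ) ^ 2 := ⟨_, rfl⟩
  obtain ⟨G, hG⟩ : ∃ G : ℕ → ℝ, G = fun k : ℕ => (Real.log (k : ℝ) + 2) / k := ⟨_, rfl⟩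
  have e : ∀ n ∈ Ioc N M', (n : ℝ) * (Λ n ^ 2 * (1 / (n : ℝ) ^ 3)) = Λ n ^ 2 * f n := by
    intro n hn
    have hn0 : (0 : ℝ) < n := Nat.cast_pos.2 (lt_of_le_of_lt (Nat.zero_le _) (mem_Ioc.1 hn).1)
    rw [hf]
    field_simp
  rw [sum_congr rfl e, tail_eq f M' (hM' ▸ le_max_right M N)]
  have hA' : ∀ k : ℕ, 1 ≤ k → vmSq k ≤ (2 + K) * ((k : ℝ) * (Real.log k + 1)) := fun k hk => by
    have h := (abs_le.1 (hA k)).2
    have hk0 : (1 : ℝ) ≤ k := by exact_mod_cast hk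
    have hl : 0 ≤ Real.log (k : ℝ) := Real.log_nonneg hk0
    nlinarith [mul_nonneg (mul_nonneg hK (show (0 : ℝ) ≤ k by linarith)) hl]
  have hstep : ∀ k ∈ Ioc N M', vmSq k * (f k - f (k + 1)) ≤ 2 * (2 + K) * (G k - G (k + 1)) := by
    intro k hk
    have hk1 : 1 ≤ k := by have := (mem_Ioc.1 hk).1; omega
    have hk0 : (1 : ℝ) ≤ k := by exact_mod_cast hk1
    obtain ⟨hd0, hd1⟩ := log_succ_sub_le hk1
    have hl : 0 ≤ Real.log (k : ℝ) := Real.log_nonneg hk0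
    rw [hf, hG]
    simp only [Nat.cast_succ]
    have h1 : 1 / (k : ℝ) ^ 2 - 1 / ((k : ℝ) + 1) ^ 2 ≤ 2 / ((k : ℝ) ^ 2 * ((k : ℝ) + 1)) := by
      rw [div_sub_div _ _ (by positivity) (by positivity),
        div_le_div_iff₀ (by positivity) (by positivity)]
      nlinarith [mul_nonneg (sq_nonneg (k : ℝ)) (sq_nonneg ((k : ℝ) + 1))]
    have h1' : 0 ≤ 1 / (k : ℝ) ^ 2 - 1 / ((k : ℝ) + 1) ^ 2 :=
      sub_nonneg.2 (one_div_le_one_div_of_le (by positivity) (by nlinarith))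
    have h2 : (Real.log k + 1) / ((k : ℝ) * ((k : ℝ) + 1)) ≤
        (Real.log k + 2) / k - (Real.log ((k : ℝ) + 1) + 2) / ((k : ℝ) + 1) := by
      rw [le_div_iff₀ (by linarith)] at hd1
      rw [div_sub_div _ _ (by positivity) (by positivity)]
      exact div_le_div_of_nonneg_right (by nlinarith) (by positivity)
    calc vmSq k * (1 / (k : ℝ) ^ 2 - 1 / ((k : ℝ) + 1) ^ 2)
        ≤ (2 + K) * ((k : ℝ) * (Real.log k + 1)) * (2 / ((k : ℝ) ^ 2 * ((k : ℝ) + 1))) :=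
          mul_le_mul (hA' k hk1) h1 h1' (by positivity)
      _ = 2 * (2 + K) * ((Real.log k + 1) / ((k : ℝ) * ((k : ℝ) + 1))) := by field_simp
      _ ≤ _ := mul_le_mul_of_nonneg_left h2 (by positivity)
  have hM1 : 1 ≤ M' := hM' ▸ hN1.trans (le_max_right M N)
  have hend : vmSq M' * f (M' + 1) ≤ (2 + K) * G (M' + 1) := by
    have hm : (1 : ℝ) ≤ M' := by exact_mod_cast hM1
    obtain ⟨hd0, -⟩ := log_succ_sub_le hM1
    rw [hf, hG]
    simp only [Nat.cast_succ]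
    refine (mul_le_mul_of_nonneg_right (hA' M' hM1) (by positivity)).trans ?_
    rw [mul_assoc]
    refine mul_le_mul_of_nonneg_left ?_ (by positivity)
    rw [mul_one_div, div_le_div_iff₀ (by positivity) (by positivity)]
    nlinarith [mul_le_mul (show Real.log (M' : ℝ) + 1 ≤ Real.log ((M' : ℝ) + 1) + 2 by linarith)
      (show (M' : ℝ) * ((M' : ℝ) + 1) ≤ ((M' : ℝ) + 1) ^ 2 by nlinarith) (by positivity)
      (by linarith [Real.log_nonneg hm])]
  have hlast : 0 ≤ G (M' + 1) := by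
    rw [hG]
    exact div_nonneg (by linarith [Real.log_natCast_nonneg (M' + 1)]) (Nat.cast_nonneg _)
  have hfirst : G (N + 1) ≤ 4 * ((Real.log x + 1) / x) := by
    rw [hG]
    simp only [Nat.cast_succ]
    have h1 : Real.log ((N : ℝ) + 1) ≤ Real.log x + 1 := by
      have := (log_succ_sub_le hN1).2
      have : 1 / (N : ℝ) ≤ 1 := by rw [div_le_one (by linarith)]; exact hN
      linarith
    rw [mul_div_assoc', div_le_div_iff₀ (by linarith) (by linarith)]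
    have hl : 0 ≤ Real.log x := by linarith
    have h2 := mul_le_mul_of_nonneg_right (show Real.log ((N : ℝ) + 1) + 2 ≤
      4 * (Real.log x + 1) by linarith) hx0
    nlinarith
  have hsum := sum_le_sum hstep
  rw [← mul_sum, sum_Ioc_sub G M' (hM' ▸ le_max_right M N)] at hsum
  have hneg : 0 ≤ vmSq N * f (N + 1) := mul_nonneg (vmSq_nonneg N) (by rw [hf]; positivity)
  have htot : vmSq M' * f (M' + 1) - vmSq N * f (N + 1) +
      ∑ k ∈ Ioc N M', vmSq k * (f k - f (k + 1)) ≤ 8 * (2 + K) * ((Real.log x + 1) / x) := by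
    nlinarith [mul_nonneg hK hlast, mul_le_mul_of_nonneg_left hfirst (show 0 ≤ 2 + K by positivity)]
  refine (mul_le_mul_of_nonneg_left htot (sq_nonneg x)).trans (le_of_eq ?_)
  field_simp

end FA.PairCorrelation

end
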