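import Mathlib.Analysis.Fourier.Inversion
import Mathlib.Analysis.SpecialFunctions.ImproperIntegrals
import Mathlib.Analysis.SpecialFunctions.Integrals.Basic
import Mathlib.Analysis.Real.Pi.Bounds

/-!
# The triangle and its cosine transform

`triCos β y = ∫_0^β (1 - s/β) cos (s y) ds = (1 - cos (β y)) / (β y²)` is nonnegative, and
`2 triCos l (2π a)` is the Fourier transform of `max (1 - |v|/l) 0`.
-/

set_option autoImplicit false

noncomputable section

namespace FA.PairCorrelation

open MeasureTheory Filter Topology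
open scoped Real FourierTransform

/-- The cosine transform of the triangle. -/
def triCos (β y : ℝ) : ℝ := ∫ s in (0 : ℝ)..β, (1 - s / β) * Real.cos (s * y)

/-- The triangle. -/
def triangle (l v : ℝ) : ℝ := max (1 - |v| / l) 0

theorem triCos_eq {β y : ℝ} (hβ : 0 < β) (hy : y ≠ 0) :
    triCos β y = (1 - Real.cos (β * y)) / (β * y ^ 2) := by
  have hd : ∀ s ∈ Set.uIcc 0 β, HasDerivAt
      (fun s => (1 - s / β) * Real.sin (s * y) / y - Real.cos (s * y) / (β * y ^ 2))
      ((1 - s / β) * Real.cos (s * y)) s := fun s _ => by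
    have h1 := ((hasDerivAt_id s).div_const β).const_sub 1
    have h2 := (hasDerivAt_id s).mul_const y
    refine (((h1.mul h2.sin).div_const y).sub (h2.cos.div_const (β * y ^ 2))).congr_deriv ?_
    simp only [id]
    field_simp
    ring
  rw [triCos, intervalIntegral.integral_eq_sub_of_hasDerivAt hd
    ((Continuous.intervalIntegrable (by fun_prop)) _ _)]
  simp [div_self hβ.ne']
  field_simp
  ring

theorem triCos_zero {β : ℝ} (hβ : 0 < β) : triCos β 0 = β / 2 := by
  have hd : ∀ s ∈ Set.uIcc 0 β, HasDerivAt (fun s => s - s ^ 2 / (2 * β))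
      ((1 - s / β) * Real.cos (s * 0)) s := fun s _ => by
    refine ((hasDerivAt_id s).sub (((hasDerivAt_id s).pow 2).div_const (2 * β))).congr_deriv ?_
    simp only [mul_zero, Real.cos_zero, mul_one, id]
    push_cast
    field_simp
  rw [triCos, intervalIntegral.integral_eq_sub_of_hasDerivAt hd
    ((Continuous.intervalIntegrable (by fun_prop)) _ _)]
  field_simp
  ring

theorem triCos_nonneg {β : ℝ} (hβ : 0 < β) (y : ℝ) : 0 ≤ triCos β y := by
  rcases eq_or_ne y 0 with rfl | hy
  · rw [triCos_zero hβ]; linarith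
  rw [triCos_eq hβ hy]
  exact div_nonneg (by linarith [Real.cos_le_one (β * y)]) (by positivity)

theorem triCos_le {β : ℝ} (hβ : 0 < β) (y : ℝ) : triCos β y ≤ β / 2 := by
  rw [← triCos_zero hβ]
  refine intervalIntegral.integral_mono_on hβ.le (Continuous.intervalIntegrable (by fun_prop) _ _)
    (Continuous.intervalIntegrable (by fun_prop) _ _) fun s hs => ?_
  refine mul_le_mul_of_nonneg_left ?_ (sub_nonneg.2 ((div_le_one hβ).2 hs.2))
  simpa using Real.cos_le_one (s * y)

theorem triCos_neg (β y : ℝ) : triCos β (-y) = triCos β y := by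
  simp [triCos]

theorem continuous_triCos (β : ℝ) : Continuous (triCos β) :=
  intervalIntegral.continuous_parametric_intervalIntegral_of_continuous' (by fun_prop) _ _

theorem integrable_triCos {l : ℝ} (hl : 0 < l) :
    Integrable fun a => 2 * triCos l (2 * π * a) := by
  refine (integrable_inv_one_add_sq.const_mul (l + 4 / l)).mono'
    (continuous_const.mul ((continuous_triCos l).comp (by fun_prop))).aestronglyMeasurable
    (Eventually.of_forall fun a => ?_)
  rw [Real.norm_of_nonneg (mul_nonneg zero_le_two (triCos_nonneg hl _)), ← div_eq_mul_inv,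
    le_div_iff₀ (by positivity), mul_add, mul_one]
  have h1 := triCos_le hl (2 * π * a)
  have h2 : 2 * triCos l (2 * π * a) * a ^ 2 ≤ 4 / l := by
    rcases eq_or_ne a 0 with rfl | ha
    · rw [zero_pow two_ne_zero, mul_zero]; positivity
    rw [triCos_eq hl (by positivity)]
    have e : 2 * ((1 - Real.cos (l * (2 * π * a))) / (l * (2 * π * a) ^ 2)) * a ^ 2 =
        (1 - Real.cos (l * (2 * π * a))) / (2 * π ^ 2) * (1 / l) := by
      field_simp
    rw [e, show 4 / l = 4 * (1 / l) by ring]
    refine mul_le_mul_of_nonneg_right ?_ (by positivity)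
    rw [div_le_iff₀ (by positivity)]
    nlinarith [Real.neg_one_le_cos (l * (2 * π * a)), Real.two_le_pi]
  linarith

theorem continuous_triangle (l : ℝ) : Continuous (triangle l) :=
  (continuous_const.sub (continuous_abs.div_const l)).max continuous_const

theorem triangle_eq_zero {l v : ℝ} (hl : 0 < l) (h : l ≤ |v|) : triangle l v = 0 :=
  max_eq_right (sub_nonpos.2 ((one_le_div hl).2 h))

theorem triangle_nonneg (l v : ℝ) : 0 ≤ triangle l v := le_max_right _ _

theorem triangle_le_one {l : ℝ} (hl : 0 < l) (v : ℝ) : triangle l v ≤ 1 :=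
  max_le (sub_le_self _ (by positivity)) zero_le_one

theorem fourier_triangle {l : ℝ} (hl : 0 < l) :
    𝓕 (fun v : ℝ => (triangle l v : ℂ)) = fun a : ℝ => ((2 * triCos l (2 * π * a) : ℝ) : ℂ) := by
  funext a
  rw [Real.fourier_real_eq_integral_exp_smul]
  obtain ⟨g, hg⟩ : ∃ g : ℝ → ℂ, g = fun v : ℝ =>
      Complex.exp ((↑(-2 * π * v * a) : ℂ) * Complex.I) • (triangle l v : ℂ) := ⟨_, rfl⟩
  have hgc : Continuous g := by
    rw [hg]
    exact (by fun_prop : Continuous fun v : ℝ => Complex.exp ((↑(-2 * π * v * a) : ℂ) * Complex.I)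
      ).smul (Complex.continuous_ofReal.comp (continuous_triangle l))
  have hsupp : Function.support g ⊆ Set.Ioc (-l) l := fun v hv => by
    by_contra h
    refine hv ?_
    rw [Set.mem_Ioc, not_and_or, not_lt, not_le] at h
    have h' : l ≤ |v| := by
      rcases h with h | h
      · exact le_trans (by linarith) (neg_le_abs v)
      · exact h.le.trans (le_abs_self v)
    simp [hg, triangle_eq_zero hl h']
  calc ∫ v : ℝ, Complex.exp ((↑(-2 * π * v * a) : ℂ) * Complex.I) • (triangle l v : ℂ)
      = ∫ v : ℝ, g v := by rw [hg]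
    _ = ∫ v in -l..l, g v :=
        (intervalIntegral.integral_eq_integral_of_support_subset hsupp).symm
    _ = (∫ v in -l..0, g v) + ∫ v in 0..l, g v :=
        (intervalIntegral.integral_add_adjacent_intervals (hgc.intervalIntegrable _ _)
          (hgc.intervalIntegrable _ _)).symm
    _ = ∫ v in 0..l, (g (-v) + g v) := by
        have hn : IntervalIntegrable (fun v => g (-v)) volume 0 l :=
          (hgc.comp continuous_neg).intervalIntegrable _ _
        rw [intervalIntegral.integral_add hn (hgc.intervalIntegrable _ _),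
          intervalIntegral.integral_comp_neg, neg_zero]
    _ = ∫ v in 0..l, (((1 - v / l) * Real.cos (v * (2 * π * a)) * 2 : ℝ) : ℂ) := by
        refine intervalIntegral.integral_congr fun v hv => ?_
        rw [Set.uIcc_of_le hl.le] at hv
        have e : triangle l v = 1 - v / l := by
          rw [triangle, abs_of_nonneg hv.1, max_eq_left (sub_nonneg.2 ((div_le_one hl).2 hv.2))]
        have e' : triangle l (-v) = triangle l v := by simp [triangle]
        simp only [hg, smul_eq_mul, e', e]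
        obtain ⟨θ, hθ⟩ : ∃ θ, θ = v * (2 * π * a) := ⟨_, rfl⟩
        rw [← hθ, show -2 * π * -v * a = θ by rw [hθ]; ring,
          show -2 * π * v * a = -θ by rw [hθ]; ring]
        push_cast
        rw [Complex.cos]
        ring
    _ = ((2 * triCos l (2 * π * a) : ℝ) : ℂ) := by
        rw [intervalIntegral.integral_ofReal, intervalIntegral.integral_mul_const, triCos]
        push_cast
        ring

/-- **Fourier inversion for the triangle.** -/
theorem integral_triCos_mul_cos {l : ℝ} (hl : 0 < l) (v : ℝ) :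
    ∫ a : ℝ, 2 * triCos l (2 * π * a) * Real.cos (2 * π * v * a) = triangle l v := by
  have hc : Continuous fun v : ℝ => (triangle l v : ℂ) :=
    Complex.continuous_ofReal.comp (continuous_triangle l)
  have hi : Integrable fun v : ℝ => (triangle l v : ℂ) := by
    refine hc.integrable_of_hasCompactSupport
      (HasCompactSupport.intro (isCompact_Icc (a := -l) (b := l)) fun v hv => ?_)
    have : l ≤ |v| := by
      by_contra h
      exact hv ⟨by linarith [neg_le_abs v], by linarith [le_abs_self v]⟩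
    simp [triangle_eq_zero hl this]
  have hfi : Integrable (𝓕 (fun v : ℝ => (triangle l v : ℂ))) := by
    rw [fourier_triangle hl]
    exact (integrable_triCos hl).ofReal
  have h := congrFun (hc.fourierInv_fourier_eq hi hfi) v
  rw [fourier_triangle hl, Real.fourierInv_eq'] at h
  have h2 := congrArg Complex.re h
  have hint : Integrable fun a : ℝ => Complex.exp ((↑(2 * π * inner ℝ a v) : ℂ) * Complex.I) •
      ((2 * triCos l (2 * π * a) : ℝ) : ℂ) := by
    refine (integrable_triCos hl).ofReal.bdd_mul (c := 1)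
      (Continuous.aestronglyMeasurable (by fun_prop)) (Eventually.of_forall fun a => ?_)
    exact (Complex.norm_exp_ofReal_mul_I _).le
  rw [Complex.ofReal_re, ← Complex.reCLM_apply, ← Complex.reCLM.integral_comp_comm hint] at h2
  rw [← h2]
  refine integral_congr_ae (Eventually.of_forall fun a => ?_)
  simp only [Complex.reCLM_apply, smul_eq_mul, Complex.re_mul_ofReal,
    Complex.exp_ofReal_mul_I_re, RCLike.inner_apply, conj_trivial]
  ring_nf

private theorem nonneg_of_deriv_nonneg {f f' : ℝ → ℝ} (h : ∀ y, HasDerivAt f (f' y) y)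
    (h0 : f 0 = 0) (hf : ∀ y, 0 ≤ y → 0 ≤ f' y) {y : ℝ} (hy : 0 ≤ y) : 0 ≤ f y := by
  have hm : MonotoneOn f (Set.Ici 0) := monotoneOn_of_hasDerivWithinAt_nonneg (convex_Ici 0)
    (continuous_iff_continuousAt.2 fun y => (h y).continuousAt).continuousOn
    (fun y _ => (h y).hasDerivWithinAt) fun y hy' => hf y (interior_subset hy')
  simpa [h0] using hm Set.self_mem_Ici hy hy

/-- Four steps of the series of the cosine bound it from above. -/
theorem cos_le_series {y : ℝ} (hy : 0 ≤ y) :
    Real.cos y ≤ 1 - y ^ 2 / 2 + y ^ 4 / 24 - y ^ 6 / 720 + y ^ 8 / 40320 := by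
  have d : ∀ (n : ℕ) (y : ℝ), HasDerivAt (fun y : ℝ => y ^ n) (n * y ^ (n - 1)) y :=
    fun n y => hasDerivAt_pow n y
  have s1 : ∀ y : ℝ, 0 ≤ y → 0 ≤ y - Real.sin y := fun y hy =>
    nonneg_of_deriv_nonneg (f := fun y => y - Real.sin y) (f' := fun y => 1 - Real.cos y)
      (fun y => (hasDerivAt_id y).sub (Real.hasDerivAt_sin y)) (by simp)
      (fun y _ => by linarith [Real.cos_le_one y]) hy
  have c2 : ∀ y : ℝ, 0 ≤ y → 0 ≤ Real.cos y - (1 - y ^ 2 / 2) := fun y hy =>
    nonneg_of_deriv_nonneg (f := fun y => Real.cos y - (1 - y ^ 2 / 2))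
      (f' := fun y => y - Real.sin y)
      (fun y => ((Real.hasDerivAt_cos y).sub (((d 2 y).div_const 2).const_sub 1)).congr_deriv
        (by push_cast; ring)) (by simp) s1 hy
  have s3 : ∀ y : ℝ, 0 ≤ y → 0 ≤ Real.sin y - (y - y ^ 3 / 6) := fun y hy =>
    nonneg_of_deriv_nonneg (f := fun y => Real.sin y - (y - y ^ 3 / 6))
      (f' := fun y => Real.cos y - (1 - y ^ 2 / 2))
      (fun y => ((Real.hasDerivAt_sin y).sub ((hasDerivAt_id' y).sub ((d 3 y).div_const 6))
        ).congr_deriv (by push_cast; ring)) (by simp) c2 hy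
  have c4 : ∀ y : ℝ, 0 ≤ y → 0 ≤ 1 - y ^ 2 / 2 + y ^ 4 / 24 - Real.cos y := fun y hy =>
    nonneg_of_deriv_nonneg (f := fun y => 1 - y ^ 2 / 2 + y ^ 4 / 24 - Real.cos y)
      (f' := fun y => Real.sin y - (y - y ^ 3 / 6))
      (fun y => ((((d 2 y).div_const 2).const_sub 1).add ((d 4 y).div_const 24)).sub
        (Real.hasDerivAt_cos y) |>.congr_deriv (by push_cast; ring)) (by simp) s3 hy
  have s5 : ∀ y : ℝ, 0 ≤ y → 0 ≤ y - y ^ 3 / 6 + y ^ 5 / 120 - Real.sin y := fun y hy =>
    nonneg_of_deriv_nonneg (f := fun y => y - y ^ 3 / 6 + y ^ 5 / 120 - Real.sin y)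
      (f' := fun y => 1 - y ^ 2 / 2 + y ^ 4 / 24 - Real.cos y)
      (fun y => ((((hasDerivAt_id' y).sub ((d 3 y).div_const 6)).add ((d 5 y).div_const 120)).sub
        (Real.hasDerivAt_sin y)).congr_deriv (by push_cast; ring)) (by simp) c4 hy
  have c6 : ∀ y : ℝ, 0 ≤ y →
      0 ≤ Real.cos y - (1 - y ^ 2 / 2 + y ^ 4 / 24 - y ^ 6 / 720) := fun y hy =>
    nonneg_of_deriv_nonneg
      (f := fun y => Real.cos y - (1 - y ^ 2 / 2 + y ^ 4 / 24 - y ^ 6 / 720))
      (f' := fun y => y - y ^ 3 / 6 + y ^ 5 / 120 - Real.sin y)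
      (fun y => ((Real.hasDerivAt_cos y).sub (((((d 2 y).div_const 2).const_sub 1).add
        ((d 4 y).div_const 24)).sub ((d 6 y).div_const 720))).congr_deriv (by push_cast; ring))
      (by simp) s5 hy
  have s7 : ∀ y : ℝ, 0 ≤ y →
      0 ≤ Real.sin y - (y - y ^ 3 / 6 + y ^ 5 / 120 - y ^ 7 / 5040) := fun y hy =>
    nonneg_of_deriv_nonneg
      (f := fun y => Real.sin y - (y - y ^ 3 / 6 + y ^ 5 / 120 - y ^ 7 / 5040))
      (f' := fun y => Real.cos y - (1 - y ^ 2 / 2 + y ^ 4 / 24 - y ^ 6 / 720))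
      (fun y => ((Real.hasDerivAt_sin y).sub ((((hasDerivAt_id' y).sub ((d 3 y).div_const 6)).add
        ((d 5 y).div_const 120)).sub ((d 7 y).div_const 5040))).congr_deriv (by push_cast; ring))
      (by simp) c6 hy
  have c8 := nonneg_of_deriv_nonneg
    (f := fun y => 1 - y ^ 2 / 2 + y ^ 4 / 24 - y ^ 6 / 720 + y ^ 8 / 40320 - Real.cos y)
    (f' := fun y => Real.sin y - (y - y ^ 3 / 6 + y ^ 5 / 120 - y ^ 7 / 5040))
    (fun y => ((((((d 2 y).div_const 2).const_sub 1).add ((d 4 y).div_const 24)).sub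
      ((d 6 y).div_const 720)).add ((d 8 y).div_const 40320)).sub (Real.hasDerivAt_cos y)
        |>.congr_deriv (by push_cast; ring)) (by simp) s7 hy
  linarith

theorem triCos_ge {l a : ℝ} (hl : 0 < l) (ha : 0 ≤ a) :
    l * (1 - (2 * π * l) ^ 2 / 12 * a ^ 2 + (2 * π * l) ^ 4 / 360 * a ^ 4 -
      (2 * π * l) ^ 6 / 20160 * a ^ 6) ≤ 2 * triCos l (2 * π * a) := by
  rcases eq_or_lt_of_le ha with rfl | ha'
  · rw [mul_zero, triCos_zero hl]
    simp
    linarith
  rw [triCos_eq hl (by positivity), show l * (2 * π * a) = 2 * π * l * a by ring,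
    mul_div_assoc', le_div_iff₀ (by positivity)]
  obtain ⟨y, hy⟩ : ∃ y, y = 2 * π * l * a := ⟨_, rfl⟩
  have hy0 : 0 ≤ y := by rw [hy]; positivity
  rw [← hy]
  calc l * (1 - (2 * π * l) ^ 2 / 12 * a ^ 2 + (2 * π * l) ^ 4 / 360 * a ^ 4 -
        (2 * π * l) ^ 6 / 20160 * a ^ 6) * (l * (2 * π * a) ^ 2)
      = y ^ 2 - y ^ 4 / 12 + y ^ 6 / 360 - y ^ 8 / 20160 := by rw [hy]; ring
    _ ≤ 2 * (1 - Real.cos y) := by linarith [cos_le_series hy0]

end FA.PairCorrelation

end
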