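import Fermat.Agent.PairCorr.Asymptotic
import Fermat.Agent.PairCorr.Fejer
import Fermat.Agent.Root.SummaryRiemannMangoldt

/-!
# Simple zeros and small gaps

Averaging the pair sum against two positive kernels: at least `2/3 - ε` of the zeros are simple,
and, whenever `l + 2 ∫_0^β a · (2 triCos l (2π a)) > 1`, there are arbitrarily high zeros that are
multiple or closer than `l · 2π / log γ`. Conditional on RH, taken as a hypothesis.
-/

set_option autoImplicit false

noncomputable section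

namespace FA.PairCorrelation

open MeasureTheory Filter Topology Finset FA.RiemannMangoldt FA.ExplicitFormula FA.ZeroFree
open scoped Real

theorem wgt_pos (u : ℝ) : 0 < wgt u := by unfold wgt; positivity

theorem wgt_zero : wgt 0 = 1 := by simp [wgt]

theorem wgt_le_cauchy (u : ℝ) : wgt u ≤ 4 * cauchy u := by
  rw [wgt, cauchy, mul_one_div]
  exact div_le_div_of_nonneg_left (by norm_num) (by positivity) (by linarith)

theorem continuous_pairSum_rpow {T : ℝ} (hT : 0 < T) (S : Finset ℂ) :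
    Continuous fun a : ℝ => pairSum (T ^ a) S := by
  simp only [pairSum, Real.log_rpow hT]
  fun_prop

theorem zeroCount_eq_sum (T : ℝ) :
    (zeroCount T : ℝ) = ∑ ρ ∈ upperZeros T, (zeroWeight ρ : ℝ) := by
  rw [zeroCount_eq, Nat.cast_sum]
  rfl

/-- `2π N T = T log T (1 + o 1)`. -/
theorem eventually_zeroCount {η : ℝ} (hη : 0 < η) : ∀ᶠ T : ℝ in atTop,
    |2 * π * (zeroCount T : ℝ) - T * Real.log T| ≤ η * (T * Real.log T) := by
  have h : Tendsto (fun T : ℝ => 2 * π * ((zeroCount T : ℝ) / (T * Real.log T))) atTop (𝓝 1) := by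
    have h0 := FA.RiemannMangoldt.Summary.zeroCount_asymptotic.const_mul (2 * π)
    rwa [mul_one_div_cancel (by positivity)] at h0
  filter_upwards [h.eventually (Metric.closedBall_mem_nhds _ hη), eventually_ge_atTop 2]
    with T hT h2
  replace hT : |2 * π * ((zeroCount T : ℝ) / (T * Real.log T)) - 1| ≤ η := hT
  have h0 : 0 < T * Real.log T := mul_pos (by linarith) (Real.log_pos (by linarith))
  rw [← mul_div_assoc, div_sub_one h0.ne', abs_div, abs_of_pos h0, div_le_iff₀ h0] at hT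
  exact hT

/-- The asymptotic in `a`, for `T ^ a ≤ δ T`. -/
theorem exists_pair_rpow (hRH : ∀ ρ, xiFn ρ = 0 → ρ.re = 1 / 2) {β ε : ℝ} (hβ : β < 1)
    (hε : 0 < ε) : ∃ T₀, ∀ T, T₀ ≤ T → 2 ≤ T ∧ ∀ a, 0 ≤ a → a ≤ β →
      |2 * π * pairSum (T ^ a) (upperZeros T) -
          T * Real.log T * (a + Real.log T * Real.exp (-(2 * Real.log T * a)))| ≤
        ε * (T * Real.log T * (1 + Real.log T * Real.exp (-(2 * Real.log T * a)))) := by
  obtain ⟨δ, T₀, hδ, -, h⟩ := exists_pair_asymptotic hRH hε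
  obtain ⟨T₁, hT₁⟩ := Filter.eventually_atTop.1
    (((tendsto_rpow_neg_atTop (show 0 < 1 - β by linarith)).eventually (eventually_le_nhds hδ)).and
      ((eventually_ge_atTop T₀).and (eventually_ge_atTop 2)))
  refine ⟨T₁, fun T hT => ?_⟩
  obtain ⟨hTδ, hT0, hT2⟩ := hT₁ T hT
  refine ⟨hT2, fun a ha hab => ?_⟩
  have hTpos : 0 < T := by linarith
  have hx : T ^ a ≤ δ * T := by
    refine (Real.rpow_le_rpow_of_exponent_le (by linarith)
      (show a ≤ -(1 - β) + 1 by linarith)).trans ?_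
    rw [Real.rpow_add_one hTpos.ne']
    exact mul_le_mul_of_nonneg_right hTδ hTpos.le
  have h1 := h T (T ^ a) hT0 (Real.one_le_rpow (by linarith) ha) hx
  have e2 : Real.exp (-(2 * Real.log T * a)) = 1 / (T ^ a) ^ 2 := by
    rw [Real.rpow_def_of_pos hTpos, ← Real.exp_nat_mul, one_div, ← Real.exp_neg]
    push_cast
    ring_nf
  rw [Real.log_rpow hTpos] at h1
  rw [e2]
  convert h1 using 2 <;> ring

theorem integral_exp_decay (c a : ℝ) :
    ∫ s in (0 : ℝ)..a, c * Real.exp (-(2 * c * s)) = (1 - Real.exp (-(2 * c * a))) / 2 := by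
  have hd : ∀ s ∈ Set.uIcc 0 a,
      HasDerivAt (fun s => -(Real.exp (-(2 * c * s)) / 2)) (c * Real.exp (-(2 * c * s))) s :=
    fun s _ => by
      refine (((hasDerivAt_id s).const_mul (2 * c)).neg.exp.div_const 2).neg.congr_deriv ?_
      simp only [id, Pi.neg_apply]
      ring
  rw [intervalIntegral.integral_eq_sub_of_hasDerivAt hd
    ((Continuous.intervalIntegrable (by fun_prop)) _ _), mul_zero, neg_zero, Real.exp_zero]
  ring

theorem integral_pairSum_mul {T : ℝ} (hT : 0 < T) (S : Finset ℂ) {f : ℝ → ℝ} (hf : Continuous f)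
    (u v : ℝ) : ∫ a in u..v, f a * pairSum (T ^ a) S = ∑ ρ ∈ S, ∑ σ ∈ S,
      (zeroWeight ρ : ℝ) * zeroWeight σ * (wgt (ρ.im - σ.im) *
        ∫ a in u..v, f a * Real.cos (a * (Real.log T * (ρ.im - σ.im)))) := by
  simp only [pairSum, Real.log_rpow hT, mul_sum]
  have hi : ∀ ρ σ : ℂ, IntervalIntegrable (fun a : ℝ => f a * ((zeroWeight ρ : ℝ) * zeroWeight σ *
      (Real.cos (a * Real.log T * (ρ.im - σ.im)) * wgt (ρ.im - σ.im)))) volume u v :=
    fun ρ σ => (hf.mul (by fun_prop)).intervalIntegrable _ _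
  have hio : ∀ ρ ∈ S, IntervalIntegrable (fun a : ℝ => ∑ σ ∈ S,
      f a * ((zeroWeight ρ : ℝ) * zeroWeight σ * (Real.cos (a * Real.log T * (ρ.im - σ.im)) *
        wgt (ρ.im - σ.im)))) volume u v := fun ρ _ =>
    (continuous_finsetSum _ fun σ _ => hf.mul (by fun_prop)).intervalIntegrable _ _
  rw [intervalIntegral.integral_finsetSum hio]
  refine sum_congr rfl fun ρ _ => ?_
  rw [intervalIntegral.integral_finsetSum fun σ _ => hi ρ σ]
  refine sum_congr rfl fun σ _ => ?_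
  rw [← intervalIntegral.integral_const_mul, ← intervalIntegral.integral_const_mul]
  refine intervalIntegral.integral_congr fun a _ => ?_
  simp only [mul_assoc]
  ring

/-- **The squares of the multiplicities.** -/
theorem exists_sq_weight (hRH : ∀ ρ, xiFn ρ = 0 → ρ.re = 1 / 2) {ε : ℝ} (hε : 0 < ε) :
    ∃ T₀, ∀ T, T₀ ≤ T →
      ∑ ρ ∈ upperZeros T, (zeroWeight ρ : ℝ) ^ 2 ≤ (4 / 3 + ε) * zeroCount T := by
  obtain ⟨η, hη⟩ : ∃ η, η = min ε 1 / 10 := ⟨_, rfl⟩
  have hη0 : 0 < η := hη ▸ div_pos (lt_min hε one_pos) (by norm_num)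
  have hη1 : η ≤ 1 / 10 := by rw [hη]; linarith [min_le_right ε 1]
  have hηε : 10 * η ≤ ε := by rw [hη]; linarith [min_le_left ε 1]
  obtain ⟨β, hβ⟩ : ∃ β, β = 1 - η := ⟨_, rfl⟩
  have hβ0 : 0 < β := by linarith
  obtain ⟨T₀, h⟩ := exists_pair_rpow hRH (show β < 1 by linarith) hη0
  obtain ⟨T₁, hT₁⟩ := eventually_atTop.1 ((eventually_zeroCount hη0).and (eventually_ge_atTop T₀))
  refine ⟨T₁, fun T hT => ?_⟩
  obtain ⟨hN, hTT⟩ := hT₁ T hT
  obtain ⟨hT2, hF⟩ := h T hTT
  have hT0 : 0 < T := by linarith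
  obtain ⟨L, hL⟩ : ∃ L, L = Real.log T := ⟨_, rfl⟩
  have hL0 : 0 < L := hL ▸ Real.log_pos (by linarith)
  rw [← hL] at hF hN
  obtain ⟨Q, hQ⟩ : ∃ Q, Q = ∑ ρ ∈ upperZeros T, (zeroWeight ρ : ℝ) ^ 2 := ⟨_, rfl⟩
  rw [← hQ]
  have hlow : β / 2 * Q ≤ ∫ a in (0 : ℝ)..β, (1 - a / β) * pairSum (T ^ a) (upperZeros T) := by
    rw [integral_pairSum_mul hT0 _ (by fun_prop), hQ, mul_sum]
    refine sum_le_sum fun ρ hρ => ?_
    refine le_trans (le_of_eq ?_) (single_le_sum (fun σ _ => mul_nonneg (by positivity)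
      (mul_nonneg (wgt_pos _).le (triCos_nonneg hβ0 _))) hρ)
    change _ = (zeroWeight ρ : ℝ) * zeroWeight ρ *
      (wgt (ρ.im - ρ.im) * triCos β (Real.log T * (ρ.im - ρ.im)))
    rw [sub_self, mul_zero, wgt_zero, triCos_zero hβ0]
    ring
  have hup : 2 * π * ∫ a in (0 : ℝ)..β, (1 - a / β) * pairSum (T ^ a) (upperZeros T) ≤
      T * L * (β ^ 2 / 6 + (1 + η) / 2 + η * β) := by
    rw [← intervalIntegral.integral_const_mul]
    have hi : IntervalIntegrable (fun a => T * L * ((1 - a / β) * a +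
        (1 + η) * (L * Real.exp (-(2 * L * a))) + η)) volume 0 β :=
      (Continuous.intervalIntegrable (by fun_prop)) _ _
    refine (intervalIntegral.integral_mono_on hβ0.le ((continuous_const.mul
      ((by fun_prop : Continuous fun a : ℝ => 1 - a / β).mul
        (continuous_pairSum_rpow hT0 _))).intervalIntegrable _ _) hi fun a ha => ?_).trans ?_
    · have h1 := (abs_le.1 (hF a ha.1 ha.2)).2
      have hw : 0 ≤ 1 - a / β := sub_nonneg.2 ((div_le_one hβ0).2 ha.2)
      have hw1 : 1 - a / β ≤ 1 := sub_le_self _ (div_nonneg ha.1 hβ0.le)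
      obtain ⟨P, hP⟩ : ∃ P, P = L * Real.exp (-(2 * L * a)) := ⟨_, rfl⟩
      rw [← hP] at h1 ⊢
      have hP0 : 0 ≤ P := by rw [hP]; positivity
      calc 2 * π * ((1 - a / β) * pairSum (T ^ a) (upperZeros T))
          = (1 - a / β) * (2 * π * pairSum (T ^ a) (upperZeros T)) := by ring
        _ ≤ (1 - a / β) * (T * L * (a + (1 + η) * P + η)) := by
            refine mul_le_mul_of_nonneg_left ?_ hw
            linarith
        _ = T * L * ((1 - a / β) * a + (1 - a / β) * ((1 + η) * P + η)) := by ring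
        _ ≤ _ := by
            refine mul_le_mul_of_nonneg_left ?_ (by positivity)
            nlinarith [mul_le_mul_of_nonneg_right hw1
              (show 0 ≤ (1 + η) * P + η by positivity)]
    · rw [intervalIntegral.integral_const_mul]
      refine mul_le_mul_of_nonneg_left ?_ (by positivity)
      have hc : ∀ f : ℝ → ℝ, Continuous f → IntervalIntegrable f volume 0 β :=
        fun f hf => hf.intervalIntegrable _ _
      rw [intervalIntegral.integral_add (hc _ (by fun_prop)) (hc _ (by fun_prop)),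
        intervalIntegral.integral_add (hc _ (by fun_prop)) (hc _ (by fun_prop)),
        intervalIntegral.integral_const_mul, integral_exp_decay L, intervalIntegral.integral_const,
        smul_eq_mul, sub_zero]
      have e : ∫ a in (0 : ℝ)..β, (1 - a / β) * a = β ^ 2 / 6 := by
        have hd : ∀ s ∈ Set.uIcc 0 β, HasDerivAt (fun s => s ^ 2 / 2 - s ^ 3 / (3 * β))
            ((1 - s / β) * s) s := fun s _ => by
          refine (((hasDerivAt_pow 2 s).div_const 2).sub
            ((hasDerivAt_pow 3 s).div_const (3 * β))).congr_deriv ?_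
          push_cast
          field_simp
        rw [intervalIntegral.integral_eq_sub_of_hasDerivAt hd
          ((Continuous.intervalIntegrable (by fun_prop)) _ _)]
        field_simp
        ring
      rw [e]
      nlinarith [Real.exp_pos (-(2 * L * β))]
  obtain ⟨U, hU⟩ : ∃ U, U = T * L := ⟨_, rfl⟩
  rw [← hU] at hup hN
  have hU0 : 0 ≤ U := by rw [hU]; positivity
  have h1 : 2 * π * (β / 2 * Q) ≤ U * (β ^ 2 / 6 + (1 + η) / 2 + η * β) :=
    (mul_le_mul_of_nonneg_left hlow (by positivity)).trans hup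
  have hN2 : (1 - η) * U ≤ 2 * π * zeroCount T := by linarith [(abs_le.1 hN).1]
  have hb : β ^ 2 / 6 + (1 + η) / 2 + η * β ≤ β / 2 * ((4 / 3 + ε) * (1 - η)) := by
    rw [hβ]
    nlinarith [mul_le_mul_of_nonneg_right hηε (sq_nonneg (1 - η)), mul_nonneg hη0.le hη0.le]
  have h2 : 2 * π * (β / 2) * Q ≤ 2 * π * (β / 2) * ((4 / 3 + ε) * zeroCount T) := by
    calc 2 * π * (β / 2) * Q = 2 * π * (β / 2 * Q) := by ring
      _ ≤ U * (β / 2 * ((4 / 3 + ε) * (1 - η))) := h1.trans (mul_le_mul_of_nonneg_left hb hU0)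
      _ = β / 2 * (4 / 3 + ε) * ((1 - η) * U) := by ring
      _ ≤ β / 2 * (4 / 3 + ε) * (2 * π * zeroCount T) :=
          mul_le_mul_of_nonneg_left hN2 (by positivity)
      _ = _ := by ring
  exact le_of_mul_le_mul_left h2 (by positivity)

/-- **Simple zeros.** -/
theorem exists_simple (hRH : ∀ ρ, xiFn ρ = 0 → ρ.re = 1 / 2) {ε : ℝ} (hε : 0 < ε) :
    ∃ T₀, ∀ T, T₀ ≤ T → (2 / 3 - ε) * (zeroCount T : ℝ) ≤
      (((upperZeros T).filter fun ρ => zeroWeight ρ = 1).card : ℝ) := by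
  obtain ⟨T₀, h⟩ := exists_sq_weight hRH hε
  refine ⟨T₀, fun T hT => ?_⟩
  have h1 : ∑ ρ ∈ upperZeros T, (2 * (zeroWeight ρ : ℝ) - (zeroWeight ρ : ℝ) ^ 2) ≤
      (((upperZeros T).filter fun ρ => zeroWeight ρ = 1).card : ℝ) := by
    rw [card_filter, Nat.cast_sum]
    refine sum_le_sum fun ρ _ => ?_
    split_ifs with h1
    · rw [h1]; norm_num
    · have : zeroWeight ρ = 0 ∨ 2 ≤ zeroWeight ρ := by omega
      rcases this with h0 | h0
      · simp [h0]
      · have : (2 : ℝ) ≤ zeroWeight ρ := by exact_mod_cast h0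
        push_cast
        nlinarith
  rw [sum_sub_distrib, ← mul_sum, ← zeroCount_eq_sum] at h1
  linarith [h T hT]

/-- **Small gaps.** -/
theorem exists_small_gap (hRH : ∀ ρ, xiFn ρ = 0 → ρ.re = 1 / 2) {l β : ℝ} (hl : 0 < l)
    (hl1 : l ≤ 1) (hβ : 0 < β) (hβ1 : β < 1)
    (hc : 1 < l + 2 * ∫ a in (0 : ℝ)..β, a * (2 * triCos l (2 * π * a))) (T₀ : ℝ) :
    ∃ ρ σ : ℂ, xiFn ρ = 0 ∧ xiFn σ = 0 ∧ T₀ < ρ.im ∧ ρ.im ≤ σ.im ∧
      (ρ ≠ σ ∨ 2 ≤ zeroWeight ρ) ∧ σ.im - ρ.im ≤ l * (2 * π / Real.log σ.im) := by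
  classical
  by_contra hno
  push Not at hno
  obtain ⟨J, hJ⟩ : ∃ J, J = ∫ a in (0 : ℝ)..β, a * (2 * triCos l (2 * π * a)) := ⟨_, rfl⟩
  rw [← hJ] at hc
  obtain ⟨g, hg⟩ : ∃ g : ℝ → ℝ, g = fun a => 2 * triCos l (2 * π * a) := ⟨_, rfl⟩
  have hgc : Continuous g := hg ▸ continuous_const.mul ((continuous_triCos l).comp (by fun_prop))
  have hg0 : ∀ a, 0 ≤ g a := fun a => hg ▸ mul_nonneg zero_le_two (triCos_nonneg hl _)
  have hgl : ∀ a, g a ≤ l := fun a => by
    rw [hg]
    linarith [triCos_le hl (2 * π * a)]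
  obtain ⟨η, hη⟩ : ∃ η, η = min ((l + 2 * J - 1) / 20) (1 / 20) := ⟨_, rfl⟩
  have hη0 : 0 < η := hη ▸ lt_min (by linarith) (by norm_num)
  have hη1 : η ≤ 1 / 20 := hη ▸ min_le_right _ _
  have hηc : 20 * η ≤ l + 2 * J - 1 := by
    have := min_le_left ((l + 2 * J - 1) / 20) (1 / 20)
    rw [← hη] at this
    linarith
  -- near zero the transform is almost `l`
  obtain ⟨θ, hθ0, hθβ, hθ⟩ : ∃ θ, 0 < θ ∧ θ ≤ β ∧ ∀ a ∈ Set.Icc 0 θ, l * (1 - η) ≤ g a := by
    have h0 : g 0 = l := by rw [hg]; simp [triCos_zero hl]; ring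
    obtain ⟨d, hd, hball⟩ := Metric.eventually_nhds_iff.1
      (hgc.continuousAt.eventually (eventually_ge_nhds (show l * (1 - η) < g 0 by
        rw [h0]; nlinarith)))
    refine ⟨min (d / 2) β, lt_min (half_pos hd) hβ, min_le_right _ _, fun a ha => hball ?_⟩
    rw [Real.dist_eq, sub_zero, abs_of_nonneg ha.1]
    linarith [ha.2, min_le_left (d / 2) β]
  obtain ⟨T₁, h⟩ := exists_pair_rpow hRH hβ1 hη0
  obtain ⟨A, hA, hwin⟩ := exists_window_sum
  obtain ⟨T₂, hT₂⟩ : ∃ T₂, T₂ = max T₀ 2 := ⟨_, rfl⟩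
  obtain ⟨B, hB⟩ : ∃ B, B = 2 * π * (2 * (4 * (A * ell T₂) *
      ∑ ρ ∈ upperZeros T₂, (zeroWeight ρ : ℝ))) := ⟨_, rfl⟩
  have hev : ∀ᶠ T : ℝ in atTop, (|2 * π * (zeroCount T : ℝ) - T * Real.log T| ≤
      η * (T * Real.log T)) ∧ T₁ ≤ T ∧ T₂ ≤ T ∧ B ≤ η * (T * Real.log T) ∧
      Real.exp (-(2 * Real.log T * θ)) ≤ η := by
    filter_upwards [eventually_zeroCount hη0, eventually_ge_atTop T₁, eventually_ge_atTop T₂,
      ((tendsto_id.atTop_mul_atTop₀ Real.tendsto_log_atTop).const_mul_atTop hη0).eventually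
        (eventually_ge_atTop B),
      Real.tendsto_log_atTop.eventually (eventually_ge_atTop (1 / (2 * θ * η)))]
      with T a b c d f
    refine ⟨a, b, c, d, ?_⟩
    rw [div_le_iff₀ (by positivity)] at f
    have h1 := Real.add_one_le_exp (2 * Real.log T * θ)
    rw [Real.exp_neg, inv_le_iff_one_le_mul₀ (Real.exp_pos _)]
    nlinarith
  obtain ⟨T, hN, hT1, hT2', hBT, hexp⟩ := hev.exists
  obtain ⟨hT2, hF⟩ := h T hT1
  have hT0 : 0 < T := by linarith
  obtain ⟨L, hL⟩ : ∃ L, L = Real.log T := ⟨_, rfl⟩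
  have hL0 : 0 < L := hL ▸ Real.log_pos (by linarith)
  rw [← hL] at hF hN hBT hexp
  obtain ⟨Z, hZ⟩ : ∃ Z, Z = upperZeros T := ⟨_, rfl⟩
  rw [← hZ] at hF
  obtain ⟨P, hP⟩ : ∃ P, P = upperZeros T₂ := ⟨_, rfl⟩
  -- the average is small
  have hcos : ∀ ρ σ : ℂ, (∫ a : ℝ, g a * Real.cos (a * (L * (ρ.im - σ.im)))) =
      triangle l (L * (ρ.im - σ.im) / (2 * π)) := fun ρ σ => by
    rw [← integral_triCos_mul_cos hl, hg]
    refine integral_congr_ae (Eventually.of_forall fun a => ?_)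
    dsimp only
    congr 2
    field_simp
  have hgi : ∀ c : ℝ, Integrable fun a => g a * Real.cos (a * c) := fun c => by
    refine ((hg ▸ integrable_triCos hl : Integrable g)).mul_bdd (c := 1)
      (Continuous.aestronglyMeasurable (by fun_prop)) (Eventually.of_forall fun a => ?_)
    rw [Real.norm_eq_abs]
    exact Real.abs_cos_le_one _
  obtain ⟨W, hW⟩ : ∃ W : ℝ, W = ∑ ρ ∈ Z, ∑ σ ∈ Z, (zeroWeight ρ : ℝ) * zeroWeight σ *
      (wgt (ρ.im - σ.im) * triangle l (L * (ρ.im - σ.im) / (2 * π))) := ⟨_, rfl⟩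
  have hWint : Integrable (fun a => g a * pairSum (T ^ a) Z) ∧
      ∫ a : ℝ, g a * pairSum (T ^ a) Z = W := by
    have e : ∀ a, g a * pairSum (T ^ a) Z = ∑ ρ ∈ Z, ∑ σ ∈ Z, (zeroWeight ρ : ℝ) * zeroWeight σ *
        wgt (ρ.im - σ.im) * (g a * Real.cos (a * (L * (ρ.im - σ.im)))) := fun a => by
      simp only [pairSum, Real.log_rpow hT0, ← hL, mul_sum]
      refine sum_congr rfl fun ρ _ => sum_congr rfl fun σ _ => ?_
      rw [mul_assoc a L]
      ring
    simp only [e]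
    refine ⟨integrable_finsetSum _ fun ρ _ => integrable_finsetSum _ fun σ _ =>
      (hgi _).const_mul _, ?_⟩
    rw [integral_finsetSum _ fun ρ _ => integrable_finsetSum _ fun σ _ => (hgi _).const_mul _, hW]
    refine sum_congr rfl fun ρ _ => ?_
    rw [integral_finsetSum _ fun σ _ => (hgi _).const_mul _]
    refine sum_congr rfl fun σ _ => ?_
    rw [integral_const_mul, hcos]
    ring
  have hPsum : ∀ ρ ∈ P, ∑ σ ∈ Z, (zeroWeight σ : ℝ) *
      (wgt (ρ.im - σ.im) * triangle l (L * (ρ.im - σ.im) / (2 * π))) ≤ 4 * (A * ell T₂) := by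
    intro ρ hρ
    obtain ⟨-, h1, h2⟩ := mem_upperZeros.1 (hP ▸ hρ)
    refine (sum_le_sum (g := fun σ => 4 * ((zeroWeight σ : ℝ) * cauchy (ρ.im - σ.im)))
      fun σ _ => ?_).trans ?_
    · rw [mul_left_comm (4 : ℝ)]
      exact mul_le_mul_of_nonneg_left ((mul_le_of_le_one_right (wgt_pos _).le
        (triangle_le_one hl _)).trans (wgt_le_cauchy _)) (Nat.cast_nonneg _)
    · rw [← mul_sum]
      refine mul_le_mul_of_nonneg_left ((hwin ρ.im Z fun σ hσ =>
        (mem_upperZeros.1 (hZ ▸ hσ)).1).trans (mul_le_mul_of_nonneg_left (ell_mono ?_) hA))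
        (by norm_num)
      rw [abs_of_pos h1]
      exact h2.trans (le_abs_self _)
  obtain ⟨K, hK⟩ : ∃ K : ℂ → ℂ → ℝ, K = fun ρ σ =>
      wgt (ρ.im - σ.im) * triangle l (L * (ρ.im - σ.im) / (2 * π)) := ⟨_, rfl⟩
  have hK0 : ∀ ρ σ, 0 ≤ K ρ σ := fun ρ σ =>
    hK ▸ mul_nonneg (wgt_pos _).le (triangle_nonneg _ _)
  have hKs : ∀ ρ σ, K ρ σ = K σ ρ := fun ρ σ => by
    rw [hK]
    simp only [wgt, triangle]
    rw [show σ.im - ρ.im = -(ρ.im - σ.im) by ring, neg_sq, mul_neg, neg_div, abs_neg]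
  have hlin : ∀ ρ ∈ Z, ∀ σ ∈ Z, (zeroWeight ρ : ℝ) * zeroWeight σ * K ρ σ ≤
      (if σ = ρ then (zeroWeight ρ : ℝ) else 0) +
        (if ρ ∈ P then (zeroWeight ρ : ℝ) * ((zeroWeight σ : ℝ) * K ρ σ) else 0) +
        (if σ ∈ P then (zeroWeight σ : ℝ) * ((zeroWeight ρ : ℝ) * K σ ρ) else 0) := by
    intro ρ hρ σ hσ
    have ha : 0 ≤ if σ = ρ then (zeroWeight ρ : ℝ) else 0 := by positivity
    have hb : 0 ≤ if σ ∈ P then (zeroWeight σ : ℝ) * ((zeroWeight ρ : ℝ) * K σ ρ) else 0 := by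
      have := hK0 σ ρ
      positivity
    have hd : 0 ≤ if ρ ∈ P then (zeroWeight ρ : ℝ) * ((zeroWeight σ : ℝ) * K ρ σ) else 0 := by
      have := hK0 ρ σ
      positivity
    by_cases h1 : ρ ∈ P
    · rw [if_pos h1] at hd ⊢
      linarith [mul_assoc (zeroWeight ρ : ℝ) (zeroWeight σ : ℝ) (K ρ σ)]
    by_cases h2 : σ ∈ P
    · rw [if_pos h2] at hb ⊢
      rw [if_neg h1, hKs ρ σ]
      linarith [show (zeroWeight ρ : ℝ) * zeroWeight σ * K σ ρ =
        (zeroWeight σ : ℝ) * ((zeroWeight ρ : ℝ) * K σ ρ) by ring]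
    have hhigh : ∀ τ ∈ Z, τ ∉ P → xiFn τ = 0 ∧ T₀ < τ.im ∧ 2 < τ.im ∧ τ.im ≤ T := fun τ hτ hτP => by
      obtain ⟨a, b, c⟩ := mem_upperZeros.1 (hZ ▸ hτ)
      have : T₂ < τ.im := not_le.1 fun h => hτP (hP ▸ mem_upperZeros.2 ⟨a, b, h⟩)
      rw [hT₂] at this
      exact ⟨a, (le_max_left T₀ 2).trans_lt this, (le_max_right T₀ 2).trans_lt this, c⟩
    obtain ⟨zρ, ρ0, ρ2, ρT⟩ := hhigh ρ hρ h1
    obtain ⟨zσ, σ0, σ2, σT⟩ := hhigh σ hσ h2
    rw [if_neg h1, if_neg h2, add_zero, add_zero]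
    by_cases h3 : σ = ρ
    · subst h3
      rw [if_pos rfl]
      have hm : (zeroWeight σ : ℝ) ≤ 1 := by
        by_contra hm
        have h2m : 2 ≤ zeroWeight σ := by
          by_contra h'
          exact hm (by exact_mod_cast (show zeroWeight σ ≤ 1 by omega))
        have := hno σ σ zρ zρ ρ0 le_rfl (Or.inr h2m)
        rw [sub_self] at this
        have : 0 < l * (2 * π / Real.log σ.im) :=
          mul_pos hl (div_pos (by positivity) (Real.log_pos (by linarith)))
        linarith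
      rw [hK]
      simp only [sub_self, mul_zero, zero_div, wgt_zero, one_mul]
      have := triangle_le_one hl 0
      have := triangle_nonneg l 0
      nlinarith [(Nat.cast_nonneg (zeroWeight σ) : (0 : ℝ) ≤ _),
        mul_le_mul_of_nonneg_left hm (Nat.cast_nonneg (zeroWeight σ) : (0 : ℝ) ≤ _)]
    rw [if_neg h3]
    have hfar : l * (2 * π / L) ≤ |ρ.im - σ.im| := by
      rcases le_total ρ.im σ.im with hle | hle
      · have := hno ρ σ zρ zσ ρ0 hle (Or.inl (Ne.symm h3))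
        rw [abs_sub_comm, abs_of_nonneg (sub_nonneg.2 hle)]
        refine le_trans ?_ this.le
        rw [hL]
        exact mul_le_mul_of_nonneg_left (div_le_div_of_nonneg_left (by positivity)
          (Real.log_pos (by linarith)) (Real.log_le_log (by linarith) σT)) hl.le
      · have := hno σ ρ zσ zρ σ0 hle (Or.inl h3)
        rw [abs_of_nonneg (sub_nonneg.2 hle)]
        refine le_trans ?_ this.le
        rw [hL]
        exact mul_le_mul_of_nonneg_left (div_le_div_of_nonneg_left (by positivity)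
          (Real.log_pos (by linarith)) (Real.log_le_log (by linarith) ρT)) hl.le
    refine le_of_eq ?_
    rw [hK]
    simp only
    rw [triangle_eq_zero hl, mul_zero, mul_zero]
    rw [mul_div_assoc', div_le_iff₀ hL0] at hfar
    rw [abs_div, abs_mul, abs_of_pos hL0, abs_of_pos (show 0 < 2 * π by positivity),
      le_div_iff₀ (by positivity)]
    linarith
  have hWup : 2 * π * W ≤ 2 * π * (zeroCount T : ℝ) + B := by
    have h1 : W = ∑ ρ ∈ Z, ∑ σ ∈ Z, (zeroWeight ρ : ℝ) * zeroWeight σ * K ρ σ := by rw [hW, hK]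
    have h2 := sum_le_sum fun ρ hρ => sum_le_sum (hlin ρ hρ)
    rw [← h1] at h2
    simp only [sum_add_distrib] at h2
    have hsub : P ⊆ Z := fun τ hτ => by
      obtain ⟨a, b, c⟩ := mem_upperZeros.1 (hP ▸ hτ)
      exact hZ ▸ mem_upperZeros.2 ⟨a, b, c.trans hT2'⟩
    have e1 : ∑ ρ ∈ Z, ∑ σ ∈ Z, (if σ = ρ then (zeroWeight ρ : ℝ) else 0) = zeroCount T := by
      rw [zeroCount_eq_sum, ← hZ]
      refine sum_congr rfl fun ρ hρ => ?_
      rw [sum_ite_eq' Z ρ, if_pos hρ]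
    have e2 : ∑ ρ ∈ Z, ∑ σ ∈ Z,
        (if ρ ∈ P then (zeroWeight ρ : ℝ) * ((zeroWeight σ : ℝ) * K ρ σ) else 0) ≤
        4 * (A * ell T₂) * ∑ ρ ∈ P, (zeroWeight ρ : ℝ) := by
      calc _ = ∑ ρ ∈ Z, if ρ ∈ P then
            (zeroWeight ρ : ℝ) * ∑ σ ∈ Z, (zeroWeight σ : ℝ) * K ρ σ else 0 := by
            refine sum_congr rfl fun ρ _ => ?_
            split_ifs
            · rw [mul_sum]
            · rw [sum_const_zero]
        _ = ∑ ρ ∈ P, (zeroWeight ρ : ℝ) * ∑ σ ∈ Z, (zeroWeight σ : ℝ) * K ρ σ := by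
            rw [sum_ite_mem, inter_eq_right.2 hsub]
        _ ≤ ∑ ρ ∈ P, (zeroWeight ρ : ℝ) * (4 * (A * ell T₂)) :=
            sum_le_sum fun ρ hρ => mul_le_mul_of_nonneg_left (hK ▸ hPsum ρ hρ) (Nat.cast_nonneg _)
        _ = _ := by rw [← sum_mul, mul_comm]
    have e3 : ∑ ρ ∈ Z, ∑ σ ∈ Z,
        (if σ ∈ P then (zeroWeight σ : ℝ) * ((zeroWeight ρ : ℝ) * K σ ρ) else 0) ≤
        4 * (A * ell T₂) * ∑ ρ ∈ P, (zeroWeight ρ : ℝ) := by
      rw [sum_comm]; exact e2
    rw [hB, ← hP, ← mul_add]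
    refine mul_le_mul_of_nonneg_left ?_ (by positivity)
    linarith
  -- the average is large
  have hWlow : 2 * (2 * π * ∫ a in (0 : ℝ)..β, g a * pairSum (T ^ a) Z) ≤ 2 * π * W := by
    rw [← hWint.2]
    obtain ⟨hi, -⟩ := hWint
    have hnn : ∀ a, 0 ≤ g a * pairSum (T ^ a) Z := fun a =>
      mul_nonneg (hg0 a) (pairSum_nonneg _ _)
    have heven : ∀ a, g (-a) * pairSum (T ^ (-a)) Z = g a * pairSum (T ^ a) Z := fun a => by
      rw [Real.rpow_neg hT0.le, pairSum_inv, hg]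
      simp only [mul_neg, triCos_neg]
    have h1 : ∫ a in -β..β, g a * pairSum (T ^ a) Z ≤ ∫ a : ℝ, g a * pairSum (T ^ a) Z := by
      rw [intervalIntegral.integral_of_le (by linarith)]
      exact setIntegral_le_integral hi (Eventually.of_forall hnn)
    have h2 : ∫ a in -β..β, g a * pairSum (T ^ a) Z =
        2 * ∫ a in (0 : ℝ)..β, g a * pairSum (T ^ a) Z := by
      rw [← intervalIntegral.integral_add_adjacent_intervals hi.intervalIntegrable
        hi.intervalIntegrable (b := (0 : ℝ)), two_mul]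
      congr 1
      rw [← neg_zero, ← intervalIntegral.integral_comp_neg]
      simp only [heven, neg_zero]
    have h3 := mul_le_mul_of_nonneg_left (h2 ▸ h1) (show 0 ≤ 2 * π by positivity)
    linarith
  have hlow : T * L * (J + l * (1 - η) ^ 2 * ((1 - η) / 2) - η * l * β) ≤
      2 * π * ∫ a in (0 : ℝ)..β, g a * pairSum (T ^ a) Z := by
    rw [← intervalIntegral.integral_const_mul]
    have hE : Continuous fun a : ℝ => L * Real.exp (-(2 * L * a)) := by fun_prop
    refine le_trans ?_ (intervalIntegral.integral_mono_on hβ.le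
      (f := fun a => T * L * (a * g a + (1 - η) * (g a * (L * Real.exp (-(2 * L * a)))) - η * l))
      (Continuous.intervalIntegrable (by fun_prop) _ _)
      ((continuous_const.mul (hgc.mul (continuous_pairSum_rpow hT0 Z))).intervalIntegrable _ _)
      fun a ha => ?_)
    · rw [intervalIntegral.integral_const_mul]
      refine mul_le_mul_of_nonneg_left ?_ (by positivity)
      have hc' : ∀ f : ℝ → ℝ, Continuous f → IntervalIntegrable f volume 0 β :=
        fun f hf => hf.intervalIntegrable _ _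
      rw [intervalIntegral.integral_sub (hc' _ (by fun_prop)) intervalIntegrable_const,
        intervalIntegral.integral_add (hc' _ (by fun_prop)) (hc' _ (by fun_prop)),
        intervalIntegral.integral_const_mul, intervalIntegral.integral_const, smul_eq_mul,
        sub_zero, mul_comm β]
      have e : ∫ a in (0 : ℝ)..β, a * g a = J := by rw [hJ, hg]
      rw [e]
      have h4 : l * (1 - η) * ((1 - η) / 2) ≤
          ∫ a in (0 : ℝ)..β, g a * (L * Real.exp (-(2 * L * a))) := by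
        refine le_trans ?_ (intervalIntegral.integral_mono_interval le_rfl hθ0.le hθβ
          (Eventually.of_forall fun a => mul_nonneg (hg0 a) (by positivity))
          ((hgc.mul hE).intervalIntegrable _ _))
        refine le_trans ?_ (intervalIntegral.integral_mono_on hθ0.le
          (f := fun a => l * (1 - η) * (L * Real.exp (-(2 * L * a))))
          ((continuous_const.mul hE).intervalIntegrable _ _) ((hgc.mul hE).intervalIntegrable _ _)
          fun a ha => mul_le_mul_of_nonneg_right (hθ a ha) (by positivity))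
        rw [intervalIntegral.integral_const_mul, integral_exp_decay L]
        exact mul_le_mul_of_nonneg_left (by linarith) (mul_nonneg hl.le (by linarith))
      linarith [mul_le_mul_of_nonneg_left h4 (show 0 ≤ 1 - η by linarith)]
    · have h1 := (abs_le.1 (hF a ha.1 ha.2)).1
      obtain ⟨E, hE'⟩ : ∃ E, E = L * Real.exp (-(2 * L * a)) := ⟨_, rfl⟩
      rw [← hE'] at h1 ⊢
      have hE0 : 0 ≤ E := by rw [hE']; positivity
      calc T * L * (a * g a + (1 - η) * (g a * E) - η * l)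
          ≤ T * L * (g a * (a + (1 - η) * E - η)) := by
            refine mul_le_mul_of_nonneg_left ?_ (by positivity)
            nlinarith [mul_le_mul_of_nonneg_left (hgl a) hη0.le]
        _ = g a * (T * L * (a + (1 - η) * E - η)) := by ring
        _ ≤ g a * (2 * π * pairSum (T ^ a) Z) := mul_le_mul_of_nonneg_left (by linarith) (hg0 a)
        _ = _ := by ring
  obtain ⟨U, hU⟩ : ∃ U, U = T * L := ⟨_, rfl⟩
  rw [← hU] at hlow hN hBT
  have hU0 : 0 < U := by rw [hU]; positivity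
  have h1 : U * (2 * (J + l * (1 - η) ^ 2 * ((1 - η) / 2) - η * l * β)) ≤ U * (1 + 2 * η) := by
    linarith [(abs_le.1 hN).2]
  have h2 := le_of_mul_le_mul_left h1 hU0
  have h3 : l * (1 - 3 * η) ≤ l * ((1 - η) ^ 2 * (1 - η)) :=
    mul_le_mul_of_nonneg_left (by nlinarith [sq_nonneg η]) hl.le
  nlinarith [mul_le_mul_of_nonneg_left (mul_le_mul hl1 hβ1.le hβ.le zero_le_one) hη0.le,
    mul_le_mul_of_nonneg_left hl1 hη0.le]

/-- The numerical condition at `l = 0.68`. -/
theorem exists_beta : ∃ β : ℝ, 0 < β ∧ β < 1 ∧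
    1 < (17 / 25 : ℝ) + 2 * ∫ a in (0 : ℝ)..β, a * (2 * triCos (17 / 25) (2 * π * a)) := by
  obtain ⟨q, hq⟩ : ∃ q, q = (2 * π * (17 / 25)) ^ 2 := ⟨_, rfl⟩
  obtain ⟨Φ, hΦ⟩ : ∃ Φ : ℝ → ℝ, Φ = fun b => 17 / 25 * (1 + (b ^ 2 - q / 24 * b ^ 4 +
      q ^ 2 / 1080 * b ^ 6 - q ^ 3 / 80640 * b ^ 8)) := ⟨_, rfl⟩
  have hcont : Continuous Φ := by rw [hΦ]; fun_prop
  have h1 : 1 < Φ 1 := by
    have a : q ≤ 18255 / 1000 := by
      rw [hq]; nlinarith [Real.pi_gt_three, Real.pi_lt_d4]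
    have b : 182535 / 10000 ≤ q := by
      rw [hq]; nlinarith [Real.pi_gt_three, Real.pi_gt_d4]
    rw [hΦ]
    simp only [one_pow, mul_one]
    nlinarith [pow_le_pow_left₀ (by linarith) a 3, pow_le_pow_left₀ (by norm_num) b 2]
  obtain ⟨β, hβ1, hβ0, hβ⟩ := ((eventually_mem_nhdsWithin (s := Set.Iio (1 : ℝ)) (a := 1)).and
    (((eventually_gt_nhds (show (0 : ℝ) < 1 by norm_num)).filter_mono nhdsWithin_le_nhds).and
      ((hcont.continuousAt.eventually (eventually_gt_nhds h1)).filter_mono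
        nhdsWithin_le_nhds))).exists
  refine ⟨β, hβ0, hβ1, hβ.trans_le ?_⟩
  have hd : ∀ s ∈ Set.uIcc 0 β, HasDerivAt (fun s : ℝ => 17 / 25 * (s ^ 2 / 2 - q / 48 * s ^ 4 +
      q ^ 2 / 2160 * s ^ 6 - q ^ 3 / 161280 * s ^ 8))
      (s * (17 / 25 * (1 - q / 12 * s ^ 2 + q ^ 2 / 360 * s ^ 4 - q ^ 3 / 20160 * s ^ 6))) s :=
    fun s _ => by
      refine ((((((hasDerivAt_pow 2 s).div_const 2).sub ((hasDerivAt_pow 4 s).const_mul _)).add
        ((hasDerivAt_pow 6 s).const_mul _)).sub ((hasDerivAt_pow 8 s).const_mul _)).const_mul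
          _).congr_deriv ?_
      push_cast
      ring
  have h2 := intervalIntegral.integral_mono_on (μ := volume) hβ0.le
    (f := fun s => s * (17 / 25 * (1 - q / 12 * s ^ 2 + q ^ 2 / 360 * s ^ 4 -
      q ^ 3 / 20160 * s ^ 6)))
    (g := fun s => s * (2 * triCos (17 / 25) (2 * π * s)))
    ((Continuous.intervalIntegrable (by fun_prop)) _ _)
    ((continuous_id.mul (continuous_const.mul ((continuous_triCos _).comp
      (by fun_prop)))).intervalIntegrable _ _)
    fun s hs => by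
      refine mul_le_mul_of_nonneg_left (le_of_eq_of_le ?_ (triCos_ge (by norm_num) hs.1)) hs.1
      rw [hq]; ring
  rw [intervalIntegral.integral_eq_sub_of_hasDerivAt hd
    ((Continuous.intervalIntegrable (by fun_prop)) _ _)] at h2
  rw [hΦ]
  simp only [ne_eq, OfNat.ofNat_ne_zero, not_false_eq_true, zero_pow, zero_div, mul_zero,
    sub_zero, add_zero] at h2
  linarith

end FA.PairCorrelation

end
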