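import Mathlib.Analysis.MellinInversion
import Mathlib.Analysis.SpecialFunctions.ImproperIntegrals

/-!
# The kernel of Montgomery's explicit formula

`wKer t w = 1 / (u + 1) - 1 / (u - 1)` with `u = w - 1/2 - it`, so that it is `2 / (1 + (γ - t)²)`
at `w = 1/2 + iγ`. Against `y ^ u` on `re u = 3/2` it gives `2π (1/y - y)` for `y ≥ 1` and `0`
otherwise.
-/

set_option autoImplicit false

noncomputable section

namespace FA.PairCorrelation

open Complex MeasureTheory Filter Topology Set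
open scoped Real

/-- The kernel. -/
def wKer (t : ℝ) (w : ℂ) : ℂ :=
  (w - (((-1 / 2 : ℝ) : ℂ) + t * I))⁻¹ - (w - (((3 / 2 : ℝ) : ℂ) + t * I))⁻¹

theorem wKer_line (t γ : ℝ) :
    wKer t (1 / 2 + γ * I) = ((2 / (1 + (t - γ) ^ 2) : ℝ) : ℂ) := by
  have h : ∀ c : ℝ, c ≠ 0 → ((c : ℂ) + ((γ - t : ℝ) : ℂ) * I) ≠ 0 := fun c hc h0 => by
    have := congrArg Complex.re h0
    simp at this
    exact hc this
  have h2 : ((1 + (t - γ) ^ 2 : ℝ) : ℂ) ≠ 0 := ofReal_ne_zero.2 (by positivity)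
  rw [wKer, show (1 / 2 : ℂ) + γ * I - (((-1 / 2 : ℝ) : ℂ) + t * I) =
      ((1 : ℝ) : ℂ) + ((γ - t : ℝ) : ℂ) * I by push_cast; ring,
    show (1 / 2 : ℂ) + γ * I - (((3 / 2 : ℝ) : ℂ) + t * I) =
      ((-1 : ℝ) : ℂ) + ((γ - t : ℝ) : ℂ) * I by push_cast; ring,
    inv_sub_inv (h 1 one_ne_zero) (h (-1) (by norm_num)), Complex.ofReal_div,
    div_eq_div_iff (mul_ne_zero (h 1 one_ne_zero) (h (-1) (by norm_num))) h2]
  push_cast
  linear_combination (-2 : ℂ) * ((γ : ℂ) - t) ^ 2 * I_sq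

theorem norm_wKer_eq {t : ℝ} {w : ℂ} (h1 : w ≠ ((-1 / 2 : ℝ) : ℂ) + t * I)
    (h2 : w ≠ ((3 / 2 : ℝ) : ℂ) + t * I) :
    ‖wKer t w‖ = 2 / (‖w - (((-1 / 2 : ℝ) : ℂ) + t * I)‖ * ‖w - (((3 / 2 : ℝ) : ℂ) + t * I)‖) := by
  rw [wKer, inv_sub_inv (sub_ne_zero.2 h1) (sub_ne_zero.2 h2), norm_div, norm_mul]
  congr 1
  rw [show w - (((3 / 2 : ℝ) : ℂ) + t * I) - (w - (((-1 / 2 : ℝ) : ℂ) + t * I)) = (-2 : ℂ) by
    push_cast; ring, norm_neg, Complex.norm_two]

/-- Away from the two poles. -/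
theorem norm_wKer_le {t : ℝ} {w : ℂ}
    (h : (1 / 2 ≤ |w.re + 1 / 2| ∧ 1 / 2 ≤ |w.re - 3 / 2|) ∨ 1 / 2 ≤ |w.im - t|) :
    ‖wKer t w‖ ≤ 10 / (1 + (w.im - t) ^ 2) := by
  obtain ⟨d, hd⟩ : ∃ d, d = w.im - t := ⟨_, rfl⟩
  rw [← hd] at h ⊢
  have key : ∀ c : ℝ, (1 / 2 ≤ |w.re - c| ∨ 1 / 2 ≤ |d|) →
      w ≠ (c : ℂ) + t * I ∧ √((1 + d ^ 2) / 5) ≤ ‖w - ((c : ℂ) + t * I)‖ := by
    intro c hc
    have hn : (1 + d ^ 2) / 5 ≤ ‖w - ((c : ℂ) + t * I)‖ ^ 2 := by
      rw [Complex.sq_norm, Complex.normSq_apply]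
      simp only [sub_re, sub_im, add_re, add_im, mul_re, mul_im, ofReal_re, ofReal_im, I_re, I_im,
        mul_zero, mul_one, zero_mul, sub_zero, add_zero, zero_add]
      rw [← hd]
      rcases hc with hc | hc
      · nlinarith [mul_self_le_mul_self (by norm_num) hc, abs_mul_abs_self (w.re - c)]
      · nlinarith [mul_self_le_mul_self (by norm_num) hc, abs_mul_abs_self d,
          mul_self_nonneg (w.re - c)]
    refine ⟨fun e => ?_, (Real.sqrt_le_iff).2 ⟨norm_nonneg _, hn⟩⟩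
    rw [e, sub_self, norm_zero] at hn
    nlinarith
  obtain ⟨a1, a2⟩ := key (-1 / 2) (h.imp (fun h => by
    rw [show w.re - -1 / 2 = w.re + 1 / 2 by ring]; exact h.1) id)
  obtain ⟨b1, b2⟩ := key (3 / 2) (h.imp And.right id)
  rw [norm_wKer_eq a1 b1]
  have hm := mul_le_mul a2 b2 (Real.sqrt_nonneg _) (norm_nonneg _)
  rw [Real.mul_self_sqrt (by positivity)] at hm
  refine (div_le_div_of_nonneg_left zero_le_two (by positivity) hm).trans (le_of_eq ?_)
  field_simp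
  norm_num

theorem differentiableAt_wKer {t : ℝ} {w : ℂ} (h1 : w ≠ ((-1 / 2 : ℝ) : ℂ) + t * I)
    (h2 : w ≠ ((3 / 2 : ℝ) : ℂ) + t * I) : DifferentiableAt ℂ (wKer t) w := by
  have e1 := sub_ne_zero.2 h1
  have e2 := sub_ne_zero.2 h2
  unfold wKer
  fun_prop (disch := assumption)

theorem integrable_inv_shift (t : ℝ) : Integrable fun v : ℝ => 1 / (1 + (v - t) ^ 2) := by
  simpa [one_div] using integrable_inv_one_add_sq.comp_sub_right t

theorem integral_inv_shift (t : ℝ) : ∫ v : ℝ, 1 / (1 + (v - t) ^ 2) = π := by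
  rw [integral_sub_right_eq_self (fun v : ℝ => 1 / (1 + v ^ 2)) t]
  simp only [one_div]
  exact integral_univ_inv_one_add_sq

/-- `1/z - z` on `(0, 1]`. -/
def stepFn (z : ℝ) : ℂ :=
  (Ioc 0 1).indicator (fun t : ℝ => (t : ℂ) ^ (-1 : ℂ)) z -
    (Ioc 0 1).indicator (fun t : ℝ => (t : ℂ) ^ (1 : ℂ)) z

theorem hasMellin_stepFn {s : ℂ} (hs : 1 < s.re) :
    HasMellin stepFn s (1 / (s - 1) - 1 / (s + 1)) := by
  have h1 := hasMellin_cpow_Ioc (-1) (s := s) (by simp; linarith)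
  have h2 := hasMellin_cpow_Ioc 1 (s := s) (by simp; linarith)
  have h := hasMellin_sub h1.1 h2.1
  rw [h1.2, h2.2, ← sub_eq_add_neg] at h
  exact h

theorem stepFn_eq {z : ℝ} (hz : 0 < z) :
    stepFn z = if z ≤ 1 then ((1 / z - z : ℝ) : ℂ) else 0 := by
  unfold stepFn
  split_ifs with h
  · rw [indicator_of_mem (mem_Ioc.2 ⟨hz, h⟩), indicator_of_mem (mem_Ioc.2 ⟨hz, h⟩), cpow_neg_one,
      cpow_one]
    push_cast
    ring
  · rw [indicator_of_notMem (fun h' => h h'.2), indicator_of_notMem (fun h' => h h'.2), sub_zero]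

theorem continuousAt_stepFn {z : ℝ} (hz : 0 < z) : ContinuousAt stepFn z := by
  have hc : ContinuousAt (fun z : ℝ => ((max (1 / z - z) 0 : ℝ) : ℂ)) z := by
    refine Complex.continuous_ofReal.continuousAt.comp ?_
    exact ((continuousAt_const.div continuousAt_id hz.ne').sub continuousAt_id).max
      continuousAt_const
  refine hc.congr ?_
  filter_upwards [isOpen_Ioi.mem_nhds hz] with r hr
  rw [stepFn_eq hr]
  split_ifs with h
  · rw [max_eq_left]
    have : 1 ≤ 1 / r := by rw [le_div_iff₀ hr]; linarith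
    linarith
  · rw [max_eq_right, Complex.ofReal_zero]
    have : 1 / r ≤ 1 := by rw [div_le_one hr]; linarith
    linarith

/-- **The kernel on the line `re u = 3/2`.** -/
theorem integral_right_kernel {y : ℝ} (hy : 0 < y) (t : ℝ) :
    ∫ v : ℝ, (y : ℂ) ^ (((3 / 2 : ℝ) : ℂ) + ((v - t : ℝ) : ℂ) * I) *
        wKer t (((2 : ℝ) : ℂ) + v * I) =
      if 1 ≤ y then 2 * π * ((1 / y - y : ℝ) : ℂ) else 0 := by
  have hmel : ∀ d : ℝ, mellin stepFn (((3 / 2 : ℝ) : ℂ) + d * I) =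
      -wKer t (((2 : ℝ) : ℂ) + ((d + t : ℝ) : ℂ) * I) := fun d => by
    rw [(hasMellin_stepFn (by simp; norm_num)).2, wKer, one_div, one_div, neg_sub]
    congr 2 <;> push_cast <;> ring
  have hw : ∀ d : ℝ, ‖wKer t (((2 : ℝ) : ℂ) + ((d + t : ℝ) : ℂ) * I)‖ ≤ 10 / (1 + d ^ 2) :=
    fun d => (norm_wKer_le (Or.inl ⟨by simp; norm_num, by simp; norm_num⟩)).trans
      (le_of_eq (by simp))
  have hv : VerticalIntegrable (mellin stepFn) (3 / 2) := by
    unfold VerticalIntegrable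
    simp only [hmel]
    refine (integrable_inv_one_add_sq.const_mul 10).mono' ?_ (Eventually.of_forall fun d => ?_)
    · refine (Continuous.neg (continuous_iff_continuousAt.2 fun d => ?_)).aestronglyMeasurable
      refine ContinuousAt.comp (g := wKer t)
        (f := fun d : ℝ => ((2 : ℝ) : ℂ) + ((d + t : ℝ) : ℂ) * I)
        (differentiableAt_wKer ?_ ?_).continuousAt (by fun_prop)
      · exact fun h => by have := congrArg Complex.re h; simp at this; norm_num at this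
      · exact fun h => by have := congrArg Complex.re h; simp at this; norm_num at this
    · rw [norm_neg, ← div_eq_mul_inv]
      exact hw d
  have h := mellinInv_mellin_eq (3 / 2) stepFn (inv_pos.2 hy)
    (hasMellin_stepFn (by simp; norm_num)).1 hv (continuousAt_stepFn (inv_pos.2 hy))
  rw [mellinInv, Complex.real_smul] at h
  simp only [smul_eq_mul, hmel] at h
  have e : ∀ d : ℝ, ((y⁻¹ : ℝ) : ℂ) ^ (-(((3 / 2 : ℝ) : ℂ) + d * I)) =
      (y : ℂ) ^ (((3 / 2 : ℝ) : ℂ) + d * I) := fun d => by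
    rw [Complex.ofReal_inv, inv_cpow _ _ (by
      rw [Complex.arg_ofReal_of_nonneg hy.le]; exact Real.pi_pos.ne), cpow_neg, inv_inv]
  simp only [e, mul_neg, integral_neg] at h
  rw [← integral_add_right_eq_self _ t]
  simp only [add_sub_cancel_right]
  obtain ⟨J, hJ⟩ : ∃ J, J = ∫ d : ℝ, (y : ℂ) ^ (((3 / 2 : ℝ) : ℂ) + d * I) *
      wKer t (((2 : ℝ) : ℂ) + ((d + t : ℝ) : ℂ) * I) := ⟨_, rfl⟩
  rw [← hJ] at h ⊢
  rw [stepFn_eq (inv_pos.2 hy)] at h
  have hπ : (π : ℂ) ≠ 0 := ofReal_ne_zero.2 Real.pi_ne_zero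
  rcases le_or_gt 1 y with hy1 | hy1
  · rw [if_pos hy1]
    rw [if_pos (inv_le_one_of_one_le₀ hy1)] at h
    push_cast at h ⊢
    field_simp at h ⊢
    linear_combination -h
  · rw [if_neg (not_le.2 hy1)]
    rw [if_neg (not_le.2 ((one_lt_inv₀ hy).2 hy1))] at h
    simpa [hπ] using h

end FA.PairCorrelation
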