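import Fermat.Agent.ExplicitFormula.Contour
import Fermat.Agent.PairCorr.Bounds
import Fermat.Agent.PairCorr.Kernel

/-!
# The residues of `x ^ (w - 1/2) (-ζ'/ζ) w · wKer t w`
-/

set_option autoImplicit false

noncomputable section

namespace FA.PairCorrelation

open Complex Filter Topology MeasureTheory Set FA.RiemannMangoldt FA.ExplicitFormula FA.ZeroFree
open scoped Real

/-- `x ^ (w - 1/2)`. -/
def xPow (x : ℝ) (w : ℂ) : ℂ := (x : ℂ) ^ (w - 1 / 2)

/-- The integrand. -/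
def montFn (x t : ℝ) (w : ℂ) : ℂ := xPow x w * negLogDeriv w * wKer t w

/-- The same without `-ζ'/ζ`. -/
def baseFn (x t : ℝ) (w : ℂ) : ℂ := xPow x w * wKer t w

/-- The summand at a zero, with multiplicity. -/
def montTerm (x t : ℝ) (ρ : ℂ) : ℂ := (zeroWeight ρ : ℂ) * (xPow x ρ * wKer t ρ)

/-- `-1/2 + it`. -/
def poleB (t : ℝ) : ℂ := ((-1 / 2 : ℝ) : ℂ) + t * I

/-- `3/2 + it`. -/
def poleA (t : ℝ) : ℂ := ((3 / 2 : ℝ) : ℂ) + t * I

theorem poleB_re (t : ℝ) : (poleB t).re = -1 / 2 := by simp [poleB]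

theorem poleA_re (t : ℝ) : (poleA t).re = 3 / 2 := by simp [poleA]

theorem poleB_im (t : ℝ) : (poleB t).im = t := by simp [poleB]

theorem poleA_im (t : ℝ) : (poleA t).im = t := by simp [poleA]

theorem differentiable_xPow {x : ℝ} (hx : 0 < x) : Differentiable ℂ (xPow x) := fun w =>
  (differentiableAt_id.sub_const _).const_cpow (Or.inl (ofReal_ne_zero.2 hx.ne'))

/-- The residues of `baseFn`. -/
theorem boxInt_base {x t T : ℝ} (hx : 0 < x) (hT : |t| < T) :
    boxInt (baseFn x t) (-1) 2 T = 2 * π * I * (xPow x (poleB t) - xPow x (poleA t)) := by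
  have hT0 : 0 ≤ T := le_trans (abs_nonneg t) hT.le
  have hd := differentiable_xPow hx
  obtain ⟨P, hP⟩ : ∃ P : ℂ → ℂ → ℂ, P = fun c s => xPow x s / (s - c) := ⟨_, rfl⟩
  have hc : ∀ c : ℂ, -1 < c.re → c.re < 2 → |c.im| ≠ T →
      (∀ s ∈ boxEdges (-1) 2 T, ContinuousAt (P c) s) ∧
        boxInt (P c) (-1) 2 T = if |c.im| < T then 2 * π * I * xPow x c else 0 := by
    intro c h1 h2 h3
    refine ⟨fun s hs => ?_, ?_⟩
    · rw [hP]
      exact (hd s).continuousAt.div (continuousAt_id.sub continuousAt_const)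
        (sub_ne_zero.2 (interior_not_edge h1 h2 h3 hT0 hs))
    · rw [hP]
      exact boxInt_residue isOpen_univ hd.differentiableOn (fun _ _ _ => trivial) hT0 h1 h2 h3
  obtain ⟨b1, b2⟩ := hc (poleB t) (by rw [poleB_re]; norm_num) (by rw [poleB_re]; norm_num)
    (by rw [poleB_im]; exact hT.ne)
  obtain ⟨a1, a2⟩ := hc (poleA t) (by rw [poleA_re]; norm_num) (by rw [poleA_re]; norm_num)
    (by rw [poleA_im]; exact hT.ne)
  rw [boxInt_congr (G := fun s => P (poleB t) s - P (poleA t) s) fun s _ => ?_, boxInt_sub b1 a1,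
    b2, a2, poleB_im, poleA_im, if_pos hT, if_pos hT]
  · ring
  · simp only [baseFn, wKer, hP, poleB, poleA, div_eq_mul_inv]
    ring

/-- **The residues.** -/
theorem boxInt_montFn {x t T : ℝ} (hx : 0 < x) (hT : |t| < T)
    (hord : ∀ ρ, xiFn ρ = 0 → |ρ.im| ≠ T) :
    boxInt (montFn x t) (-1) 2 T = 2 * π * I *
      (xPow x (poleB t) * negLogDeriv (poleB t) - xPow x (poleA t) * negLogDeriv (poleA t) +
        xPow x 1 * wKer t 1 - ∑ ρ ∈ zerosUpTo T, montTerm x t ρ) := by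
  have hT0 : 0 < T := lt_of_le_of_lt (abs_nonneg t) hT
  obtain ⟨Z, h, hh, he, hZ, hne, hcount⟩ := exists_xi_factor (R := T + 5) (by linarith)
  have hball : ∀ s : ℂ, s.re ∈ Icc (-1 : ℝ) 2 → s.im ∈ Icc (-T) T →
      s ∈ Metric.closedBall (2 : ℂ) (T + 5) := fun s h1 h2 => by
    rw [Metric.mem_closedBall, dist_eq_norm]
    refine (norm_le_abs_re_add_abs_im _).trans ?_
    simp only [sub_re, sub_im, re_ofNat, im_ofNat, sub_zero]
    rw [abs_of_nonpos (by linarith [h1.2])]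
    linarith [h1.1, abs_le.2 h2]
  have hd := differentiable_xPow hx
  obtain ⟨U, hU⟩ : ∃ U : Set ℂ, U = {s | -2 < s.re} ∩ {s | h s ≠ 0} := ⟨_, rfl⟩
  have hUo : IsOpen U := hU ▸ (isOpen_lt continuous_const continuous_re).inter
    (isOpen_ne_fun hh.continuous continuous_const)
  have hbox : ∀ s : ℂ, s.re ∈ Icc (-1 : ℝ) 2 → s.im ∈ Icc (-T) T → s ∈ U := fun s h1 h2 =>
    hU ▸ ⟨show -2 < s.re by linarith [h1.1], hne s (hball s h1 h2)⟩
  obtain ⟨G, hG⟩ : ∃ G : ℂ → ℂ, G = fun s => xPow x s * (-(deriv h s / h s) + gammaReg s) :=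
    ⟨_, rfl⟩
  have hGd : DifferentiableOn ℂ G U := fun s hs => by
    rw [hU] at hs
    rw [hG]
    exact ((hd s).mul (((hh.analyticAt s).deriv.differentiableAt.div (hh s) hs.2).neg.add
      (differentiableAt_gammaReg hs.1))).differentiableWithinAt
  have hedge : ∀ s ∈ boxEdges (-1) 2 T, s.re ∈ Icc (-1 : ℝ) 2 ∧ s.im ∈ Icc (-T) T := fun s hs => by
    obtain ⟨h1, h2, -⟩ := hs
    rw [uIcc_of_le (by norm_num)] at h1
    rw [uIcc_of_le (by linarith)] at h2
    exact ⟨h1, h2⟩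
  obtain ⟨P, hP⟩ : ∃ P : ℂ → ℂ → ℂ, P = fun c s => xPow x s / (s - c) := ⟨_, rfl⟩
  have hPc : ∀ c : ℂ, -1 < c.re ∧ c.re < 2 ∧ |c.im| ≠ T →
      (∀ s ∈ boxEdges (-1) 2 T, ContinuousAt (P c) s) ∧
        boxInt (P c) (-1) 2 T = if |c.im| < T then 2 * π * I * xPow x c else 0 := by
    rintro c ⟨h1, h2, h3⟩
    refine ⟨fun s hs => ?_, ?_⟩
    · rw [hP]
      exact (hd s).continuousAt.div (continuousAt_id.sub continuousAt_const)
        (sub_ne_zero.2 (interior_not_edge h1 h2 h3 hT0.le hs))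
    · rw [hP]
      exact boxInt_residue isOpen_univ hd.differentiableOn (fun _ _ _ => trivial) hT0.le h1 h2 h3
  have inB : -1 < (poleB t).re ∧ (poleB t).re < 2 ∧ |(poleB t).im| ≠ T := by
    rw [poleB_re, poleB_im]; exact ⟨by norm_num, by norm_num, hT.ne⟩
  have inA : -1 < (poleA t).re ∧ (poleA t).re < 2 ∧ |(poleA t).im| ≠ T := by
    rw [poleA_re, poleA_im]; exact ⟨by norm_num, by norm_num, hT.ne⟩
  have in1 : -1 < (1 : ℂ).re ∧ (1 : ℂ).re < 2 ∧ |(1 : ℂ).im| ≠ T := by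
    simp only [one_re, one_im, abs_zero]; exact ⟨by norm_num, by norm_num, hT0.ne⟩
  have inZ : ∀ ρ ∈ Z, -1 < ρ.re ∧ ρ.re < 2 ∧ |ρ.im| ≠ T := fun ρ hρ => by
    obtain ⟨a, b⟩ := xiFn_zero_strip (hZ ρ hρ)
    exact ⟨by linarith, by linarith, hord ρ (hZ ρ hρ)⟩
  -- `x ^ (w - 1/2) · wKer t w / (w - c)` by simple poles
  obtain ⟨M, hM⟩ : ∃ M : ℂ → ℂ → ℂ, M = fun c s => wKer t c * P c s -
      (c - poleB t)⁻¹ * P (poleB t) s + (c - poleA t)⁻¹ * P (poleA t) s := ⟨_, rfl⟩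
  have hMc : ∀ c : ℂ, -1 < c.re ∧ c.re < 2 ∧ |c.im| ≠ T →
      (∀ s ∈ boxEdges (-1) 2 T, ContinuousAt (M c) s) ∧
        boxInt (M c) (-1) 2 T = 2 * π * I * ((if |c.im| < T then wKer t c * xPow x c else 0) -
          (c - poleB t)⁻¹ * xPow x (poleB t) + (c - poleA t)⁻¹ * xPow x (poleA t)) := by
    intro c hc
    obtain ⟨c1, c2⟩ := hPc c hc
    obtain ⟨b1, b2⟩ := hPc _ inB
    obtain ⟨a1, a2⟩ := hPc _ inA
    have k1 : ∀ s ∈ boxEdges (-1) 2 T, ContinuousAt
        (fun s => wKer t c * P c s - (c - poleB t)⁻¹ * P (poleB t) s) s := fun s hs =>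
      (continuousAt_const.mul (c1 s hs)).sub (continuousAt_const.mul (b1 s hs))
    have k2 : ∀ s ∈ boxEdges (-1) 2 T,
        ContinuousAt (fun s => (c - poleA t)⁻¹ * P (poleA t) s) s := fun s hs =>
      continuousAt_const.mul (a1 s hs)
    refine ⟨fun s hs => ?_, ?_⟩
    · rw [hM]
      exact (k1 s hs).add (k2 s hs)
    · rw [hM, boxInt_add k1 k2,
        boxInt_sub (F := fun s => wKer t c * P c s)
          (G := fun s => (c - poleB t)⁻¹ * P (poleB t) s)
          (fun s hs => continuousAt_const.mul (c1 s hs))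
          (fun s hs => continuousAt_const.mul (b1 s hs)), boxInt_const_mul, boxInt_const_mul,
        boxInt_const_mul, c2, b2, a2, poleB_im, poleA_im, if_pos hT, if_pos hT]
      split_ifs <;> ring
  have hGv : ∀ c : ℂ, -1 < c.re ∧ c.re < 2 ∧ |c.im| ≠ T →
      (∀ s ∈ boxEdges (-1) 2 T, ContinuousAt (fun s => G s / (s - c)) s) ∧
        boxInt (fun s => G s / (s - c)) (-1) 2 T = if |c.im| < T then 2 * π * I * G c else 0 := by
    rintro c ⟨h1, h2, h3⟩
    exact ⟨fun s hs => ((hGd.differentiableAt (hUo.mem_nhds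
      (hbox s (hedge s hs).1 (hedge s hs).2))).continuousAt).div
        (continuousAt_id.sub continuousAt_const)
        (sub_ne_zero.2 (interior_not_edge h1 h2 h3 hT0.le hs)),
      boxInt_residue hUo hGd hbox hT0.le h1 h2 h3⟩
  obtain ⟨gb, gB⟩ := hGv _ inB
  obtain ⟨ga, gA⟩ := hGv _ inA
  obtain ⟨m1, M1⟩ := hMc 1 in1
  obtain ⟨hZc, hZsum⟩ := boxInt_multiset_sum (f := fun ρ s => -1 * M ρ s) (a := (-1 : ℝ)) (b := 2)
    (T := T) Z fun ρ hρ s hs => continuousAt_const.mul ((hMc ρ (inZ ρ hρ)).1 s hs)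
  have hzne : ∀ s ∈ boxEdges (-1) 2 T, ∀ ρ ∈ Z, s ≠ ρ := fun s hs ρ hρ =>
    interior_not_edge (inZ ρ hρ).1 (inZ ρ hρ).2.1 (inZ ρ hρ).2.2 hT0.le hs
  rw [boxInt_congr (G := fun s => (G s / (s - poleB t) - G s / (s - poleA t)) +
      (M 1 s + (Z.map fun ρ => -1 * M ρ s).sum)) fun s hs => ?_,
    boxInt_add (F := fun s => G s / (s - poleB t) - G s / (s - poleA t))
      (G := fun s => M 1 s + (Z.map fun ρ => -1 * M ρ s).sum)
      (fun s hs => (gb s hs).sub (ga s hs)) (fun s hs => (m1 s hs).add (hZc s hs)),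
    boxInt_add (F := M 1) (G := fun s => (Z.map fun ρ => -1 * M ρ s).sum) m1 hZc, boxInt_sub gb ga,
    hZsum, gB, gA, M1]
  · rw [poleB_im, poleA_im, if_pos hT, if_pos hT, if_pos (by simpa using hT0)]
    have hmap : (Z.map fun ρ => boxInt (fun s => -1 * M ρ s) (-1) 2 T) =
        Z.map fun ρ => -(2 * π * I) * (if |ρ.im| < T then wKer t ρ * xPow x ρ else 0) +
          (2 * π * I * xPow x (poleB t) * -(poleB t - ρ)⁻¹ +
            2 * π * I * xPow x (poleA t) * (poleA t - ρ)⁻¹) := by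
      refine Multiset.map_congr rfl fun ρ hρ => ?_
      rw [boxInt_const_mul, (hMc ρ (inZ ρ hρ)).2, ← neg_sub (poleB t) ρ, ← neg_sub (poleA t) ρ,
        inv_neg, inv_neg]
      ring
    rw [hmap, Multiset.sum_map_add, Multiset.sum_map_add, Multiset.sum_map_mul_left,
      Multiset.sum_map_mul_left, Multiset.sum_map_mul_left, Multiset.sum_map_neg]
    have hsum : (Z.map fun ρ => if |ρ.im| < T then wKer t ρ * xPow x ρ else 0).sum =
        ∑ ρ ∈ zerosUpTo T, montTerm x t ρ := by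
      classical
      rw [Finset.sum_multiset_map_count]
      simp only [smul_ite, smul_zero]
      rw [← Finset.sum_filter]
      have hstrip : ∀ ρ : ℂ, xiFn ρ = 0 → |ρ.im| ≤ T →
          ρ ∈ Metric.closedBall (2 : ℂ) (T + 5) := fun ρ hρ hi => by
        obtain ⟨a, b⟩ := xiFn_zero_strip hρ
        exact hball ρ ⟨by linarith, by linarith⟩ (abs_le.1 hi)
      refine Finset.sum_congr ?_ fun ρ hρ => ?_
      · ext ρ
        rw [Finset.mem_filter, Multiset.mem_toFinset, mem_zerosUpTo]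
        refine ⟨fun hρ => ⟨hZ ρ hρ.1, hρ.2.le⟩, fun hρ => ⟨?_, lt_of_le_of_ne hρ.2 (hord ρ hρ.1)⟩⟩
        rw [← Multiset.one_le_count_iff_mem, ← hcount ρ (hstrip ρ hρ.1 hρ.2)]
        exact one_le_zeroWeight hρ.1
      · rw [mem_zerosUpTo] at hρ
        rw [← hcount ρ (hstrip ρ hρ.1 hρ.2), nsmul_eq_mul, montTerm, zeroWeight]
        ring
    have hN : ∀ c : ℂ, -1 ≤ c.re ∧ c.re ≤ 2 → |c.im| ≤ T → (∀ ρ ∈ Z, c ≠ ρ) →
        negLogDeriv c = -(Z.map fun ρ => (c - ρ)⁻¹).sum + (c - 1)⁻¹ +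
          (-(deriv h c / h c) + gammaReg c) := fun c hc hi hcz => by
      rw [negLogDeriv, xiLogDeriv_factor hh he hcz (hne c (hball c hc (abs_le.1 hi)))]
      ring
    rw [hsum, hN (poleB t) ⟨by linarith [inB.1], by linarith [inB.2.1]⟩
        (by rw [poleB_im]; exact hT.le) fun ρ hρ e => ?_,
      hN (poleA t) ⟨by linarith [inA.1], by linarith [inA.2.1]⟩
        (by rw [poleA_im]; exact hT.le) fun ρ hρ e => ?_, hG, ← neg_sub (poleB t) 1,
      ← neg_sub (poleA t) 1, inv_neg, inv_neg]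
    · ring
    · have := (xiFn_zero_strip (hZ ρ hρ)).2
      rw [← e, poleA_re] at this
      norm_num at this
    · have := (xiFn_zero_strip (hZ ρ hρ)).1
      rw [← e, poleB_re] at this
      norm_num at this
  · obtain ⟨h1, h2⟩ := hedge s hs
    have sB : s - poleB t ≠ 0 :=
      sub_ne_zero.2 (interior_not_edge inB.1 inB.2.1 inB.2.2 hT0.le hs)
    have sA : s - poleA t ≠ 0 :=
      sub_ne_zero.2 (interior_not_edge inA.1 inA.2.1 inA.2.2 hT0.le hs)
    have hsplit : ∀ c : ℂ, c ≠ poleB t → c ≠ poleA t → s - c ≠ 0 →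
        M c s = xPow x s * wKer t s * (s - c)⁻¹ := fun c hb ha hc => by
      have := sub_ne_zero.2 hb
      have := sub_ne_zero.2 ha
      rw [hM, hP]
      simp only [wKer]
      rw [← poleB, ← poleA]
      field_simp
      ring
    have hm : (Z.map fun ρ => -1 * M ρ s) =
        Z.map fun ρ => -(xPow x s * wKer t s) * (s - ρ)⁻¹ := by
      refine Multiset.map_congr rfl fun ρ hρ => ?_
      obtain ⟨h0, h1'⟩ := xiFn_zero_strip (hZ ρ hρ)
      rw [hsplit ρ (fun e => by rw [e, poleB_re] at h0; norm_num at h0)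
        (fun e => by rw [e, poleA_re] at h1'; norm_num at h1') (sub_ne_zero.2 (hzne s hs ρ hρ))]
      ring
    dsimp only
    rw [hm, Multiset.sum_map_mul_left, hsplit 1
      (fun e => by have := congrArg Complex.re e; rw [poleB_re] at this; norm_num at this)
      (fun e => by have := congrArg Complex.re e; rw [poleA_re] at this; norm_num at this)
      (sub_ne_zero.2 (interior_not_edge in1.1 in1.2.1 in1.2.2 hT0.le hs)), montFn, negLogDeriv,
      xiLogDeriv_factor hh he (hzne s hs) (hne s (hball s h1 h2)), hG]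
    simp only [wKer]
    rw [← poleB, ← poleA]
    ring

end FA.PairCorrelation
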