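import Fermat.Agent.PairCorr.Contour

/-!
# Montgomery's explicit formula

For `x ≥ 1` and real `t`, `∑ x ^ (ρ - 1/2) wKer t ρ` over the zeros with multiplicity is
`- x ^ (it) ∑ pCoef x n n ^ (-it) + x ^ (-1 + it) log (|t| + 2) + O (1/x + √x / (1 + t²))`, with
`pCoef x n = Λ n √n / x` for `n ≤ x` and `Λ n x / (n √n)` for `n > x`. No hypothesis on the zeros.
-/

set_option autoImplicit false

noncomputable section

namespace FA.PairCorrelation

open Complex Filter Topology MeasureTheory Set FA.RiemannMangoldt FA.ExplicitFormula FA.ZeroFree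
open scoped Real ArithmeticFunction.vonMangoldt

/-- The coefficients. -/
def pCoef (x : ℝ) (n : ℕ) : ℝ :=
  if (n : ℝ) ≤ x then Λ n * √(n : ℝ) / x else Λ n * x / ((n : ℝ) * √(n : ℝ))

/-- The prime sum. -/
def primeSum (x t : ℝ) : ℂ := ∑' n : ℕ, (pCoef x n : ℂ) * (n : ℂ) ^ (-(I * (t : ℂ)))

theorem norm_xPow {x : ℝ} (hx : 0 < x) (w : ℂ) : ‖xPow x w‖ = x ^ (w.re - 1 / 2) := by
  rw [xPow, norm_cpow_eq_rpow_re_of_pos hx]
  norm_num

theorem cpow_pos_eq {x : ℝ} (hx : 0 < x) (z : ℂ) : (x : ℂ) ^ z = cexp (Real.log x * z) := by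
  rw [cpow_def_of_ne_zero (ofReal_ne_zero.2 hx.ne'), ← Complex.ofReal_log hx.le]

theorem ne_of_re {z w : ℂ} (h : z.re ≠ w.re) : z ≠ w := fun e => h (by rw [e])

theorem continuous_baseFn_line {x : ℝ} (hx : 0 < x) (t σ : ℝ) (hσ : σ = -1 ∨ σ = 2) :
    Continuous fun v : ℝ => baseFn x t ((σ : ℂ) + v * I) := by
  refine continuous_iff_continuousAt.2 fun v => ContinuousAt.comp' (g := baseFn x t)
    (f := fun v : ℝ => (σ : ℂ) + v * I) ?_ (by fun_prop)
  refine ((differentiable_xPow hx _).mul (differentiableAt_wKer (ne_of_re ?_) (ne_of_re ?_))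
    ).continuousAt <;> rcases hσ with rfl | rfl <;> simp <;> norm_num

theorem continuous_montFn_line {x : ℝ} (hx : 0 < x) (t σ : ℝ) (hσ : σ = -1 ∨ σ = 2) :
    Continuous fun v : ℝ => montFn x t ((σ : ℂ) + v * I) := by
  refine continuous_iff_continuousAt.2 fun v => ContinuousAt.comp' (g := montFn x t)
    (f := fun v : ℝ => (σ : ℂ) + v * I) ?_ (by fun_prop)
  obtain ⟨s, hs⟩ : ∃ s : ℂ, s = (σ : ℂ) + v * I := ⟨_, rfl⟩
  have hre : s.re = σ := by simp [hs]
  rw [← hs]
  have hxi : xiFn s ≠ 0 := fun h => by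
    obtain ⟨a, b⟩ := xiFn_zero_strip h
    rcases hσ with h | h <;> linarith
  refine (((differentiable_xPow hx _).mul (differentiableAt_negLogDeriv ?_ (ne_of_re ?_) hxi)).mul
    (differentiableAt_wKer (ne_of_re ?_) (ne_of_re ?_))).continuousAt
  all_goals rcases hσ with rfl | rfl <;> simp [hre] <;> norm_num

theorem norm_baseFn_line_le {x : ℝ} (hx : 0 < x) (t σ v : ℝ) (hσ : σ = -1 ∨ σ = 2) :
    ‖baseFn x t ((σ : ℂ) + v * I)‖ ≤ x ^ (σ - 1 / 2) * (10 / (1 + (v - t) ^ 2)) := by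
  rw [baseFn, norm_mul, norm_xPow hx]
  refine (mul_le_mul_of_nonneg_left (norm_wKer_le (Or.inl ?_)) (by positivity)).trans
    (le_of_eq (by simp))
  rcases hσ with rfl | rfl <;> simp <;> norm_num

theorem integrable_baseFn_line {x : ℝ} (hx : 0 < x) (t σ : ℝ) (hσ : σ = -1 ∨ σ = 2) :
    Integrable fun v : ℝ => baseFn x t ((σ : ℂ) + v * I) := by
  refine (((integrable_inv_shift t).const_mul 10).const_mul (x ^ (σ - 1 / 2))).mono'
    (continuous_baseFn_line hx t σ hσ).aestronglyMeasurable (Eventually.of_forall fun v => ?_)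
  refine (norm_baseFn_line_le hx t σ v hσ).trans (le_of_eq ?_)
  ring

/-- `x ^ (w - 1/2) n ^ (-w)` on `re w = 2`. -/
theorem xPow_mul_cpow {x : ℝ} (hx : 0 < x) {n : ℕ} (hn : 0 < n) (t v : ℝ) :
    xPow x (((2 : ℝ) : ℂ) + v * I) * (n : ℂ) ^ (-(((2 : ℝ) : ℂ) + v * I)) =
      (((1 / √(n : ℝ) : ℝ) : ℂ) * ((x : ℂ) ^ (I * (t : ℂ)) * (n : ℂ) ^ (-(I * (t : ℂ))))) *
        (((x / n : ℝ) : ℂ) ^ (((3 / 2 : ℝ) : ℂ) + ((v - t : ℝ) : ℂ) * I)) := by
  have hn0 : (0 : ℝ) < n := Nat.cast_pos.2 hn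
  rw [xPow, cpow_pos_eq hx, cpow_pos_eq hx, cpow_pos_eq (div_pos hx hn0),
    cpow_def_of_ne_zero (Nat.cast_ne_zero.2 hn.ne'),
    cpow_def_of_ne_zero (Nat.cast_ne_zero.2 hn.ne'),
    ← Complex.natCast_log, Real.log_div hx.ne' hn0.ne',
    show 1 / √(n : ℝ) = Real.exp (-(Real.log n / 2)) by
      rw [Real.exp_neg, Real.exp_half, Real.exp_log hn0, one_div],
    Complex.ofReal_exp, ← Complex.exp_add, ← Complex.exp_add, ← Complex.exp_add, ← Complex.exp_add]
  push_cast
  ring_nf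

theorem pCoef_eq {x : ℝ} (hx : 0 < x) (n : ℕ) :
    pCoef x n = Λ n * x / ((n : ℝ) * √(n : ℝ)) +
      Λ n / √(n : ℝ) * (if 1 ≤ x / n then 1 / (x / n) - x / n else 0) := by
  rcases Nat.eq_zero_or_pos n with rfl | hn
  · simp [pCoef]
  have hn0 : (0 : ℝ) < n := Nat.cast_pos.2 hn
  have hs : 0 < √(n : ℝ) := Real.sqrt_pos.2 hn0
  rw [pCoef]
  by_cases h : (n : ℝ) ≤ x
  · rw [if_pos h, if_pos ((one_le_div hn0).2 h)]
    have h2 := Real.sq_sqrt hn0.le
    field_simp
    linear_combination (Λ n) * (n : ℝ) * h2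
  · rw [if_neg h, if_neg fun h' => h ((one_le_div hn0).1 h'), mul_zero, add_zero]

theorem summable_pCoef {x : ℝ} (hx : 0 < x) :
    Summable fun n : ℕ => ‖(pCoef x n : ℂ)‖ := by
  have h : Summable fun n : ℕ => Λ n * x / ((n : ℝ) * √(n : ℝ)) := by
    have h1 := (ArithmeticFunction.LSeriesSummable_vonMangoldt (s := ((3 / 2 : ℝ) : ℂ))
      (by simp; norm_num)).norm.mul_left x
    refine h1.congr fun n => ?_
    rcases Nat.eq_zero_or_pos n with rfl | hn
    · simp
    rw [LSeries.term_of_ne_zero hn.ne', norm_div, Complex.norm_natCast_cpow_of_pos hn,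
      Complex.norm_real, Real.norm_of_nonneg ArithmeticFunction.vonMangoldt_nonneg,
      Complex.ofReal_re, show (3 / 2 : ℝ) = 1 + 1 / 2 by norm_num,
      Real.rpow_add (Nat.cast_pos.2 hn), Real.rpow_one, ← Real.sqrt_eq_rpow]
    ring
  refine h.congr_atTop ?_
  filter_upwards [eventually_gt_atTop ⌊x⌋₊] with n hn
  have hn' : ¬ (n : ℝ) ≤ x := fun h' => absurd (Nat.le_floor h') (by omega)
  have hn0 : (0 : ℝ) < n := lt_trans hx (not_le.1 hn')
  rw [pCoef, if_neg hn', Complex.norm_real, Real.norm_of_nonneg]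
  exact div_nonneg (mul_nonneg ArithmeticFunction.vonMangoldt_nonneg hx.le) (by positivity)

theorem summable_primeSum {x : ℝ} (hx : 0 < x) (t : ℝ) :
    Summable fun n : ℕ => (pCoef x n : ℂ) * (n : ℂ) ^ (-(I * (t : ℂ))) := by
  refine .of_norm ((summable_pCoef hx).congr_atTop ?_)
  filter_upwards [eventually_gt_atTop 0] with n hn
  rw [norm_mul, Complex.norm_natCast_cpow_of_pos hn]
  simp

/-- **The right side.** -/
theorem integral_right_mont {x : ℝ} (hx : 0 < x) (t : ℝ) :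
    Integrable (fun v : ℝ => montFn x t (((2 : ℝ) : ℂ) + v * I)) ∧
      ∫ v : ℝ, montFn x t (((2 : ℝ) : ℂ) + v * I) =
        2 * π * ((x : ℂ) ^ (I * (t : ℂ)) * primeSum x t -
          xPow x (poleA t) * negLogDeriv (poleA t)) := by
  have hL : ∀ s : ℂ, 1 < s.re → LSeriesSummable (fun n => ((Λ n : ℝ) : ℂ)) s ∧
      LSeries (fun n => ((Λ n : ℝ) : ℂ)) s = negLogDeriv s := fun s hs => by
    refine ⟨ArithmeticFunction.LSeriesSummable_vonMangoldt hs, ?_⟩
    rw [ArithmeticFunction.LSeries_vonMangoldt_eq_deriv_riemannZeta_div hs, negLogDeriv_eq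
      (by linarith) (fun h => by rw [h] at hs; simp at hs)
      (riemannZeta_ne_zero_of_one_le_re hs.le), neg_div]
  obtain ⟨F, hF⟩ : ∃ F : ℕ → ℝ → ℂ, F = fun n (v : ℝ) =>
      LSeries.term (fun n => ((Λ n : ℝ) : ℂ)) (((2 : ℝ) : ℂ) + v * I) n *
        baseFn x t (((2 : ℝ) : ℂ) + v * I) := ⟨_, rfl⟩
  obtain ⟨c, hc⟩ : ∃ c : ℕ → ℝ,
      c = fun n => ‖LSeries.term (fun n => ((Λ n : ℝ) : ℂ)) ((2 : ℝ) : ℂ) n‖ := ⟨_, rfl⟩
  have hcs : Summable c := hc ▸ ((hL _ (by simp)).1).norm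
  have hterm : ∀ (n : ℕ) (v : ℝ), ‖LSeries.term (fun n => ((Λ n : ℝ) : ℂ))
      (((2 : ℝ) : ℂ) + v * I) n‖ = c n := fun n v => by
    rw [hc]
    simp only [LSeries.norm_term_eq]
    simp
  have hnorm : ∀ n v, ‖F n v‖ ≤ c n * (x ^ (2 - 1 / 2 : ℝ) * (10 / (1 + (v - t) ^ 2))) :=
    fun n v => by
      rw [hF]
      simp only [norm_mul, hterm]
      exact mul_le_mul_of_nonneg_left (norm_baseFn_line_le hx t 2 v (Or.inr rfl))
        (hc ▸ norm_nonneg _)
  have hi : Integrable fun v => x ^ (2 - 1 / 2 : ℝ) * (10 / (1 + (v - t) ^ 2)) := by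
    refine (((integrable_inv_shift t).const_mul 10).const_mul (x ^ (2 - 1 / 2 : ℝ))).congr
      (Eventually.of_forall fun v => ?_)
    ring
  have hmeas : ∀ n, AEStronglyMeasurable (F n) := fun n => by
    rw [hF]
    refine (Continuous.mul ?_ (continuous_baseFn_line hx t 2 (Or.inr rfl))).aestronglyMeasurable
    rcases Nat.eq_zero_or_pos n with rfl | hn
    · simpa using continuous_const
    simp only [LSeries.term_of_ne_zero hn.ne']
    exact continuous_const.div ((by fun_prop : Continuous fun v : ℝ => ((2 : ℝ) : ℂ) + v * I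
      ).const_cpow (Or.inl (Nat.cast_ne_zero.2 hn.ne'))) fun v => by
        simp [Complex.cpow_eq_zero_iff, hn.ne']
  have hint : ∀ n, Integrable (F n) := fun n =>
    (hi.const_mul (c n)).mono' (hmeas n) (Eventually.of_forall (hnorm n))
  have hsum : Summable fun n => ∫ v, ‖F n v‖ := by
    refine Summable.of_nonneg_of_le (fun n => integral_nonneg fun v => norm_nonneg _) (fun n => ?_)
      (hcs.mul_right (∫ v, x ^ (2 - 1 / 2 : ℝ) * (10 / (1 + (v - t) ^ 2))))
    rw [← integral_const_mul]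
    exact integral_mono (hint n).norm (hi.const_mul _) (hnorm n)
  have hpt : ∀ v : ℝ, montFn x t (((2 : ℝ) : ℂ) + v * I) = ∑' n, F n v := fun v => by
    rw [montFn, mul_right_comm, ← (hL _ (by simp)).2, LSeries, ← tsum_mul_left, hF]
    simp only [baseFn]
    exact tsum_congr fun n => by ring
  have hpow : ‖(x : ℂ) ^ (I * (t : ℂ))‖ = 1 := by
    rw [norm_cpow_eq_rpow_re_of_pos hx]; simp
  constructor
  · refine (hi.const_mul (∑' n, c n)).mono'
      (continuous_montFn_line hx t 2 (Or.inr rfl)).aestronglyMeasurable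
      (Eventually.of_forall fun v => ?_)
    rw [hpt, ← tsum_mul_right]
    exact tsum_of_norm_bounded (hcs.mul_right _).hasSum fun n => hnorm n v
  · rw [funext hpt, ← integral_tsum_of_summable_integral_norm hint hsum]
    have hval : ∀ n, ∫ v, F n v = 2 * π * ((x : ℂ) ^ (I * (t : ℂ)) *
        ((pCoef x n : ℂ) * (n : ℂ) ^ (-(I * (t : ℂ)))) -
          xPow x (poleA t) * LSeries.term (fun n => ((Λ n : ℝ) : ℂ)) (poleA t) n) := fun n => by
      rcases Nat.eq_zero_or_pos n with rfl | hn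
      · simp [hF, pCoef]
      have hn0 : (0 : ℝ) < n := Nat.cast_pos.2 hn
      obtain ⟨e, he⟩ : ∃ e, e = (x : ℂ) ^ (I * (t : ℂ)) * (n : ℂ) ^ (-(I * (t : ℂ))) := ⟨_, rfl⟩
      have hA : xPow x (poleA t) * LSeries.term (fun n => ((Λ n : ℝ) : ℂ)) (poleA t) n =
          ((Λ n * x / ((n : ℝ) * √(n : ℝ)) : ℝ) : ℂ) * e := by
        rw [LSeries.term_of_ne_zero hn.ne', he, poleA, xPow, cpow_pos_eq hx, cpow_pos_eq hx,
          cpow_def_of_ne_zero (Nat.cast_ne_zero.2 hn.ne'),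
          cpow_def_of_ne_zero (Nat.cast_ne_zero.2 hn.ne'), ← Complex.natCast_log,
          div_eq_mul_inv (((Λ n : ℝ) : ℂ)), ← Complex.exp_neg,
          show Λ n * x / ((n : ℝ) * √(n : ℝ)) =
            Λ n * Real.exp (Real.log x + -(Real.log n + Real.log n / 2)) by
            rw [Real.exp_add, Real.exp_neg, Real.exp_add, Real.exp_half, Real.exp_log hx,
              Real.exp_log hn0]
            ring,
          Complex.ofReal_mul, Complex.ofReal_exp, mul_left_comm, ← Complex.exp_add,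
          ← Complex.exp_add, mul_assoc, ← Complex.exp_add]
        push_cast
        ring_nf
      have hk : ∀ v : ℝ, F n v = (((Λ n / √(n : ℝ) : ℝ) : ℂ) * e) *
          ((((x / n : ℝ) : ℂ) ^ (((3 / 2 : ℝ) : ℂ) + ((v - t : ℝ) : ℂ) * I)) *
            wKer t (((2 : ℝ) : ℂ) + v * I)) := fun v => by
        have h3 := xPow_mul_cpow hx hn t v
        rw [cpow_neg] at h3
        simp only [hF, baseFn, LSeries.term_of_ne_zero hn.ne']
        rw [div_eq_mul_inv, mul_assoc, ← mul_assoc _ (xPow x _) (wKer t _),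
          mul_comm _ (xPow x _), h3, ← he]
        push_cast
        ring
      rw [funext hk, integral_const_mul, integral_right_kernel (div_pos hx hn0), hA,
        pCoef_eq hx n]
      have hsplit : ∀ p q : ℝ, (x : ℂ) ^ (I * (t : ℂ)) *
          (((p + q : ℝ) : ℂ) * (n : ℂ) ^ (-(I * (t : ℂ)))) = ((p + q : ℝ) : ℂ) * e := fun p q => by
        rw [he]; ring
      rw [hsplit]
      split_ifs <;> (push_cast; ring)
    rw [tsum_congr hval, tsum_mul_left, Summable.tsum_sub ((summable_primeSum hx t).mul_left _)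
      ((hL _ (by rw [poleA_re]; norm_num)).1.mul_left _), tsum_mul_left, tsum_mul_left, ← LSeries,
      (hL _ (by rw [poleA_re]; norm_num)).2, primeSum]

/-- The heights. -/
theorem exists_mont_heights : ∃ T : ℕ → ℝ, (∀ m : ℕ, (m : ℝ) + 3 ≤ T m) ∧
    (∀ m ρ, xiFn ρ = 0 → |ρ.im| ≠ T m) ∧
    ∀ x t : ℝ, 1 ≤ x → ∀ e : ℝ, |e| = 1 →
      Tendsto (fun m => ∫ u in (-1 : ℝ)..2, montFn x t ((u : ℂ) + ((e * T m : ℝ) : ℂ) * I))
          atTop (𝓝 0) ∧
        Tendsto (fun m => ∫ u in (-1 : ℝ)..2, baseFn x t ((u : ℂ) + ((e * T m : ℝ) : ℂ) * I))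
          atTop (𝓝 0) := by
  obtain ⟨C, hC, hb⟩ := exists_negLogDeriv_horizontal
  obtain ⟨K, hK1, hK⟩ := ell_pow_le
  obtain ⟨c, hc, hheight⟩ := exists_good_height
  choose T hT1 hT2 hgap using fun m : ℕ => hheight (m + 3)
  obtain ⟨d, hd⟩ : ∃ d, d = min c 1 := ⟨_, rfl⟩
  have hd0 : 0 < d := hd ▸ lt_min hc one_pos
  have hlow : ∀ m : ℕ, (m : ℝ) + 3 ≤ T m := fun m => le_trans (by push_cast; rfl) (hT1 m)
  refine ⟨T, hlow, fun m ρ hρ h => ?_, fun x t hx e he => ?_⟩
  · have := hgap m ρ hρ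
    rw [h, sub_self, abs_zero] at this
    linarith [div_pos hc (ell_pos ((m + 3 : ℕ) : ℝ))]
  have hx0 : 0 < x := by linarith
  obtain ⟨B, hB⟩ : ∃ B, B = 3 * (x ^ (2 : ℕ) * ((C / d + 1) * K) * 50) := ⟨_, rfl⟩
  have hTtop : Tendsto T atTop atTop := tendsto_atTop_mono
    (fun m => le_trans (le_add_of_nonneg_right (by norm_num)) (hlow m))
    tendsto_natCast_atTop_atTop
  have h0 : Tendsto (fun m => B * decay (T m)) atTop (𝓝 0) := by
    have h0 : Tendsto decay atTop (𝓝 0) :=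
      tendsto_of_tendsto_of_tendsto_of_le_of_le' tendsto_const_nhds
        (tendsto_rpow_neg_atTop (show (0 : ℝ) < 3 / 2 by norm_num))
        (Eventually.of_forall fun y => (decay_pos y).le)
        ((eventually_gt_atTop 0).mono fun y hy => decay_le hy)
    simpa using (h0.comp hTtop).const_mul B
  have key : ∀ᶠ m in atTop, ∀ u ∈ Set.uIoc (-1 : ℝ) 2,
      ‖montFn x t ((u : ℂ) + ((e * T m : ℝ) : ℂ) * I)‖ ≤ B * decay (T m) / 3 ∧
        ‖baseFn x t ((u : ℂ) + ((e * T m : ℝ) : ℂ) * I)‖ ≤ B * decay (T m) / 3 := by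
    filter_upwards [hTtop.eventually (eventually_ge_atTop (2 * |t| + 3))] with m hm u hu
    rw [uIoc_of_le (by norm_num)] at hu
    have hT3 : 3 ≤ T m := by linarith [abs_nonneg t]
    have habs : |e * T m| = T m := by rw [abs_mul, he, one_mul, abs_of_pos (by linarith)]
    obtain ⟨s, hs⟩ : ∃ s : ℂ, s = (u : ℂ) + ((e * T m : ℝ) : ℂ) * I := ⟨_, rfl⟩
    rw [← hs]
    have hre : s.re = u := by simp [hs]
    have him : s.im = e * T m := by simp [hs]
    have hlt : T m / 2 ≤ |s.im - t| := by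
      have := abs_sub_abs_le_abs_sub s.im t
      rw [him, habs] at this
      rw [him]
      linarith
    have hk : ‖wKer t s‖ ≤ 50 / (1 + T m ^ 2) := by
      refine (norm_wKer_le (Or.inr (by linarith))).trans ?_
      rw [div_le_div_iff₀ (by positivity) (by positivity)]
      nlinarith [mul_self_le_mul_self (by linarith) hlt, abs_mul_abs_self (s.im - t)]
    have hp : ‖xPow x s‖ ≤ x ^ (2 : ℕ) := by
      rw [norm_xPow hx0, ← Real.rpow_natCast]
      exact Real.rpow_le_rpow_of_exponent_le hx (by rw [hre]; push_cast; linarith [hu.2])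
    have hδ : d / ell ((m + 3 : ℕ) : ℝ) ≤ 1 := by
      rw [div_le_one (ell_pos _)]
      linarith [four_le_ell ((m + 3 : ℕ) : ℝ), hd ▸ min_le_right c 1]
    have hl := four_le_ell (T m)
    obtain ⟨W, hW⟩ : ∃ W, W = (1 + T m ^ 2) ^ (1 / 4 : ℝ) := ⟨_, rfl⟩
    have hW1 : 1 ≤ W := hW ▸ Real.one_le_rpow (by nlinarith) (by norm_num)
    have hn : ‖negLogDeriv s‖ ≤ (C / d + 1) * K * W := by
      rw [hs]
      refine (hb u (e * T m) (d / ell ((m + 3 : ℕ) : ℝ)) hu.1.le hu.2 (by rw [habs]; exact hT3)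
        (div_pos hd0 (ell_pos _)) hδ fun ρ hρ => ?_).trans ?_
      · rw [habs]
        refine le_trans ?_ (hgap m ρ hρ)
        exact div_le_div_of_nonneg_right (hd ▸ min_le_left c 1) (ell_pos _).le
      · have e1 : ell (e * T m) = ell (T m) := by
          rw [ell, ell, habs, abs_of_pos (by linarith : 0 < T m)]
        have e2 : ell ((m + 3 : ℕ) : ℝ) ≤ ell (T m) := ell_mono (by
          rw [Nat.abs_cast, abs_of_pos (by linarith : 0 < T m)]; exact hT1 m)
        have h9 : ell (T m) ^ 2 ≤ K * W := hW ▸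
          (pow_le_pow_right₀ (by linarith) (by norm_num)).trans (hK _)
        rw [e1, div_div_eq_mul_div, mul_assoc]
        calc C * (ell (T m) * ell ((m + 3 : ℕ) : ℝ)) / d ≤ C * ell (T m) ^ 2 / d := by
              rw [sq]; gcongr
          _ ≤ C * (K * W) / d := by gcongr
          _ ≤ _ := by
              have : 0 ≤ K * W := by positivity
              linarith [show (C / d + 1) * K * W = C * (K * W) / d + K * W by ring]
    have hdec : decay (T m) = W / (1 + T m ^ 2) := by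
      rw [decay, hW, eq_div_iff (by positivity), ← Real.rpow_add_one (by positivity)]
      norm_num
    rw [montFn, baseFn, norm_mul, norm_mul, norm_mul, hdec, hB]
    refine ⟨(mul_le_mul (mul_le_mul hp hn (norm_nonneg _) (by positivity)) hk (norm_nonneg _)
      (by positivity)).trans (le_of_eq (by ring)), ?_⟩
    refine (mul_le_mul hp hk (norm_nonneg _) (by positivity)).trans ?_
    have h1 : 1 ≤ (C / d + 1) * K * W :=
      one_le_mul_of_one_le_of_one_le (one_le_mul_of_one_le_of_one_le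
        (le_add_of_nonneg_left (by positivity)) hK1) hW1
    refine (le_mul_of_one_le_right (by positivity) h1).trans (le_of_eq ?_)
    ring
  constructor
  · refine squeeze_zero_norm' (key.mono fun m hm => ?_) h0
    refine (intervalIntegral.norm_integral_le_of_norm_le_const fun u hu => (hm u hu).1).trans
      (le_of_eq ?_)
    norm_num
  · refine squeeze_zero_norm' (key.mono fun m hm => ?_) h0
    refine (intervalIntegral.norm_integral_le_of_norm_le_const fun u hu => (hm u hu).2).trans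
      (le_of_eq ?_)
    norm_num

theorem montTerm_eq_zero {ρ : ℂ} (x t : ℝ) (hρ : xiFn ρ ≠ 0) : montTerm x t ρ = 0 := by
  simp [montTerm, zeroWeight_eq_zero hρ]

/-- The size of a summand. -/
theorem norm_montTerm_le {x t : ℝ} (hx : 1 ≤ x) (ρ : ℂ) :
    ‖montTerm x t ρ‖ ≤ √x * ((zeroWeight ρ : ℝ) * (10 / (1 + (ρ.im - t) ^ 2))) := by
  by_cases hρ : xiFn ρ = 0
  · obtain ⟨h0, h1⟩ := xiFn_zero_strip hρ
    rw [montTerm, norm_mul, norm_mul, Complex.norm_natCast, norm_xPow (by linarith), mul_left_comm]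
    refine mul_le_mul ?_ (mul_le_mul_of_nonneg_left (norm_wKer_le (Or.inl ⟨?_, ?_⟩))
      (Nat.cast_nonneg _)) (by positivity) (Real.sqrt_nonneg x)
    · rw [Real.sqrt_eq_rpow]
      exact Real.rpow_le_rpow_of_exponent_le hx (by linarith)
    · rw [abs_of_pos (by linarith)]; linarith
    · rw [abs_of_neg (by linarith)]; linarith
  · rw [montTerm_eq_zero x t hρ, norm_zero]
    positivity

theorem summable_norm_montTerm {x : ℝ} (hx : 1 ≤ x) (t : ℝ) :
    Summable fun ρ => ‖montTerm x t ρ‖ := by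
  obtain ⟨C, hC, hsum⟩ := exists_sq_sum
  refine summable_of_sum_le (c := √x * (40 * (1 + t ^ 2) * C)) (fun ρ => norm_nonneg _) fun S => ?_
  refine (Finset.sum_le_sum fun ρ _ => norm_montTerm_le hx ρ).trans ?_
  rw [← Finset.mul_sum]
  refine mul_le_mul_of_nonneg_left ((Finset.sum_le_sum (g := fun ρ => 40 * (1 + t ^ 2) *
    ((zeroWeight ρ : ℝ) * (1 / (1 + |ρ.im|) ^ 2))) fun ρ _ => ?_).trans ?_) (Real.sqrt_nonneg x)
  · rw [mul_left_comm]
    refine mul_le_mul_of_nonneg_left ?_ (Nat.cast_nonneg _)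
    rw [mul_one_div, div_le_div_iff₀ (by positivity) (by positivity)]
    nlinarith [sq_abs ρ.im, sq_nonneg (|ρ.im| - 1), sq_nonneg (ρ.im - 2 * t),
      mul_nonneg (sq_nonneg t) (sq_nonneg (ρ.im - t))]
  · rw [← Finset.mul_sum]
    exact mul_le_mul_of_nonneg_left (hsum S) (by positivity)

theorem tendsto_montTerm {x : ℝ} (hx : 1 ≤ x) (t : ℝ) {T : ℕ → ℝ}
    (hT : Tendsto T atTop atTop) :
    Tendsto (fun m => ∑ ρ ∈ zerosUpTo (T m), montTerm x t ρ) atTop
      (𝓝 (∑' ρ, montTerm x t ρ)) := by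
  classical
  have hsupp : Function.support (montTerm x t) ⊆ {ρ | xiFn ρ = 0} := fun ρ hρ => by
    by_contra h
    exact hρ (montTerm_eq_zero x t h)
  have h : HasSum (montTerm x t ∘ ((↑) : {ρ : ℂ | xiFn ρ = 0} → ℂ)) (∑' ρ, montTerm x t ρ) :=
    (hasSum_subtype_iff_of_support_subset hsupp).2 (summable_norm_montTerm hx t).of_norm.hasSum
  have hatTop : Tendsto (fun m => (zerosUpTo (T m)).subtype fun ρ => ρ ∈ {ρ : ℂ | xiFn ρ = 0})
      atTop atTop := by
    refine tendsto_atTop.2 fun S => ?_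
    filter_upwards [hT.eventually (eventually_ge_atTop (∑ ρ ∈ S, |(ρ : ℂ).im|))] with m hm
    intro ρ hρ
    rw [Finset.mem_subtype, mem_zerosUpTo]
    exact ⟨ρ.2, le_trans (Finset.single_le_sum (f := fun ρ : {ρ : ℂ | xiFn ρ = 0} => |(ρ : ℂ).im|)
      (fun i _ => abs_nonneg _) hρ) hm⟩
  refine (h.comp hatTop).congr fun m => ?_
  exact Finset.sum_subtype_of_mem (fun ρ => montTerm x t ρ) fun ρ hρ => (mem_zerosUpTo.1 hρ).1

theorem xPow_poleA (x t : ℝ) : xPow x (poleA t) = (x : ℂ) ^ (1 + I * (t : ℂ)) := by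
  rw [xPow, poleA]; congr 1; push_cast; ring

theorem xPow_poleB (x t : ℝ) : xPow x (poleB t) = (x : ℂ) ^ (-1 + I * (t : ℂ)) := by
  rw [xPow, poleB]; congr 1; push_cast; ring

/-- The left side of `baseFn` vanishes. -/
theorem integral_left_base {x : ℝ} (hx : 1 ≤ x) (t : ℝ) :
    ∫ v : ℝ, baseFn x t (((-1 : ℝ) : ℂ) + v * I) = 0 := by
  have hx0 : 0 < x := by linarith
  obtain ⟨T, hlow, -, hside⟩ := exists_mont_heights
  have hTtop : Tendsto T atTop atTop := tendsto_atTop_mono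
    (fun m => le_trans (le_add_of_nonneg_right (by norm_num)) (hlow m))
    tendsto_natCast_atTop_atTop
  obtain ⟨L, hL⟩ : ∃ L, L = ∫ v : ℝ, baseFn x t (((-1 : ℝ) : ℂ) + v * I) := ⟨_, rfl⟩
  have hR : ∫ v : ℝ, baseFn x t (((2 : ℝ) : ℂ) + v * I) =
      2 * π * (xPow x (poleB t) - xPow x (poleA t)) := by
    have e : ∀ v : ℝ, baseFn x t (((2 : ℝ) : ℂ) + v * I) = (x : ℂ) ^ (I * (t : ℂ)) *
        ((x : ℂ) ^ (((3 / 2 : ℝ) : ℂ) + ((v - t : ℝ) : ℂ) * I) *
          wKer t (((2 : ℝ) : ℂ) + v * I)) := fun v => by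
      rw [baseFn, xPow, ← mul_assoc, ← cpow_add _ _ (ofReal_ne_zero.2 hx0.ne')]
      congr 2
      push_cast
      ring
    rw [funext e, integral_const_mul, integral_right_kernel hx0, if_pos hx, xPow_poleB,
      xPow_poleA, cpow_add _ _ (ofReal_ne_zero.2 hx0.ne'),
      cpow_add _ _ (ofReal_ne_zero.2 hx0.ne'), cpow_neg_one, cpow_one]
    push_cast
    ring
  have hlim : Tendsto (fun m => boxInt (baseFn x t) (-1) 2 (T m)) atTop
      (𝓝 (0 - 0 + I * (2 * π * (xPow x (poleB t) - xPow x (poleA t))) - I * L)) := by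
    refine ((Tendsto.sub ?_ ?_).add (Tendsto.const_mul I ?_)).sub (Tendsto.const_mul I ?_)
    · simpa using (hside x t hx (-1) (by norm_num)).2
    · simpa using (hside x t hx 1 (by norm_num)).2
    · rw [← hR]
      exact intervalIntegral_tendsto_integral (integrable_baseFn_line hx0 t 2 (Or.inr rfl))
        (tendsto_neg_atTop_atBot.comp hTtop) hTtop
    · rw [hL]
      exact intervalIntegral_tendsto_integral (integrable_baseFn_line hx0 t (-1) (Or.inl rfl))
        (tendsto_neg_atTop_atBot.comp hTtop) hTtop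
  have hconst : Tendsto (fun m => boxInt (baseFn x t) (-1) 2 (T m)) atTop
      (𝓝 (2 * π * I * (xPow x (poleB t) - xPow x (poleA t)))) := by
    refine (tendsto_const_nhds).congr' ?_
    filter_upwards [hTtop.eventually (eventually_gt_atTop |t|)] with m hm
    exact (boxInt_base hx0 hm).symm
  have h := tendsto_nhds_unique hlim hconst
  rw [← hL]
  refine (mul_eq_zero.1 (show I * L = 0 by linear_combination -h)).resolve_left I_ne_zero

theorem log_sub_le (v t : ℝ) :
    |Real.log (|v| + 2) - Real.log (|t| + 2)| ≤ 4 * (1 + (v - t) ^ 2) ^ (1 / 4 : ℝ) := by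
  obtain ⟨d, hd⟩ : ∃ d, d = |v - t| := ⟨_, rfl⟩
  have hd0 : 0 ≤ d := hd ▸ abs_nonneg _
  have h1 : ∀ a b : ℝ, |a - b| = d → Real.log (|a| + 2) - Real.log (|b| + 2) ≤
      Real.log (1 + d) := by
    intro a b hab
    rw [← Real.log_div (by positivity) (by positivity)]
    refine Real.log_le_log (by positivity) ((div_le_iff₀ (by positivity)).2 ?_)
    have := abs_sub_abs_le_abs_sub a b
    rw [hab] at this
    nlinarith [mul_nonneg hd0 (abs_nonneg b)]
  have h2 : |Real.log (|v| + 2) - Real.log (|t| + 2)| ≤ Real.log (1 + d) :=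
    abs_sub_le_iff.2 ⟨h1 v t hd.symm, h1 t v (by rw [abs_sub_comm, hd])⟩
  refine h2.trans ?_
  obtain ⟨q, hq⟩ : ∃ q, q = (1 + (v - t) ^ 2) ^ (1 / 4 : ℝ) := ⟨_, rfl⟩
  rw [← hq]
  have hq0 : 0 ≤ q := hq ▸ Real.rpow_nonneg (by positivity) _
  have hq4 : q ^ 4 = 1 + d ^ 2 := by
    rw [hq, hd, sq_abs, ← Real.rpow_natCast, ← Real.rpow_mul (by positivity)]
    norm_num
  have h3 : Real.log (1 + d) ≤ 2 * √(1 + d) := by
    have := Real.log_le_sub_one_of_pos (Real.sqrt_pos.2 (show 0 < 1 + d by linarith))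
    rw [Real.log_sqrt (by linarith)] at this
    linarith
  refine h3.trans ?_
  have h4 : √(1 + d) ≤ 2 * q := by
    refine le_of_pow_le_pow_left₀ (n := 4) (by norm_num) (by positivity) ?_
    rw [mul_pow, hq4, show √(1 + d) ^ 4 = (√(1 + d) ^ 2) ^ 2 by ring,
      Real.sq_sqrt (by linarith)]
    nlinarith [sq_nonneg (d - 1)]
  linarith

/-- **The left side is `O (1 / x)`.** -/
theorem exists_integral_left_mont : ∃ C, 0 ≤ C ∧ ∀ x t : ℝ, 1 ≤ x →
    Integrable (fun v : ℝ => montFn x t (((-1 : ℝ) : ℂ) + v * I)) ∧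
      ‖∫ v : ℝ, montFn x t (((-1 : ℝ) : ℂ) + v * I)‖ ≤ C / x := by
  obtain ⟨C, hC, hb⟩ := exists_negLogDeriv_left
  have hJ : 0 ≤ ∫ y, decay y := integral_nonneg fun y => (decay_pos y).le
  refine ⟨10 * (C + 4) * ∫ y, decay y, by positivity, fun x t hx => ?_⟩
  have hx0 : 0 < x := by linarith
  obtain ⟨G, hG⟩ : ∃ G : ℝ → ℂ, G = fun v : ℝ => montFn x t (((-1 : ℝ) : ℂ) + v * I) -
      ((Real.log (|t| + 2) : ℝ) : ℂ) * baseFn x t (((-1 : ℝ) : ℂ) + v * I) := ⟨_, rfl⟩
  have hGb : ∀ v, ‖G v‖ ≤ 10 * (C + 4) / x * decay (v - t) := fun v => by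
    rw [hG]
    simp only [montFn, baseFn]
    obtain ⟨s, hs⟩ : ∃ s : ℂ, s = ((-1 : ℝ) : ℂ) + v * I := ⟨_, rfl⟩
    rw [← hs, show xPow x s * negLogDeriv s * wKer t s -
        ((Real.log (|t| + 2) : ℝ) : ℂ) * (xPow x s * wKer t s) =
      (negLogDeriv s - ((Real.log (|t| + 2) : ℝ) : ℂ)) * baseFn x t s by rw [baseFn]; ring,
      norm_mul]
    obtain ⟨q, hq⟩ : ∃ q, q = (1 + (v - t) ^ 2) ^ (1 / 4 : ℝ) := ⟨_, rfl⟩
    have hq1 : 1 ≤ q := hq ▸ Real.one_le_rpow (by nlinarith) (by norm_num)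
    have hn : ‖negLogDeriv s - ((Real.log (|t| + 2) : ℝ) : ℂ)‖ ≤ (C + 4) * q := by
      refine (norm_sub_le_norm_sub_add_norm_sub _ ((Real.log (|v| + 2) : ℝ) : ℂ) _).trans ?_
      rw [← Complex.ofReal_sub, Complex.norm_real, Real.norm_eq_abs]
      have h1 := hb (-1) v le_rfl (by norm_num)
      have h2 := log_sub_le v t
      rw [← hq] at h2
      rw [hs]
      nlinarith [mul_le_mul_of_nonneg_left hq1 hC]
    have hw : ‖baseFn x t s‖ ≤ x ^ (-1 - 1 / 2 : ℝ) * (10 / (1 + (v - t) ^ 2)) := by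
      rw [hs]; exact norm_baseFn_line_le hx0 t (-1) v (Or.inl rfl)
    refine (mul_le_mul hn hw (norm_nonneg _) (by positivity)).trans ?_
    have hxp : x ^ (-1 - 1 / 2 : ℝ) ≤ 1 / x := by
      rw [one_div x, ← Real.rpow_neg_one x]
      exact Real.rpow_le_rpow_of_exponent_le hx (by norm_num)
    have hdec : decay (v - t) = q / (1 + (v - t) ^ 2) := by
      rw [decay, hq, eq_div_iff (by positivity), ← Real.rpow_add_one (by positivity)]
      norm_num
    rw [hdec]
    calc (C + 4) * q * (x ^ (-1 - 1 / 2 : ℝ) * (10 / (1 + (v - t) ^ 2)))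
        ≤ (C + 4) * q * (1 / x * (10 / (1 + (v - t) ^ 2))) := by gcongr
      _ = _ := by ring
  have hGc : Continuous G := hG ▸ (continuous_montFn_line hx0 t (-1) (Or.inl rfl)).sub
    (continuous_const.mul (continuous_baseFn_line hx0 t (-1) (Or.inl rfl)))
  have hib := integrable_baseFn_line hx0 t (-1) (Or.inl rfl)
  have hdi : Integrable fun v => 10 * (C + 4) / x * decay (v - t) :=
    (integrable_decay.comp_sub_right t).const_mul _
  have hGi : Integrable G := hdi.mono' hGc.aestronglyMeasurable (Eventually.of_forall hGb)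
  have e : (fun v : ℝ => montFn x t (((-1 : ℝ) : ℂ) + v * I)) = fun v => G v +
      ((Real.log (|t| + 2) : ℝ) : ℂ) * baseFn x t (((-1 : ℝ) : ℂ) + v * I) := by
    funext v; rw [hG]; ring
  rw [e]
  refine ⟨hGi.add (hib.const_mul _), ?_⟩
  rw [integral_add hGi (hib.const_mul _), integral_const_mul, integral_left_base hx, mul_zero,
    add_zero]
  refine (norm_integral_le_of_norm_le hdi (Eventually.of_forall hGb)).trans (le_of_eq ?_)
  rw [integral_const_mul, integral_sub_right_eq_self decay t]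
  ring

/-- **Montgomery's explicit formula.** -/
theorem exists_montgomery_formula : ∃ C, 0 ≤ C ∧ ∀ x t : ℝ, 1 ≤ x →
    ‖(∑' ρ, montTerm x t ρ) + (x : ℂ) ^ (I * (t : ℂ)) * primeSum x t -
      (x : ℂ) ^ (-1 + I * (t : ℂ)) * ((Real.log (|t| + 2) : ℝ) : ℂ)‖ ≤
        C * (1 / x + √x / (1 + t ^ 2)) := by
  obtain ⟨C₁, hC₁, hb⟩ := exists_negLogDeriv_left
  obtain ⟨C₂, hC₂, hleft⟩ := exists_integral_left_mont
  refine ⟨C₁ + C₂ + 10, by positivity, fun x t hx => ?_⟩
  have hx0 : 0 < x := by linarith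
  obtain ⟨T, hlow, hord, hside⟩ := exists_mont_heights
  have hTtop : Tendsto T atTop atTop := tendsto_atTop_mono
    (fun m => le_trans (le_add_of_nonneg_right (by norm_num)) (hlow m))
    tendsto_natCast_atTop_atTop
  obtain ⟨hiL, hL⟩ := hleft x t hx
  obtain ⟨hiR, hR⟩ := integral_right_mont hx0 t
  obtain ⟨L, hLdef⟩ : ∃ L, L = ∫ v : ℝ, montFn x t (((-1 : ℝ) : ℂ) + v * I) := ⟨_, rfl⟩
  have hlim : Tendsto (fun m => boxInt (montFn x t) (-1) 2 (T m)) atTop
      (𝓝 (0 - 0 + I * (2 * π * ((x : ℂ) ^ (I * (t : ℂ)) * primeSum x t -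
        xPow x (poleA t) * negLogDeriv (poleA t))) - I * L)) := by
    refine ((Tendsto.sub ?_ ?_).add (Tendsto.const_mul I ?_)).sub (Tendsto.const_mul I ?_)
    · simpa using (hside x t hx (-1) (by norm_num)).1
    · simpa using (hside x t hx 1 (by norm_num)).1
    · rw [← hR]
      exact intervalIntegral_tendsto_integral hiR (tendsto_neg_atTop_atBot.comp hTtop) hTtop
    · rw [hLdef]
      exact intervalIntegral_tendsto_integral hiL (tendsto_neg_atTop_atBot.comp hTtop) hTtop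
  have hbox : Tendsto (fun m => boxInt (montFn x t) (-1) 2 (T m)) atTop
      (𝓝 (2 * π * I * (xPow x (poleB t) * negLogDeriv (poleB t) -
        xPow x (poleA t) * negLogDeriv (poleA t) + xPow x 1 * wKer t 1 -
          ∑' ρ, montTerm x t ρ))) := by
    refine Tendsto.congr' ?_ (((tendsto_montTerm hx t hTtop).const_sub _).const_mul _)
    filter_upwards [hTtop.eventually (eventually_gt_atTop |t|)] with m hm
    exact (boxInt_montFn hx0 hm (hord m)).symm
  have heq := tendsto_nhds_unique hlim hbox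
  have hπ : (π : ℂ) ≠ 0 := ofReal_ne_zero.2 Real.pi_ne_zero
  have h2 := mul_left_cancel₀ Complex.I_ne_zero
    (show I * (2 * π * ((x : ℂ) ^ (I * (t : ℂ)) * primeSum x t -
        xPow x (poleA t) * negLogDeriv (poleA t)) - L) =
      I * (2 * π * (xPow x (poleB t) * negLogDeriv (poleB t) -
        xPow x (poleA t) * negLogDeriv (poleA t) + xPow x 1 * wKer t 1 -
          ∑' ρ, montTerm x t ρ)) by linear_combination heq)
  have key : (∑' ρ, montTerm x t ρ) + (x : ℂ) ^ (I * (t : ℂ)) * primeSum x t -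
      (x : ℂ) ^ (-1 + I * (t : ℂ)) * ((Real.log (|t| + 2) : ℝ) : ℂ) =
      xPow x (poleB t) * (negLogDeriv (poleB t) - ((Real.log (|t| + 2) : ℝ) : ℂ)) +
        xPow x 1 * wKer t 1 + L / (2 * π) := by
    rw [← xPow_poleB]
    field_simp
    linear_combination h2
  rw [key]
  refine norm_add₃_le.trans ?_
  rw [norm_mul, norm_mul, norm_xPow hx0, norm_xPow hx0, norm_div, norm_mul, Complex.norm_two,
    Complex.norm_real, Real.norm_of_nonneg Real.pi_pos.le, poleB_re, Complex.one_re,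
    show (-1 / 2 - 1 / 2 : ℝ) = -1 by norm_num, show (1 - 1 / 2 : ℝ) = 1 / 2 by norm_num,
    Real.rpow_neg_one, ← Real.sqrt_eq_rpow, hLdef]
  have h3 : ‖negLogDeriv (poleB t) - ((Real.log (|t| + 2) : ℝ) : ℂ)‖ ≤ C₁ :=
    hb (-1 / 2) t (by norm_num) le_rfl
  have h4 : ‖wKer t 1‖ ≤ 10 / (1 + t ^ 2) :=
    (norm_wKer_le (Or.inl ⟨by norm_num, by norm_num⟩)).trans (le_of_eq (by simp))
  have h5 : ‖∫ v : ℝ, montFn x t (((-1 : ℝ) : ℂ) + v * I)‖ / (2 * π) ≤ C₂ / x :=
    (div_le_self (norm_nonneg _) (by linarith [Real.two_le_pi])).trans hL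
  refine (add_le_add (add_le_add (mul_le_mul_of_nonneg_left h3 (by positivity))
    (mul_le_mul_of_nonneg_left h4 (Real.sqrt_nonneg x))) h5).trans ?_
  have h6 : 0 ≤ √x / (1 + t ^ 2) := by positivity
  have h7 : 0 ≤ x⁻¹ := by positivity
  rw [one_div, show C₂ / x = C₂ * x⁻¹ from div_eq_mul_inv _ _,
    show √x * (10 / (1 + t ^ 2)) = 10 * (√x / (1 + t ^ 2)) by ring]
  nlinarith [mul_nonneg hC₁ h6, mul_nonneg hC₂ h6]

end FA.PairCorrelation
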