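import Fermat.Agent.PairCorr.Coefficients
import Fermat.Agent.MeanValue.Dirichlet

/-!
# Mean squares over `[0, T]`

The mean square of the prime sum, of `log (t + 2)`, and the elementary rules for mean squares of
sums.
-/

set_option autoImplicit false

noncomputable section

namespace FA.PairCorrelation

open MeasureTheory Filter Topology Finset
open scoped Real ArithmeticFunction.vonMangoldt

/-- The mean square over `[0, T]`. -/
def sqMean (T : ℝ) (f : ℝ → ℂ) : ℝ := ∫ t in (0 : ℝ)..T, ‖f t‖ ^ 2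

theorem sqMean_nonneg {T : ℝ} (hT : 0 ≤ T) (f : ℝ → ℂ) : 0 ≤ sqMean T f :=
  intervalIntegral.integral_nonneg hT fun _ _ => sq_nonneg _

theorem abs_norm_add_sq_sub (a b : ℂ) {θ : ℝ} (hθ : 0 < θ) :
    |‖a + b‖ ^ 2 - ‖a‖ ^ 2 - ‖b‖ ^ 2| ≤ θ * ‖a‖ ^ 2 + ‖b‖ ^ 2 / θ := by
  have h1 : 2 * (‖a‖ * ‖b‖) ≤ θ * ‖a‖ ^ 2 + ‖b‖ ^ 2 / θ := by
    have h : θ * ‖a‖ ^ 2 + ‖b‖ ^ 2 / θ - 2 * (‖a‖ * ‖b‖) = (θ * ‖a‖ - ‖b‖) ^ 2 / θ := by
      field_simp
      ring
    linarith [div_nonneg (sq_nonneg (θ * ‖a‖ - ‖b‖)) hθ.le]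
  have h2 := norm_add_le a b
  have h3 := abs_norm_sub_norm_le a (-b)
  rw [norm_neg, sub_neg_eq_add] at h3
  rw [abs_le]
  constructor
  · nlinarith [abs_le.1 h3, mul_self_le_mul_self (abs_nonneg (‖a‖ - ‖b‖)) h3,
      abs_mul_abs_self (‖a‖ - ‖b‖)]
  · nlinarith [mul_self_le_mul_self (norm_nonneg (a + b)) h2]

/-- **The cross term.** -/
theorem sqMean_cross {T θ : ℝ} (hT : 0 ≤ T) (hθ : 0 < θ) {a b : ℝ → ℂ} (ha : Continuous a)
    (hb : Continuous b) :
    |sqMean T (fun t => a t + b t) - sqMean T a - sqMean T b| ≤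
      θ * sqMean T a + sqMean T b / θ := by
  have i1 : IntervalIntegrable (fun t => ‖a t + b t‖ ^ 2) volume 0 T :=
    ((ha.add hb).norm.pow 2).intervalIntegrable _ _
  have i2 : IntervalIntegrable (fun t => ‖a t‖ ^ 2) volume 0 T :=
    (ha.norm.pow 2).intervalIntegrable _ _
  have i3 : IntervalIntegrable (fun t => ‖b t‖ ^ 2) volume 0 T :=
    (hb.norm.pow 2).intervalIntegrable _ _
  rw [sqMean, sqMean, sqMean, ← intervalIntegral.integral_sub i1 i2,
    ← intervalIntegral.integral_sub (i1.sub i2) i3, ← intervalIntegral.integral_const_mul,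
    ← intervalIntegral.integral_div, ← intervalIntegral.integral_add (i2.const_mul θ)
      (i3.div_const θ)]
  refine (intervalIntegral.abs_integral_le_integral_abs hT).trans ?_
  exact intervalIntegral.integral_mono_on hT ((i1.sub i2).sub i3).abs
    ((i2.const_mul θ).add (i3.div_const θ)) fun t _ => abs_norm_add_sq_sub (a t) (b t) hθ

/-- A small perturbation. -/
theorem sqMean_perturb {T ε A M : ℝ} (hT : 0 ≤ T) (hε : 0 < ε) (hε1 : ε ≤ 1) {a b : ℝ → ℂ}
    (ha : Continuous a) (hb : Continuous b) (hA : |sqMean T a - A| ≤ ε * M)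
    (hB : sqMean T b ≤ ε ^ 2 * M) (hAM : A ≤ 2 * M) :
    |sqMean T (fun t => a t + b t) - A| ≤ 6 * ε * M := by
  have h := sqMean_cross hT hε ha hb
  have hA0 := sqMean_nonneg hT a
  have hB0 := sqMean_nonneg hT b
  have hM : 0 ≤ M := nonneg_of_mul_nonneg_right (hB0.trans hB) (by positivity)
  have h1 : sqMean T b / ε ≤ ε * M := by
    rw [div_le_iff₀ hε]
    nlinarith
  rw [abs_le] at h hA ⊢
  have h2 : ε * sqMean T a ≤ ε * (2 * M + ε * M) := mul_le_mul_of_nonneg_left (by linarith) hε.le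
  have h3 : ε ^ 2 * M ≤ ε * M := mul_le_mul_of_nonneg_right (by nlinarith) hM
  constructor <;> nlinarith

theorem continuous_natCast_cpow (n : ℕ) (hn : n ≠ 0) :
    Continuous fun t : ℝ => (n : ℂ) ^ (-(Complex.I * (t : ℂ))) :=
  (by fun_prop : Continuous fun t : ℝ => -(Complex.I * (t : ℂ))).const_cpow
    (Or.inl (Nat.cast_ne_zero.2 hn))

theorem norm_coef_term (x t : ℝ) (n : ℕ) :
    ‖(pCoef x n : ℂ) * (n : ℂ) ^ (-(Complex.I * (t : ℂ)))‖ = ‖(pCoef x n : ℂ)‖ := by
  rcases Nat.eq_zero_or_pos n with rfl | hn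
  · simp [pCoef]
  rw [norm_mul, Complex.norm_natCast_cpow_of_pos hn]
  simp

theorem continuous_coef_term (x : ℝ) (n : ℕ) :
    Continuous fun t : ℝ => (pCoef x n : ℂ) * (n : ℂ) ^ (-(Complex.I * (t : ℂ))) := by
  rcases Nat.eq_zero_or_pos n with rfl | hn
  · simpa [pCoef] using continuous_const
  exact continuous_const.mul (continuous_natCast_cpow n hn.ne')

theorem continuous_primeSum {x : ℝ} (hx : 0 < x) : Continuous (primeSum x) :=
  continuous_tsum (continuous_coef_term x) (summable_pCoef hx) fun n t => (norm_coef_term x t n).le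

theorem norm_primeSum_le {x : ℝ} (hx : 0 < x) (t : ℝ) :
    ‖primeSum x t‖ ≤ ∑' n, ‖(pCoef x n : ℂ)‖ :=
  tsum_of_norm_bounded (summable_pCoef hx).hasSum fun n => (norm_coef_term x t n).le

/-- **The mean square of the prime sum.** -/
theorem exists_primeSum_meanSquare {ε : ℝ} (hε : 0 < ε) : ∃ K C, 0 ≤ K ∧ 0 ≤ C ∧
    ∀ x T : ℝ, 1 ≤ x → 0 ≤ T → |sqMean T (primeSum x) - T * Real.log x| ≤
      T * (ε * Real.log x + K) + C * (x * (Real.log x + 1)) := by
  obtain ⟨K, hK, hsq⟩ := exists_sq_coef hε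
  obtain ⟨C, hC, hw⟩ := exists_weighted_coef
  refine ⟨K, 8 * π * C, hK, by positivity, fun x T hx hT => ?_⟩
  have hx0 : 0 < x := by linarith
  obtain ⟨hs, hlog⟩ := hsq x hx
  obtain ⟨S, hS⟩ : ∃ S : ℕ → ℝ → ℂ, S = fun N (t : ℝ) =>
      ∑ n ∈ Icc 1 N, (pCoef x n : ℂ) * (n : ℂ) ^ (-(Complex.I * (t : ℂ))) := ⟨_, rfl⟩
  obtain ⟨B, hB⟩ : ∃ B, B = ∑' n, ‖(pCoef x n : ℂ)‖ := ⟨_, rfl⟩
  have hrange : ∀ (N : ℕ) (f : ℕ → ℂ), f 0 = 0 →
      ∑ n ∈ Icc 1 N, f n = ∑ n ∈ range (N + 1), f n := fun N f hf => by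
    refine sum_subset (fun n hn => ?_) fun n hn hn' => ?_
    · exact mem_range.2 (by have := mem_Icc.1 hn; omega)
    · have : n = 0 := by
        simp only [mem_range] at hn
        simp only [mem_Icc] at hn'
        omega
      rw [this, hf]
  have hlim : Tendsto (fun N => sqMean T (S N)) atTop (𝓝 (sqMean T (primeSum x))) := by
    refine intervalIntegral.tendsto_integral_filter_of_dominated_convergence (fun _ => B ^ 2)
      (Eventually.of_forall fun N => ?_) (Eventually.of_forall fun N => ?_) intervalIntegrable_const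
      (ae_of_all _ fun t _ => ?_)
    · rw [hS]
      exact ((continuous_finsetSum _ fun n _ => continuous_coef_term x n).norm.pow 2
        ).aestronglyMeasurable
    · refine ae_of_all _ fun t _ => ?_
      rw [hS, Real.norm_of_nonneg (sq_nonneg _)]
      refine pow_le_pow_left₀ (norm_nonneg _) ((norm_sum_le _ _).trans ?_) 2
      simp only [norm_coef_term, hB]
      exact (summable_pCoef hx0).sum_le_tsum _ fun n _ => norm_nonneg _
    · rw [hS]
      refine (Tendsto.norm ?_).pow 2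
      refine (((summable_primeSum hx0 t).hasSum.tendsto_sum_nat).comp
        (tendsto_add_atTop_nat 1)).congr fun N => (hrange N _ (by simp [pCoef])).symm
  have hmain : Tendsto (fun N => T * ∑ n ∈ Icc 1 N, ‖(pCoef x n : ℂ)‖ ^ 2) atTop
      (𝓝 (T * ∑' n, pCoef x n ^ 2)) := by
    refine ((hs.hasSum.tendsto_sum_nat.comp (tendsto_add_atTop_nat 1)).congr fun N => ?_
      ).const_mul T
    simp only [Function.comp_apply, Complex.norm_real, Real.norm_eq_abs, sq_abs]
    refine (sum_subset (fun n hn => mem_range.2 (by have := mem_Icc.1 hn; omega))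
      fun n hn hn' => ?_).symm
    have : n = 0 := by
      simp only [mem_range] at hn
      simp only [mem_Icc] at hn'
      omega
    simp [this, pCoef]
  have hN : ∀ N, |sqMean T (S N) - T * ∑ n ∈ Icc 1 N, ‖(pCoef x n : ℂ)‖ ^ 2| ≤
      8 * π * C * (x * (Real.log x + 1)) := fun N => by
    have h := FA.MeanValue.mean_value_dirichlet (fun n => (pCoef x n : ℂ)) N 0 T
    rw [sub_zero] at h
    rw [sqMean, hS]
    refine h.trans ?_
    rw [mul_assoc (8 * π)]
    refine le_trans ?_ (mul_le_mul_of_nonneg_left (hw x hx (N + 1)) (by positivity))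
    rw [mul_sum, mul_sum]
    refine (sum_le_sum fun n hn => ?_).trans (sum_le_sum_of_subset_of_nonneg
      (fun n hn => mem_range.2 (by have := mem_Icc.1 hn; omega)) fun n _ _ => by positivity)
    have hn1 : (1 : ℝ) ≤ n := by exact_mod_cast (mem_Icc.1 hn).1
    rw [Complex.norm_real, Real.norm_eq_abs, sq_abs]
    nlinarith [mul_nonneg (mul_nonneg Real.pi_pos.le (sq_nonneg (pCoef x n)))
      (show 0 ≤ (n : ℝ) - 1 / 2 by linarith)]
  have h2 := le_of_tendsto' (hlim.sub hmain).abs hN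
  have h3 := abs_sub_le (sqMean T (primeSum x)) (T * ∑' n, pCoef x n ^ 2) (T * Real.log x)
  have h4 : |T * (∑' n, pCoef x n ^ 2) - T * Real.log x| ≤ T * (ε * Real.log x + K) := by
    rw [← mul_sub, abs_mul, abs_of_nonneg hT]
    exact mul_le_mul_of_nonneg_left hlog hT
  linarith

/-- **The mean square of `log (|t| + 2)`.** -/
theorem eventually_log_meanSquare {η : ℝ} (hη : 0 < η) : ∀ᶠ T : ℝ in atTop,
    |(∫ t in (0 : ℝ)..T, Real.log (|t| + 2) ^ 2) - T * Real.log T ^ 2| ≤
      η * (T * Real.log T ^ 2) := by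
  obtain ⟨θ, hθ⟩ : ∃ θ, θ = min η 1 / 4 := ⟨_, rfl⟩
  have hθ0 : 0 < θ := hθ ▸ div_pos (lt_min hη one_pos) (by norm_num)
  have hθ1 : θ ≤ 1 / 4 := by rw [hθ]; linarith [min_le_right η 1]
  have hθη : 4 * θ ≤ η := by rw [hθ]; linarith [min_le_left η 1]
  filter_upwards [eventually_ge_atTop 3, Real.tendsto_log_atTop.eventually
    (eventually_ge_atTop ((|Real.log θ| + 1) / θ))] with T hT hlT
  rw [div_le_iff₀ hθ0] at hlT
  obtain ⟨L, hL⟩ : ∃ L, L = Real.log T := ⟨_, rfl⟩
  rw [← hL] at hlT ⊢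
  have hT0 : 0 ≤ T := by linarith
  have hL0 : 0 ≤ L := hL ▸ Real.log_nonneg (by linarith)
  have hc : Continuous fun t : ℝ => Real.log (|t| + 2) ^ 2 :=
    ((continuous_abs.add continuous_const).log fun t =>
      (by positivity : (0 : ℝ) < |t| + 2).ne').pow 2
  have hup : ∫ t in (0 : ℝ)..T, Real.log (|t| + 2) ^ 2 ≤ T * ((1 + θ) * L) ^ 2 := by
    refine (intervalIntegral.integral_mono_on hT0 (hc.intervalIntegrable _ _)
      intervalIntegrable_const (g := fun _ => ((1 + θ) * L) ^ 2) fun t ht => ?_).trans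
      (le_of_eq (by rw [intervalIntegral.integral_const, smul_eq_mul, sub_zero]))
    refine pow_le_pow_left₀ (Real.log_nonneg (by linarith [abs_nonneg t])) ?_ 2
    refine (Real.log_le_log (by positivity) (show |t| + 2 ≤ 2 * T by
      rw [abs_of_nonneg ht.1]; linarith [ht.2])).trans ?_
    rw [Real.log_mul two_ne_zero (by linarith), ← hL]
    have : Real.log 2 ≤ 1 := by linarith [Real.log_le_sub_one_of_pos (zero_lt_two' ℝ)]
    linarith [abs_nonneg (Real.log θ), show (1 + θ) * L = L + L * θ by ring]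
  have hlow : (1 - θ) * T * ((1 - θ) * L) ^ 2 ≤ ∫ t in (0 : ℝ)..T, Real.log (|t| + 2) ^ 2 := by
    have h1 : (1 - θ) * T * ((1 - θ) * L) ^ 2 ≤ ∫ t in θ * T..T, Real.log (|t| + 2) ^ 2 := by
      refine (le_of_eq ?_).trans (intervalIntegral.integral_mono_on (by nlinarith)
        intervalIntegrable_const (hc.intervalIntegrable _ _) (f := fun _ => ((1 - θ) * L) ^ 2)
          fun t ht => ?_)
      · rw [intervalIntegral.integral_const, smul_eq_mul]; ring
      refine pow_le_pow_left₀ (mul_nonneg (by linarith) hL0) ?_ 2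
      have ht0 : 0 < θ * T := mul_pos hθ0 (by linarith)
      refine le_trans ?_ (Real.log_le_log ht0 (show θ * T ≤ |t| + 2 by
        linarith [ht.1, le_abs_self t]))
      rw [Real.log_mul hθ0.ne' (by linarith), ← hL]
      linarith [neg_abs_le (Real.log θ), show (1 - θ) * L = L - L * θ by ring]
    refine h1.trans ?_
    rw [← intervalIntegral.integral_add_adjacent_intervals (hc.intervalIntegrable 0 (θ * T))
      (hc.intervalIntegrable _ _)]
    exact le_add_of_nonneg_left (intervalIntegral.integral_nonneg (by positivity)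
      fun _ _ => sq_nonneg _)
  have hTL : 0 ≤ T * L ^ 2 := by positivity
  have h2 := mul_le_mul_of_nonneg_right hθη hTL
  rw [abs_le]
  constructor
  · nlinarith [mul_nonneg (mul_nonneg hθ0.le hθ0.le) hTL, mul_nonneg (mul_nonneg hθ0.le hθ0.le)
      (mul_nonneg (show 0 ≤ 3 - θ by linarith) hTL)]
  · nlinarith [mul_nonneg (mul_nonneg hθ0.le (show 0 ≤ 1 - θ by linarith)) hTL]

end FA.PairCorrelation

end
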