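import Fermat.Agent.PairCorr.Formula

/-!
# The pair sum as a mean square

With `cauchy u = 1 / (1 + u²)` and `wgt u = 4 / (4 + u²)` one has
`∫ cauchy (t - a) cauchy (t - b) dt = π/2 wgt (a - b)`, so that the pair sum of a finite set of
ordinates is `1 / 2π` times the mean square of `2 ∑ x ^ (iγ) / (1 + (t - γ)²)` over the line.
-/

set_option autoImplicit false

noncomputable section

namespace FA.PairCorrelation

open MeasureTheory Filter Topology Finset
open scoped Real

/-- The Cauchy kernel. -/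
def cauchy (u : ℝ) : ℝ := 1 / (1 + u ^ 2)

/-- Montgomery's weight. -/
def wgt (u : ℝ) : ℝ := 4 / (4 + u ^ 2)

theorem cauchy_pos (u : ℝ) : 0 < cauchy u := by unfold cauchy; positivity

theorem cauchy_le_one (u : ℝ) : cauchy u ≤ 1 := by
  unfold cauchy
  rw [div_le_one (by positivity)]
  linarith [sq_nonneg u]

theorem continuous_cauchy : Continuous cauchy := by
  unfold cauchy
  exact continuous_const.div (by fun_prop) fun u => by positivity

theorem integrable_cauchy_sub (a : ℝ) : Integrable fun t => cauchy (t - a) := by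
  simpa only [cauchy, one_div] using integrable_inv_one_add_sq.comp_sub_right a

theorem integrable_cauchy_mul (a b : ℝ) :
    Integrable fun t => cauchy (t - a) * cauchy (t - b) := by
  refine (integrable_cauchy_sub a).mono'
    ((continuous_cauchy.comp (by fun_prop)).mul (continuous_cauchy.comp (by fun_prop))
      ).aestronglyMeasurable (Eventually.of_forall fun t => ?_)
  rw [Real.norm_of_nonneg (mul_nonneg (cauchy_pos _).le (cauchy_pos _).le)]
  exact mul_le_of_le_one_right (cauchy_pos _).le (cauchy_le_one _)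

/-- `arctan` over a finite interval. -/
theorem integral_cauchy_sub (a u v : ℝ) :
    ∫ t in u..v, cauchy (t - a) = Real.arctan (v - a) - Real.arctan (u - a) := by
  rw [intervalIntegral.integral_comp_sub_right (f := cauchy)]
  simp only [cauchy, one_div, integral_inv_one_add_sq]

/-- **The convolution of two Cauchy kernels.** -/
theorem integral_cauchy_mul_self (d : ℝ) :
    ∫ u : ℝ, cauchy u * cauchy (u - d) = π / 2 * wgt d := by
  have hi : Integrable fun u => cauchy u * cauchy (u - d) := by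
    simpa using integrable_cauchy_mul 0 d
  have hd : ∀ (c u : ℝ), HasDerivAt (fun u => Real.arctan (u - c)) (1 / (1 + (u - c) ^ 2)) u :=
    fun c u => by simpa using ((hasDerivAt_id u).sub_const c).arctan
  have hl : ∀ c : ℝ, Tendsto (fun u => Real.arctan (u - c)) atBot (𝓝 (-(π / 2))) := fun c =>
    (Real.tendsto_arctan_atBot.mono_right nhdsWithin_le_nhds).comp
      (tendsto_atBot_add_const_right _ (-c) tendsto_id)
  have hr : ∀ c : ℝ, Tendsto (fun u => Real.arctan (u - c)) atTop (𝓝 (π / 2)) := fun c =>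
    (Real.tendsto_arctan_atTop.mono_right nhdsWithin_le_nhds).comp
      (tendsto_atTop_add_const_right _ (-c) tendsto_id)
  rcases eq_or_ne d 0 with rfl | hd0
  · obtain ⟨G, hG⟩ : ∃ G : ℝ → ℝ,
        G = fun u => (u / (1 + u ^ 2) + Real.arctan (u - 0)) / 2 := ⟨_, rfl⟩
    have hG' : ∀ u, HasDerivAt G (cauchy u * cauchy (u - 0)) u := fun u => by
      have h1 : HasDerivAt (fun u : ℝ => 1 + u ^ 2) (2 * u) u := by
        simpa using ((hasDerivAt_id u).pow 2).const_add 1
      have h2 := (((hasDerivAt_id u).div h1 (by positivity)).add (hd 0 u)).div_const 2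
      rw [hG]
      refine h2.congr_deriv ?_
      simp only [cauchy, id, sub_zero]
      field_simp
      ring
    have hz : Tendsto (fun u : ℝ => u / (1 + u ^ 2)) (cocompact ℝ) (𝓝 0) := by
      refine squeeze_zero_norm (fun u => ?_) (tendsto_inv_atTop_zero.comp
        (tendsto_norm_cocompact_atTop (E := ℝ)))
      simp only [Function.comp_apply, norm_div, Real.norm_eq_abs]
      rcases eq_or_ne u 0 with rfl | hu
      · simp
      rw [abs_of_pos (show 0 < 1 + u ^ 2 by positivity), ← one_div,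
        div_le_div_iff₀ (by positivity) (abs_pos.2 hu), abs_mul_abs_self]
      nlinarith
    rw [integral_of_hasDerivAt_of_tendsto hG' hi
      (hG ▸ ((hz.mono_left atBot_le_cocompact).add (hl 0)).div_const 2)
      (hG ▸ ((hz.mono_left atTop_le_cocompact).add (hr 0)).div_const 2), wgt]
    ring
  · obtain ⟨G, hG⟩ : ∃ G : ℝ → ℝ, G = fun u => (Real.log ((1 + u ^ 2) / (1 + (u - d) ^ 2)) +
        d * Real.arctan (u - 0) + d * Real.arctan (u - d)) / (d * (4 + d ^ 2)) := ⟨_, rfl⟩
    have hG' : ∀ u, HasDerivAt G (cauchy u * cauchy (u - d)) u := fun u => by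
      have h1 : HasDerivAt (fun u : ℝ => 1 + u ^ 2) (2 * u) u := by
        simpa using ((hasDerivAt_id u).pow 2).const_add 1
      have h2 : HasDerivAt (fun u : ℝ => 1 + (u - d) ^ 2) (2 * (u - d)) u := by
        simpa using (((hasDerivAt_id u).sub_const d).pow 2).const_add 1
      have h3 := (((h1.div h2 (by positivity)).log (by simp only [Pi.div_apply]; positivity)).add
        ((hd 0 u).const_mul d)).add ((hd d u).const_mul d)
      rw [hG]
      refine (h3.div_const (d * (4 + d ^ 2))).congr_deriv ?_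
      simp only [cauchy, sub_zero, Pi.div_apply]
      field_simp
      ring
    have hlog : Tendsto (fun u : ℝ => Real.log ((1 + u ^ 2) / (1 + (u - d) ^ 2))) (cocompact ℝ)
        (𝓝 0) := by
      rw [← Real.log_one]
      refine ((Real.continuousAt_log one_ne_zero).tendsto).comp ?_
      have hb : Tendsto (fun u : ℝ => 4 * (|d| + d ^ 2 + 1) * ‖u‖⁻¹) (cocompact ℝ) (𝓝 0) := by
        simpa using (tendsto_inv_atTop_zero.comp (tendsto_norm_cocompact_atTop (E := ℝ))).const_mul
          (4 * (|d| + d ^ 2 + 1))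
      refine tendsto_sub_nhds_zero_iff.1 (squeeze_zero_norm' ?_ hb)
      filter_upwards [(tendsto_norm_cocompact_atTop (E := ℝ)).eventually
        (eventually_ge_atTop (2 * |d| + 1))] with u hu
      rw [Real.norm_eq_abs] at hu
      have hu0 : 0 < |u| := by linarith [abs_nonneg d]
      have h1 : (u / 2) ^ 2 ≤ (u - d) ^ 2 := by
        refine sq_le_sq.2 ?_
        rw [abs_div, abs_two]
        linarith [abs_sub_abs_le_abs_sub u d]
      rw [Real.norm_eq_abs, Real.norm_eq_abs, div_sub_one (by positivity), abs_div,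
        abs_of_pos (show 0 < 1 + (u - d) ^ 2 by positivity), ← div_eq_mul_inv,
        div_le_div_iff₀ (by positivity) hu0]
      have h2 : |1 + u ^ 2 - (1 + (u - d) ^ 2)| ≤ 2 * |d| * |u| + d ^ 2 := by
        rw [show 1 + u ^ 2 - (1 + (u - d) ^ 2) = 2 * (d * u) - d ^ 2 by ring]
        refine (abs_sub _ _).trans (le_of_eq ?_)
        rw [abs_mul, abs_mul, abs_two, abs_pow, sq_abs]
        ring
      refine (mul_le_mul_of_nonneg_right h2 hu0.le).trans ?_
      have h3 : d ^ 2 * |u| ≤ |d| * u ^ 2 := by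
        rw [← sq_abs d, ← sq_abs u]
        nlinarith [mul_nonneg (mul_nonneg (abs_nonneg d) hu0.le)
          (show 0 ≤ |u| - |d| by linarith [abs_nonneg d])]
      have h4 : 2 * |d| * u ^ 2 ≤ (d ^ 2 + 1) * u ^ 2 := by
        refine mul_le_mul_of_nonneg_right ?_ (sq_nonneg u)
        nlinarith [sq_nonneg (|d| - 1), sq_abs d]
      have h5 := mul_le_mul_of_nonneg_left h1 (show 0 ≤ 4 * (|d| + d ^ 2 + 1) by positivity)
      have h6 : 0 ≤ 4 * (|d| + d ^ 2 + 1) := by positivity
      calc (2 * |d| * |u| + d ^ 2) * |u| = 2 * |d| * u ^ 2 + d ^ 2 * |u| := by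
            rw [← sq_abs u]; ring
        _ ≤ 4 * (|d| + d ^ 2 + 1) * (u / 2) ^ 2 := by linarith
        _ ≤ _ := by linarith
    have hGl := ((((hlog.mono_left atBot_le_cocompact).add ((hl 0).const_mul d)).add
      ((hl d).const_mul d)).div_const (d * (4 + d ^ 2)))
    have hGr := ((((hlog.mono_left atTop_le_cocompact).add ((hr 0).const_mul d)).add
      ((hr d).const_mul d)).div_const (d * (4 + d ^ 2)))
    rw [integral_of_hasDerivAt_of_tendsto hG' hi (hG ▸ hGl) (hG ▸ hGr), wgt]
    field_simp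
    ring

theorem integral_cauchy_mul (a b : ℝ) :
    ∫ t : ℝ, cauchy (t - a) * cauchy (t - b) = π / 2 * wgt (a - b) := by
  rw [← integral_cauchy_mul_self (a - b),
    ← integral_add_right_eq_self (fun t => cauchy (t - a) * cauchy (t - b)) b]
  refine integral_congr_ae (Eventually.of_forall fun t => ?_)
  simp only [cauchy]
  ring


/-- The zero sum of a finite set. -/
def zeroPart (x : ℝ) (S : Finset ℂ) (t : ℝ) : ℂ :=
  ∑ ρ ∈ S, ((2 * (FA.ExplicitFormula.zeroWeight ρ : ℝ) * cauchy (t - ρ.im) : ℝ) : ℂ) *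
    Complex.exp (((Real.log x * ρ.im : ℝ) : ℂ) * Complex.I)

/-- The pair sum of a finite set. -/
def pairSum (x : ℝ) (S : Finset ℂ) : ℝ :=
  ∑ ρ ∈ S, ∑ σ ∈ S, (FA.ExplicitFormula.zeroWeight ρ : ℝ) * FA.ExplicitFormula.zeroWeight σ *
    (Real.cos (Real.log x * (ρ.im - σ.im)) * wgt (ρ.im - σ.im))

theorem norm_zeroPart_le (x : ℝ) (S : Finset ℂ) (t : ℝ) :
    ‖zeroPart x S t‖ ≤
      2 * ∑ ρ ∈ S, (FA.ExplicitFormula.zeroWeight ρ : ℝ) * cauchy (t - ρ.im) := by
  rw [mul_sum]
  refine (norm_sum_le _ _).trans (sum_le_sum fun ρ _ => ?_)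
  rw [norm_mul, Complex.norm_exp_ofReal_mul_I, mul_one, Complex.norm_real,
    Real.norm_of_nonneg (mul_nonneg (by positivity) (cauchy_pos _).le), mul_assoc]

theorem continuous_zeroPart (x : ℝ) (S : Finset ℂ) : Continuous (zeroPart x S) := by
  refine continuous_finsetSum _ fun ρ _ => Continuous.mul ?_ continuous_const
  exact Complex.continuous_ofReal.comp
    (continuous_const.mul (continuous_cauchy.comp (by fun_prop)))

theorem norm_sq_zeroPart (x : ℝ) (S : Finset ℂ) (t : ℝ) :
    ‖zeroPart x S t‖ ^ 2 = ∑ ρ ∈ S, ∑ σ ∈ S,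
      4 * ((FA.ExplicitFormula.zeroWeight ρ : ℝ) * FA.ExplicitFormula.zeroWeight σ *
        Real.cos (Real.log x * (ρ.im - σ.im))) * (cauchy (t - ρ.im) * cauchy (t - σ.im)) := by
  rw [Complex.sq_norm, Complex.normSq_apply, zeroPart, Complex.re_sum, Complex.im_sum]
  simp only [Complex.re_ofReal_mul, Complex.im_ofReal_mul, Complex.exp_ofReal_mul_I_re,
    Complex.exp_ofReal_mul_I_im]
  rw [sum_mul_sum, sum_mul_sum, ← sum_add_distrib]
  refine sum_congr rfl fun ρ _ => ?_
  rw [← sum_add_distrib]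
  refine sum_congr rfl fun σ _ => ?_
  rw [mul_sub, Real.cos_sub]
  ring

/-- **The pair sum is a mean square.** -/
theorem integral_norm_sq_zeroPart (x : ℝ) (S : Finset ℂ) :
    Integrable (fun t => ‖zeroPart x S t‖ ^ 2) ∧
      ∫ t : ℝ, ‖zeroPart x S t‖ ^ 2 = 2 * π * pairSum x S := by
  simp only [norm_sq_zeroPart]
  refine ⟨integrable_finsetSum _ fun ρ _ => integrable_finsetSum _ fun σ _ =>
    (integrable_cauchy_mul _ _).const_mul _, ?_⟩
  rw [integral_finsetSum _ fun ρ _ => integrable_finsetSum _ fun σ _ =>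
    (integrable_cauchy_mul _ _).const_mul _, pairSum, mul_sum]
  refine sum_congr rfl fun ρ _ => ?_
  rw [integral_finsetSum _ fun σ _ => (integrable_cauchy_mul _ _).const_mul _, mul_sum]
  refine sum_congr rfl fun σ _ => ?_
  rw [integral_const_mul, integral_cauchy_mul]
  ring

theorem pairSum_nonneg (x : ℝ) (S : Finset ℂ) : 0 ≤ pairSum x S := by
  have h := (integral_norm_sq_zeroPart x S).2
  have h2 : 0 ≤ ∫ t : ℝ, ‖zeroPart x S t‖ ^ 2 := integral_nonneg fun t => sq_nonneg _
  rw [h] at h2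
  exact nonneg_of_mul_nonneg_right h2 (by positivity)

theorem pairSum_inv (x : ℝ) (S : Finset ℂ) : pairSum x⁻¹ S = pairSum x S := by
  simp only [pairSum, Real.log_inv, neg_mul, Real.cos_neg]

/-- The pair sum as a complex sum. -/
theorem pairSum_eq_cpow {x : ℝ} (hx : 0 < x) (S : Finset ℂ) :
    (pairSum x S : ℂ) = ∑ ρ ∈ S, ∑ σ ∈ S,
      ((FA.ExplicitFormula.zeroWeight ρ : ℂ) * FA.ExplicitFormula.zeroWeight σ) *
        ((x : ℂ) ^ (Complex.I * ((ρ.im - σ.im : ℝ) : ℂ)) * (wgt (ρ.im - σ.im) : ℂ)) := by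
  refine Complex.ext ?_ ?_
  · simp only [Complex.ofReal_re, Complex.re_sum, pairSum]
    refine sum_congr rfl fun ρ _ => sum_congr rfl fun σ _ => ?_
    rw [cpow_pos_eq hx, show (Real.log x : ℂ) * (Complex.I * ((ρ.im - σ.im : ℝ) : ℂ)) =
      ((Real.log x * (ρ.im - σ.im) : ℝ) : ℂ) * Complex.I by push_cast; ring]
    obtain ⟨θ, hθ⟩ : ∃ θ, θ = Real.log x * (ρ.im - σ.im) := ⟨_, rfl⟩
    rw [← hθ]
    simp [Complex.exp_ofReal_mul_I_re]
  · simp only [Complex.ofReal_im, Complex.im_sum]
    symm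
    have key : ∀ ρ σ : ℂ, (((FA.ExplicitFormula.zeroWeight ρ : ℂ) *
        FA.ExplicitFormula.zeroWeight σ) * ((x : ℂ) ^ (Complex.I * ((ρ.im - σ.im : ℝ) : ℂ)) *
          (wgt (ρ.im - σ.im) : ℂ))).im = (FA.ExplicitFormula.zeroWeight ρ : ℝ) *
        FA.ExplicitFormula.zeroWeight σ *
          (Real.sin (Real.log x * (ρ.im - σ.im)) * wgt (ρ.im - σ.im)) := fun ρ σ => by
      rw [cpow_pos_eq hx, show (Real.log x : ℂ) * (Complex.I * ((ρ.im - σ.im : ℝ) : ℂ)) =
        ((Real.log x * (ρ.im - σ.im) : ℝ) : ℂ) * Complex.I by push_cast; ring]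
      obtain ⟨θ, hθ⟩ : ∃ θ, θ = Real.log x * (ρ.im - σ.im) := ⟨_, rfl⟩
      rw [← hθ]
      simp [Complex.exp_ofReal_mul_I_im]
    simp only [key]
    refine eq_zero_of_neg_eq ?_
    conv_rhs => rw [sum_comm]
    rw [← sum_neg_distrib]
    refine sum_congr rfl fun ρ _ => ?_
    rw [← sum_neg_distrib]
    refine sum_congr rfl fun σ _ => ?_
    rw [show σ.im - ρ.im = -(ρ.im - σ.im) by ring, mul_neg, Real.sin_neg,
      show wgt (-(ρ.im - σ.im)) = wgt (ρ.im - σ.im) by simp only [wgt, neg_sq]]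
    ring

end FA.PairCorrelation

end
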